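/-
GATE-B / GB-B4-DATUM (helper12), D1a: **the carrier of a Hecke–Galois datum**.

For a commutative ring `A` which is finite and flat over `ℤ` (the anemic Hecke algebra, by S22), a
complete local noetherian ring `𝒪` and a residual eigencharacter `θ : A →+* k` (`k` the residue
field of `𝒪`), the localisation

  `Tloc 𝒪 θ := (𝒪 ⊗[ℤ] A)_𝔪`,  `𝔪 := ker (𝒪 ⊗ A → k)`,

carries ALL the instances in the header of `CuspForm.HeckeGaloisRepDatum` and the fields `π`,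
`residue_π`, `adjoin_range_π`, `exists_point`, `residue_surjective` of that structure hold for
`piT 𝒪 θ : A →+* Tloc 𝒪 θ`.  Only Mathlib and the Prelude lemma
`Algebra.finite_maximalSpectrum_and_bijective_localization_of_module_finite` are used.
-/
import Mathlib
import Fermat.Prelude.Thm_Algebra_finite_maximalSpectrum_and_bijective_localization_of_module_finite

set_option autoImplicit false

noncomputable section

namespace Fermat.Agent.GB.B4.Datum.Carrier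

open TensorProduct IsLocalRing

variable (𝒪 : Type) [CommRing 𝒪] [IsLocalRing 𝒪] {A : Type} [CommRing A]

/-- the residual character of `𝒪 ⊗[ℤ] A` attached to `θ : A →+* k`. -/
def thetaO (θ : A →+* ResidueField 𝒪) : 𝒪 ⊗[ℤ] A →ₐ[𝒪] ResidueField 𝒪 :=
  Algebra.TensorProduct.lift (Algebra.ofId 𝒪 (ResidueField 𝒪)) θ.toIntAlgHom
    (fun _ _ => Commute.all _ _)

theorem thetaO_tmul (θ : A →+* ResidueField 𝒪) (x : 𝒪) (t : A) :
    thetaO 𝒪 θ (x ⊗ₜ t) = residue 𝒪 x * θ t := by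
  rw [thetaO, Algebra.TensorProduct.lift_tmul]
  rfl

theorem thetaO_algebraMap (θ : A →+* ResidueField 𝒪) (x : 𝒪) :
    thetaO 𝒪 θ (algebraMap 𝒪 (𝒪 ⊗[ℤ] A) x) = residue 𝒪 x :=
  (thetaO 𝒪 θ).commutes x

theorem thetaO_surjective (θ : A →+* ResidueField 𝒪) : Function.Surjective (thetaO 𝒪 θ) := by
  intro y
  obtain ⟨x, rfl⟩ := residue_surjective y
  exact ⟨x ⊗ₜ 1, by rw [thetaO_tmul, map_one, mul_one]⟩

/-- the maximal ideal of `𝒪 ⊗[ℤ] A` cut out by `θ`. -/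
def maxθ (θ : A →+* ResidueField 𝒪) : Ideal (𝒪 ⊗[ℤ] A) := RingHom.ker (thetaO 𝒪 θ)

instance maxθ_isMaximal (θ : A →+* ResidueField 𝒪) : (maxθ 𝒪 θ).IsMaximal :=
  RingHom.ker_isMaximal_of_surjective _ (thetaO_surjective 𝒪 θ)

theorem mem_maxθ (θ : A →+* ResidueField 𝒪) (a : 𝒪 ⊗[ℤ] A) :
    a ∈ maxθ 𝒪 θ ↔ thetaO 𝒪 θ a = 0 := RingHom.mem_ker

/-- **the carrier**: the localisation of `𝒪 ⊗[ℤ] A` at the maximal ideal of `θ`. -/
def Tloc (θ : A →+* ResidueField 𝒪) : Type := Localization.AtPrime (maxθ 𝒪 θ)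

instance instCommRingTloc (θ : A →+* ResidueField 𝒪) : CommRing (Tloc 𝒪 θ) :=
  inferInstanceAs (CommRing (Localization.AtPrime (maxθ 𝒪 θ)))

instance instAlgebraTloc (θ : A →+* ResidueField 𝒪) : Algebra (𝒪 ⊗[ℤ] A) (Tloc 𝒪 θ) :=
  inferInstanceAs (Algebra (𝒪 ⊗[ℤ] A) (Localization.AtPrime (maxθ 𝒪 θ)))

instance instAlgebraOTloc (θ : A →+* ResidueField 𝒪) : Algebra 𝒪 (Tloc 𝒪 θ) :=
  inferInstanceAs (Algebra 𝒪 (Localization.AtPrime (maxθ 𝒪 θ)))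

instance instIsScalarTowerTloc (θ : A →+* ResidueField 𝒪) :
    IsScalarTower 𝒪 (𝒪 ⊗[ℤ] A) (Tloc 𝒪 θ) :=
  inferInstanceAs (IsScalarTower 𝒪 (𝒪 ⊗[ℤ] A) (Localization.AtPrime (maxθ 𝒪 θ)))

instance instIsLocalizationTloc (θ : A →+* ResidueField 𝒪) :
    IsLocalization.AtPrime (Tloc 𝒪 θ) (maxθ 𝒪 θ) :=
  inferInstanceAs (IsLocalization.AtPrime (Localization.AtPrime (maxθ 𝒪 θ)) (maxθ 𝒪 θ))

instance instIsLocalRingTloc (θ : A →+* ResidueField 𝒪) : IsLocalRing (Tloc 𝒪 θ) :=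
  IsLocalization.AtPrime.isLocalRing (Tloc 𝒪 θ) (maxθ 𝒪 θ)

/-- the structure map `A → Tloc`. -/
def piT (θ : A →+* ResidueField 𝒪) : A →+* Tloc 𝒪 θ :=
  (algebraMap (𝒪 ⊗[ℤ] A) (Tloc 𝒪 θ)).comp
    (Algebra.TensorProduct.includeRight : A →ₐ[ℤ] 𝒪 ⊗[ℤ] A).toRingHom

theorem piT_apply (θ : A →+* ResidueField 𝒪) (t : A) :
    piT 𝒪 θ t = algebraMap (𝒪 ⊗[ℤ] A) (Tloc 𝒪 θ) ((1 : 𝒪) ⊗ₜ t) := rfl

theorem algebraMap_tmul (θ : A →+* ResidueField 𝒪) (x : 𝒪) (t : A) :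
    algebraMap (𝒪 ⊗[ℤ] A) (Tloc 𝒪 θ) (x ⊗ₜ t) = x • piT 𝒪 θ t := by
  have h : (x ⊗ₜ[ℤ] t : 𝒪 ⊗[ℤ] A) = x • ((1 : 𝒪) ⊗ₜ[ℤ] t) := by
    rw [TensorProduct.smul_tmul', smul_eq_mul, mul_one]
  rw [piT_apply, h]
  exact map_smul (IsScalarTower.toAlgHom 𝒪 (𝒪 ⊗[ℤ] A) (Tloc 𝒪 θ)) x _

/-- an element of `𝒪 ⊗ A` maps into the maximal ideal of `Tloc` iff `θ` kills it. -/
theorem algebraMap_mem_maximalIdeal_iff (θ : A →+* ResidueField 𝒪) (a : 𝒪 ⊗[ℤ] A) :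
    algebraMap (𝒪 ⊗[ℤ] A) (Tloc 𝒪 θ) a ∈ maximalIdeal (Tloc 𝒪 θ) ↔ thetaO 𝒪 θ a = 0 := by
  rw [IsLocalization.AtPrime.to_map_mem_maximal_iff (Tloc 𝒪 θ) (maxθ 𝒪 θ), mem_maxθ]

theorem residue_algebraMap_eq_iff (θ : A →+* ResidueField 𝒪) (a b : 𝒪 ⊗[ℤ] A) :
    residue (Tloc 𝒪 θ) (algebraMap _ _ a) = residue (Tloc 𝒪 θ) (algebraMap _ _ b) ↔
      thetaO 𝒪 θ a = thetaO 𝒪 θ b := by
  rw [← sub_eq_zero, ← map_sub, ← map_sub, residue_eq_zero_iff, algebraMap_mem_maximalIdeal_iff,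
    map_sub, sub_eq_zero]

theorem residue_algebraMap_O (θ : A →+* ResidueField 𝒪) (a : 𝒪 ⊗[ℤ] A) (x : 𝒪)
    (hx : residue 𝒪 x = thetaO 𝒪 θ a) :
    residue (Tloc 𝒪 θ) (algebraMap 𝒪 (Tloc 𝒪 θ) x) =
      residue (Tloc 𝒪 θ) (algebraMap (𝒪 ⊗[ℤ] A) (Tloc 𝒪 θ) a) := by
  rw [IsScalarTower.algebraMap_apply 𝒪 (𝒪 ⊗[ℤ] A) (Tloc 𝒪 θ), residue_algebraMap_eq_iff,
    thetaO_algebraMap, hx]

instance isLocalHom_algebraMap (θ : A →+* ResidueField 𝒪) :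
    IsLocalHom (algebraMap 𝒪 (Tloc 𝒪 θ)) := by
  refine ⟨fun x hx => ?_⟩
  by_contra hx'
  have h0 : residue 𝒪 x = 0 := (residue_eq_zero_iff x).mpr hx'
  have h1 : thetaO 𝒪 θ (algebraMap 𝒪 (𝒪 ⊗[ℤ] A) x) = 0 := by
    rw [thetaO_algebraMap, h0]
  have h2 := (algebraMap_mem_maximalIdeal_iff 𝒪 θ _).mpr h1
  rw [← IsScalarTower.algebraMap_apply] at h2
  exact h2 hx

/-- `residue_π` -/
theorem residue_piT (θ : A →+* ResidueField 𝒪) (t : A) :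
    residue (Tloc 𝒪 θ) (piT 𝒪 θ t) = ResidueField.map (algebraMap 𝒪 (Tloc 𝒪 θ)) (θ t) := by
  obtain ⟨x, hx⟩ := residue_surjective (θ t)
  have h1 : ResidueField.map (algebraMap 𝒪 (Tloc 𝒪 θ)) (θ t) =
      residue (Tloc 𝒪 θ) (algebraMap 𝒪 (Tloc 𝒪 θ) x) := by
    rw [← hx]
    exact ResidueField.map_residue _ x
  rw [h1, piT_apply, residue_algebraMap_O 𝒪 θ ((1 : 𝒪) ⊗ₜ t) x]
  rw [hx, thetaO_tmul, map_one, one_mul]

/-- `exists_point` -/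
theorem exists_point (θ : A →+* ResidueField 𝒪) (χ : A →+* 𝒪)
    (hχ : ∀ t : A, residue 𝒪 (χ t) = θ t) :
    ∃ ψ : Tloc 𝒪 θ →ₐ[𝒪] 𝒪, ∀ t : A, ψ (piT 𝒪 θ t) = χ t := by
  let χO : 𝒪 ⊗[ℤ] A →ₐ[𝒪] 𝒪 :=
    Algebra.TensorProduct.lift (AlgHom.id 𝒪 𝒪) χ.toIntAlgHom (fun _ _ => Commute.all _ _)
  have hχO : ∀ (x : 𝒪) (t : A), χO (x ⊗ₜ t) = x * χ t := fun x t => by
    show Algebra.TensorProduct.lift _ _ _ (x ⊗ₜ t) = _
    rw [Algebra.TensorProduct.lift_tmul]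
    rfl
  have hres : ∀ a : 𝒪 ⊗[ℤ] A, residue 𝒪 (χO a) = thetaO 𝒪 θ a := by
    intro a
    induction a using TensorProduct.induction_on with
    | zero => rw [map_zero, map_zero, map_zero]
    | tmul x t => rw [hχO, thetaO_tmul, map_mul, hχ]
    | add a b ha hb => rw [map_add, map_add, map_add, ha, hb]
  have hunit : ∀ y : (maxθ 𝒪 θ).primeCompl, IsUnit (χO y) := by
    intro y
    rw [← residue_ne_zero_iff_isUnit, hres]
    exact fun h => y.2 ((mem_maxθ 𝒪 θ _).mpr h)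
  refine ⟨IsLocalization.liftAlgHom (M := (maxθ 𝒪 θ).primeCompl) (f := χO) hunit, fun t => ?_⟩
  rw [piT_apply, IsLocalization.liftAlgHom_apply, IsLocalization.lift_eq]
  show χO _ = _
  rw [hχO, one_mul]

/-- **universal property**: a ring hom `χ : A → B` into a local `𝒪`-algebra lifting `θ`
residually extends to a LOCAL `𝒪`-algebra hom `Tloc 𝒪 θ → B`. -/
theorem exists_lift {B : Type*} [CommRing B] [IsLocalRing B] [Algebra 𝒪 B]
    [IsLocalHom (algebraMap 𝒪 B)] (θ : A →+* ResidueField 𝒪) (χ : A →+* B)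
    (hχ : ∀ t : A, residue B (χ t) = ResidueField.map (algebraMap 𝒪 B) (θ t)) :
    ∃ ψ : Tloc 𝒪 θ →ₐ[𝒪] B, (∀ t : A, ψ (piT 𝒪 θ t) = χ t) ∧ IsLocalHom ψ.toRingHom := by
  let χO : 𝒪 ⊗[ℤ] A →ₐ[𝒪] B :=
    Algebra.TensorProduct.lift (Algebra.ofId 𝒪 B) χ.toIntAlgHom (fun _ _ => Commute.all _ _)
  have hχO : ∀ (x : 𝒪) (t : A), χO (x ⊗ₜ t) = algebraMap 𝒪 B x * χ t := fun x t => by
    show Algebra.TensorProduct.lift _ _ _ (x ⊗ₜ t) = _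
    rw [Algebra.TensorProduct.lift_tmul]
    rfl
  have hres : ∀ a : 𝒪 ⊗[ℤ] A,
      residue B (χO a) = ResidueField.map (algebraMap 𝒪 B) (thetaO 𝒪 θ a) := by
    intro a
    induction a using TensorProduct.induction_on with
    | zero => rw [map_zero, map_zero, map_zero, map_zero]
    | tmul x t =>
      rw [hχO, thetaO_tmul, map_mul, map_mul, hχ]
      congr 1
    | add a b ha hb => rw [map_add, map_add, map_add, map_add, ha, hb]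
  have hunit_iff : ∀ a : 𝒪 ⊗[ℤ] A, IsUnit (χO a) ↔ a ∉ maxθ 𝒪 θ := by
    intro a
    rw [← residue_ne_zero_iff_isUnit, hres, mem_maxθ, Ne,
      map_eq_zero_iff _ (ResidueField.map (algebraMap 𝒪 B)).injective]
  have hunit : ∀ y : (maxθ 𝒪 θ).primeCompl, IsUnit (χO y) := fun y => (hunit_iff y).mpr y.2
  have hψ : ∀ a : 𝒪 ⊗[ℤ] A,
      IsLocalization.liftAlgHom (M := (maxθ 𝒪 θ).primeCompl) (f := χO) hunit
        (algebraMap (𝒪 ⊗[ℤ] A) (Tloc 𝒪 θ) a) = χO a := by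
    intro a
    rw [IsLocalization.liftAlgHom_apply, IsLocalization.lift_eq]
    rfl
  refine ⟨IsLocalization.liftAlgHom (M := (maxθ 𝒪 θ).primeCompl) (f := χO) hunit, fun t => ?_,
    ⟨fun x hx => ?_⟩⟩
  · rw [piT_apply, hψ, hχO, map_one, one_mul]
  · obtain ⟨a, s, rfl⟩ := IsLocalization.exists_mk'_eq (maxθ 𝒪 θ).primeCompl x
    have h1 : IsLocalization.liftAlgHom (M := (maxθ 𝒪 θ).primeCompl) (f := χO) hunit
        (IsLocalization.mk' (Tloc 𝒪 θ) a s) * χO s = χO a := by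
      rw [← hψ s, ← map_mul, IsLocalization.mk'_spec, hψ]
    have h4 : IsUnit (χO a) := by
      rw [← h1]
      exact IsUnit.mul hx (hunit s)
    have h5 : a ∈ (maxθ 𝒪 θ).primeCompl := (hunit_iff a).mp h4
    rw [IsLocalization.AtPrime.isUnit_mk'_iff (Tloc 𝒪 θ) (maxθ 𝒪 θ)]
    exact h5

section Complete

variable [IsNoetherianRing 𝒪] [IsAdicComplete (maximalIdeal 𝒪) 𝒪] [Module.Finite ℤ A]

theorem algebraMap_surjective (θ : A →+* ResidueField 𝒪) :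
    Function.Surjective (algebraMap (𝒪 ⊗[ℤ] A) (Tloc 𝒪 θ)) := by
  classical
  obtain ⟨-, hbij, -, -⟩ :=
    Algebra.finite_maximalSpectrum_and_bijective_localization_of_module_finite (𝒪 := 𝒪)
      (𝒪 ⊗[ℤ] A)
  intro y
  let I : MaximalSpectrum (𝒪 ⊗[ℤ] A) := ⟨maxθ 𝒪 θ, inferInstance⟩
  obtain ⟨a, ha⟩ := hbij.2 (Pi.single (M := fun J : MaximalSpectrum (𝒪 ⊗[ℤ] A) =>
    Localization.AtPrime J.asIdeal) I y)
  refine ⟨a, ?_⟩
  exact (congrFun ha I).trans (Pi.single_eq_same (M := fun J : MaximalSpectrum (𝒪 ⊗[ℤ] A) =>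
    Localization.AtPrime J.asIdeal) I y)

instance moduleFinite (θ : A →+* ResidueField 𝒪) : Module.Finite 𝒪 (Tloc 𝒪 θ) :=
  (Algebra.finite_maximalSpectrum_and_bijective_localization_of_module_finite (𝒪 := 𝒪)
    (𝒪 ⊗[ℤ] A)).2.2.1 ⟨maxθ 𝒪 θ, inferInstance⟩

instance isAdicComplete (θ : A →+* ResidueField 𝒪) :
    IsAdicComplete (maximalIdeal (Tloc 𝒪 θ)) (Tloc 𝒪 θ) :=
  (Algebra.finite_maximalSpectrum_and_bijective_localization_of_module_finite (𝒪 := 𝒪)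
    (𝒪 ⊗[ℤ] A)).2.2.2 ⟨maxθ 𝒪 θ, inferInstance⟩

instance isNoetherianRing (θ : A →+* ResidueField 𝒪) : IsNoetherianRing (Tloc 𝒪 θ) :=
  have : IsNoetherianRing (𝒪 ⊗[ℤ] A) := IsNoetherianRing.of_finite 𝒪 _
  IsLocalization.isNoetherianRing (maxθ 𝒪 θ).primeCompl _ inferInstance

instance moduleFree [Module.Flat ℤ A] (θ : A →+* ResidueField 𝒪) : Module.Free 𝒪 (Tloc 𝒪 θ) := by
  have h2 : Module.Flat 𝒪 (Tloc 𝒪 θ) :=
    inferInstanceAs (Module.Flat 𝒪 (Localization (maxθ 𝒪 θ).primeCompl))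
  exact Module.free_of_flat_of_isLocalRing

/-- `adjoin_range_π` -/
theorem adjoin_range_piT (θ : A →+* ResidueField 𝒪) :
    Algebra.adjoin 𝒪 (Set.range (piT 𝒪 θ)) = ⊤ := by
  rw [eq_top_iff]
  rintro y -
  obtain ⟨a, rfl⟩ := algebraMap_surjective 𝒪 θ y
  induction a using TensorProduct.induction_on with
  | zero => rw [map_zero]; exact Subalgebra.zero_mem _
  | tmul x t =>
    rw [algebraMap_tmul]
    exact Subalgebra.smul_mem _ (Algebra.subset_adjoin (Set.mem_range_self t)) x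
  | add a b ha hb => rw [map_add]; exact Subalgebra.add_mem _ ha hb

/-- `residue_surjective` -/
theorem residue_comp_algebraMap_surjective (θ : A →+* ResidueField 𝒪) :
    Function.Surjective (residue (Tloc 𝒪 θ) ∘ algebraMap 𝒪 (Tloc 𝒪 θ)) := by
  intro y
  obtain ⟨z, rfl⟩ := residue_surjective y
  obtain ⟨a, rfl⟩ := algebraMap_surjective 𝒪 θ z
  obtain ⟨x, hx⟩ := residue_surjective (thetaO 𝒪 θ a)
  exact ⟨x, residue_algebraMap_O 𝒪 θ a x hx⟩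

end Complete

end Fermat.Agent.GB.B4.Datum.Carrier
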