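/-
GATE-B / GB-B4-TQ (helper12): **the Hecke algebra `T_Q` as a LOCAL commutative ring**, from an
`End`-valued (twisted) Hecke action.

Input: `tw : A →+* Module.End 𝒪 M` (`A` = anemic Hecke algebra of level `N'`, `M` = a finite free
`𝒪`-module such as `M¹_Q × M^χ_Q`), a residual character `θ : A →+* k`, and the localisation
hypothesis (LOC): every `a ∈ 𝒪 ⊗ A` with `θ(a) ≠ 0` acts bijectively on `M`.

Output: `TQ 𝒪 tw := (𝒪 ⊗[ℤ] A) ⧸ ker` — a commutative `𝒪`-algebra acting faithfully on `M`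
(`act`), which is LOCAL (Cayley–Hamilton: the inverse of a bijective endomorphism is a polynomial
in it), with `𝒪 → TQ` local, finite free over `𝒪`, complete; `chi : A →+* TQ` is residually `θ`
(`residue_chi`) and generates `TQ` over `𝒪` (`adjoin_range_chi`): exactly the binders
`tw`, `hres`, `hgen` of `GB/B4/Datum/PushTloc` and of `Carrier.lift`.
-/
import Mathlib
import Fermat.Agent.GB.B4.Datum.Carrier
import Fermat.Prelude.Thm_IsLocalRing_isAdicComplete_of_module_finite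

set_option autoImplicit false
set_option linter.style.haveILetI false
set_option linter.unusedSectionVars false

noncomputable section

namespace Fermat.Agent.GB.B4.Datum.ImageRing

open TensorProduct IsLocalRing Polynomial Fermat.Agent.GB.B4.Datum.Carrier

section CayleyHamilton

variable {R : Type*} [CommRing R] {M : Type*} [AddCommGroup M] [Module R M]
  [Module.Finite R M] [Module.Free R M]

/-- the inverse of a bijective endomorphism of a finite free module is a polynomial in it. -/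
theorem exists_aeval_mul_eq_one (f : Module.End R M) (hf : Function.Bijective f) :
    ∃ P : R[X], f * aeval f P = 1 := by
  have hdet : IsUnit (LinearMap.det f) := by
    have h := (LinearEquiv.ofBijective f hf).isUnit_det'
    exact h
  have hc0 : IsUnit (f.charpoly.coeff 0) := by
    rw [LinearMap.det_eq_sign_charpoly_coeff] at hdet
    exact isUnit_of_mul_isUnit_right hdet
  obtain ⟨u, hu⟩ := hc0
  have h0 : aeval f f.charpoly = 0 := LinearMap.aeval_self_charpoly f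
  have h1 : aeval f (X * divX f.charpoly + C (f.charpoly.coeff 0)) = 0 := by
    rw [X_mul_divX_add]; exact h0
  rw [map_add, map_mul, aeval_X, aeval_C, ← hu] at h1
  refine ⟨C (-(↑u⁻¹ : R)) * divX f.charpoly, ?_⟩
  rw [map_mul, aeval_C, ← mul_assoc, ← Algebra.commutes, mul_assoc]
  have h2 : f * aeval f (divX f.charpoly) = -(algebraMap R (Module.End R M) ↑u) :=
    eq_neg_of_add_eq_zero_left h1
  rw [h2, mul_neg, ← map_mul, neg_mul, map_neg, neg_neg, Units.inv_mul, map_one]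

end CayleyHamilton

section Ring

variable (𝒪 : Type) [CommRing 𝒪] [IsLocalRing 𝒪] {A : Type} [CommRing A]
  {M : Type} [AddCommGroup M] [Module 𝒪 M]

/-- the `𝒪`-linear extension of `tw` to `𝒪 ⊗[ℤ] A`. -/
def twO (tw : A →+* Module.End 𝒪 M) : 𝒪 ⊗[ℤ] A →ₐ[𝒪] Module.End 𝒪 M :=
  Algebra.TensorProduct.lift (Algebra.ofId 𝒪 (Module.End 𝒪 M)) tw.toIntAlgHom
    (fun x y => (Algebra.commute_algebraMap_left x (tw.toIntAlgHom y) :
      Commute (Algebra.ofId 𝒪 (Module.End 𝒪 M) x) (tw.toIntAlgHom y)))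

theorem twO_tmul (tw : A →+* Module.End 𝒪 M) (x : 𝒪) (t : A) :
    twO 𝒪 tw (x ⊗ₜ t) = x • tw t := by
  refine (Algebra.TensorProduct.lift_tmul (Algebra.ofId 𝒪 (Module.End 𝒪 M)) tw.toIntAlgHom _ x
    t).trans ?_
  rw [Algebra.smul_def]
  rfl

/-- **(LOC)**: the elements of `𝒪 ⊗ A` outside the maximal ideal of `θ` act bijectively. -/
def LocHyp (θ : A →+* ResidueField 𝒪) (tw : A →+* Module.End 𝒪 M) : Prop :=
  ∀ a : 𝒪 ⊗[ℤ] A, thetaO 𝒪 θ a ≠ 0 → Function.Bijective (twO 𝒪 tw a)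

variable (θ : A →+* ResidueField 𝒪)

/-- **the Hecke ring**: the image of `𝒪 ⊗ A` in `End_𝒪 M`, as a quotient.  (`θ` is a phantom
argument: it lets the instances below find the localisation hypothesis `Fact (LocHyp 𝒪 θ tw)`.) -/
@[nolint unusedArguments]
def TQ (_θ : A →+* ResidueField 𝒪) (tw : A →+* Module.End 𝒪 M) : Type :=
  (𝒪 ⊗[ℤ] A) ⧸ RingHom.ker (twO 𝒪 tw)

instance instCommRingTQ (tw : A →+* Module.End 𝒪 M) : CommRing (TQ 𝒪 θ tw) :=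
  inferInstanceAs (CommRing ((𝒪 ⊗[ℤ] A) ⧸ RingHom.ker (twO 𝒪 tw)))

instance instAlgebraTQ (tw : A →+* Module.End 𝒪 M) : Algebra 𝒪 (TQ 𝒪 θ tw) :=
  inferInstanceAs (Algebra 𝒪 ((𝒪 ⊗[ℤ] A) ⧸ RingHom.ker (twO 𝒪 tw)))

/-- the quotient map `𝒪 ⊗ A → TQ`. -/
def mkQ (tw : A →+* Module.End 𝒪 M) : 𝒪 ⊗[ℤ] A →ₐ[𝒪] TQ 𝒪 θ tw :=
  Ideal.Quotient.mkₐ 𝒪 (RingHom.ker (twO 𝒪 tw))

theorem mkQ_surjective (tw : A →+* Module.End 𝒪 M) : Function.Surjective (mkQ 𝒪 θ tw) :=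
  Ideal.Quotient.mkₐ_surjective 𝒪 _

theorem mkQ_eq_zero_iff (tw : A →+* Module.End 𝒪 M) (a : 𝒪 ⊗[ℤ] A) :
    mkQ 𝒪 θ tw a = 0 ↔ twO 𝒪 tw a = 0 := by
  show Ideal.Quotient.mk _ a = 0 ↔ _
  rw [Ideal.Quotient.eq_zero_iff_mem, RingHom.mem_ker]

/-- the (faithful) action of `TQ` on `M`. -/
def act (tw : A →+* Module.End 𝒪 M) : TQ 𝒪 θ tw →ₐ[𝒪] Module.End 𝒪 M :=
  Ideal.kerLiftAlg (twO 𝒪 tw)

theorem act_mkQ (tw : A →+* Module.End 𝒪 M) (a : 𝒪 ⊗[ℤ] A) :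
    act 𝒪 θ tw (mkQ 𝒪 θ tw a) = twO 𝒪 tw a := rfl

theorem act_injective (tw : A →+* Module.End 𝒪 M) : Function.Injective (act 𝒪 θ tw) :=
  Ideal.kerLiftAlg_injective (twO 𝒪 tw)

/-- the Hecke operators in `TQ`. -/
def chi (tw : A →+* Module.End 𝒪 M) : A →+* TQ 𝒪 θ tw :=
  (mkQ 𝒪 θ tw).toRingHom.comp
    (Algebra.TensorProduct.includeRight : A →ₐ[ℤ] 𝒪 ⊗[ℤ] A).toRingHom

theorem chi_apply (tw : A →+* Module.End 𝒪 M) (t : A) :
    chi 𝒪 θ tw t = mkQ 𝒪 θ tw ((1 : 𝒪) ⊗ₜ t) := rfl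

theorem act_chi (tw : A →+* Module.End 𝒪 M) (t : A) : act 𝒪 θ tw (chi 𝒪 θ tw t) = tw t := by
  rw [chi_apply, act_mkQ, twO_tmul, one_smul]

theorem mkQ_tmul (tw : A →+* Module.End 𝒪 M) (x : 𝒪) (t : A) :
    mkQ 𝒪 θ tw (x ⊗ₜ t) = x • chi 𝒪 θ tw t := by
  have h : (x ⊗ₜ[ℤ] t : 𝒪 ⊗[ℤ] A) = x • ((1 : 𝒪) ⊗ₜ[ℤ] t) := by
    rw [TensorProduct.smul_tmul', smul_eq_mul, mul_one]
  rw [chi_apply, h, map_smul]

theorem mkQ_algebraMap (tw : A →+* Module.End 𝒪 M) (x : 𝒪) :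
    mkQ 𝒪 θ tw (algebraMap 𝒪 (𝒪 ⊗[ℤ] A) x) = algebraMap 𝒪 (TQ 𝒪 θ tw) x :=
  (mkQ 𝒪 θ tw).commutes x

/-- `hgen` -/
theorem adjoin_range_chi (tw : A →+* Module.End 𝒪 M) :
    Algebra.adjoin 𝒪 (Set.range (chi 𝒪 θ tw)) = ⊤ := by
  rw [eq_top_iff]
  rintro y -
  obtain ⟨a, rfl⟩ := mkQ_surjective 𝒪 θ tw y
  induction a using TensorProduct.induction_on with
  | zero => rw [map_zero]; exact Subalgebra.zero_mem _
  | tmul x t =>
    rw [mkQ_tmul]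
    exact Subalgebra.smul_mem _ (Algebra.subset_adjoin (Set.mem_range_self t)) x
  | add a b ha hb => rw [map_add]; exact Subalgebra.add_mem _ ha hb

/-- a second module on which `A` acts through a quotient of `TQ`. -/
def actOf (tw : A →+* Module.End 𝒪 M) {M' : Type} [AddCommGroup M'] [Module 𝒪 M']
    (tw' : A →+* Module.End 𝒪 M')
    (hker : RingHom.ker (twO 𝒪 tw) ≤ RingHom.ker (twO 𝒪 tw')) :
    TQ 𝒪 θ tw →ₐ[𝒪] Module.End 𝒪 M' :=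
  Ideal.Quotient.liftₐ (RingHom.ker (twO 𝒪 tw)) (twO 𝒪 tw') (fun _ ha => hker ha)

theorem actOf_mkQ (tw : A →+* Module.End 𝒪 M) {M' : Type} [AddCommGroup M'] [Module 𝒪 M']
    (tw' : A →+* Module.End 𝒪 M')
    (hker : RingHom.ker (twO 𝒪 tw) ≤ RingHom.ker (twO 𝒪 tw')) (a : 𝒪 ⊗[ℤ] A) :
    actOf 𝒪 θ tw tw' hker (mkQ 𝒪 θ tw a) = twO 𝒪 tw' a := rfl

theorem actOf_chi (tw : A →+* Module.End 𝒪 M) {M' : Type} [AddCommGroup M'] [Module 𝒪 M']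
    (tw' : A →+* Module.End 𝒪 M')
    (hker : RingHom.ker (twO 𝒪 tw) ≤ RingHom.ker (twO 𝒪 tw')) (t : A) :
    actOf 𝒪 θ tw tw' hker (chi 𝒪 θ tw t) = tw' t := by
  rw [chi_apply, actOf_mkQ, twO_tmul, one_smul]

end Ring

section Local

variable {𝒪 : Type} [CommRing 𝒪] [IsLocalRing 𝒪] {A : Type} [CommRing A]
  {M : Type} [AddCommGroup M] [Module 𝒪 M] [Module.Finite 𝒪 M] [Module.Free 𝒪 M]
  {θ : A →+* ResidueField 𝒪} {tw : A →+* Module.End 𝒪 M}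

theorem isUnit_mkQ_of_bijective (a : 𝒪 ⊗[ℤ] A)
    (h : Function.Bijective (twO 𝒪 tw a)) : IsUnit (mkQ 𝒪 θ tw a) := by
  obtain ⟨P, hP⟩ := exists_aeval_mul_eq_one (twO 𝒪 tw a) h
  refine IsUnit.of_mul_eq_one (mkQ 𝒪 θ tw (aeval a P)) ?_
  apply act_injective 𝒪 θ tw
  rw [map_mul, act_mkQ, act_mkQ, map_one, ← aeval_algHom_apply]
  exact hP

theorem isUnit_mkQ (hloc : LocHyp 𝒪 θ tw) (a : 𝒪 ⊗[ℤ] A) (ha : thetaO 𝒪 θ a ≠ 0) :
    IsUnit (mkQ 𝒪 θ tw a) :=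
  isUnit_mkQ_of_bijective a (hloc a ha)

variable [Nontrivial M]

instance nontrivial_TQ : Nontrivial (TQ 𝒪 θ tw) := by
  refine ⟨⟨0, 1, fun h => ?_⟩⟩
  have h1 : act 𝒪 θ tw 0 = act 𝒪 θ tw 1 := congrArg _ h
  rw [map_zero, map_one] at h1
  obtain ⟨x, hx⟩ := exists_ne (0 : M)
  exact hx (by
    have := LinearMap.congr_fun h1 x
    simpa using this.symm)

theorem not_isUnit_mkQ (hloc : LocHyp 𝒪 θ tw) (a : 𝒪 ⊗[ℤ] A) (ha : thetaO 𝒪 θ a = 0) :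
    ¬ IsUnit (mkQ 𝒪 θ tw a) := by
  intro hu
  obtain ⟨y, hy⟩ := hu.exists_right_inv
  obtain ⟨b, rfl⟩ := mkQ_surjective 𝒪 θ tw y
  have h1 : mkQ 𝒪 θ tw (1 - a * b) = 0 := by
    rw [map_sub, map_one, map_mul, hy, sub_self]
  rw [mkQ_eq_zero_iff] at h1
  have h2 : thetaO 𝒪 θ (1 - a * b) ≠ 0 := by
    rw [map_sub, map_one, map_mul, ha, zero_mul, sub_zero]
    exact one_ne_zero
  have h3 := hloc _ h2
  rw [h1] at h3
  obtain ⟨x, hx⟩ := exists_ne (0 : M)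
  exact hx (h3.1 (by simp))

theorem isUnit_mkQ_iff (hloc : LocHyp 𝒪 θ tw) (a : 𝒪 ⊗[ℤ] A) :
    IsUnit (mkQ 𝒪 θ tw a) ↔ thetaO 𝒪 θ a ≠ 0 :=
  ⟨fun hu h0 => not_isUnit_mkQ hloc a h0 hu, isUnit_mkQ hloc a⟩

variable [hloc : Fact (LocHyp 𝒪 θ tw)]

/-- **`TQ` is a local ring.** -/
instance isLocalRing_TQ : IsLocalRing (TQ 𝒪 θ tw) := by
  refine IsLocalRing.of_isUnit_or_isUnit_one_sub_self fun x => ?_
  obtain ⟨a, rfl⟩ := mkQ_surjective 𝒪 θ tw x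
  by_cases ha : thetaO 𝒪 θ a = 0
  · right
    rw [← map_one (mkQ 𝒪 θ tw), ← map_sub]
    refine isUnit_mkQ hloc.out _ ?_
    rw [map_sub, map_one, ha, sub_zero]
    exact one_ne_zero
  · exact Or.inl (isUnit_mkQ hloc.out a ha)

theorem mkQ_mem_maximalIdeal_iff (a : 𝒪 ⊗[ℤ] A) :
    mkQ 𝒪 θ tw a ∈ maximalIdeal (TQ 𝒪 θ tw) ↔ thetaO 𝒪 θ a = 0 := by
  rw [mem_maximalIdeal, mem_nonunits_iff, isUnit_mkQ_iff hloc.out, not_not]

theorem residue_mkQ_eq_iff (a b : 𝒪 ⊗[ℤ] A) :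
    residue (TQ 𝒪 θ tw) (mkQ 𝒪 θ tw a) = residue (TQ 𝒪 θ tw) (mkQ 𝒪 θ tw b) ↔
      thetaO 𝒪 θ a = thetaO 𝒪 θ b := by
  rw [← sub_eq_zero, ← map_sub, ← map_sub, residue_eq_zero_iff, mkQ_mem_maximalIdeal_iff,
    map_sub, sub_eq_zero]

instance isLocalHom_algebraMap_TQ : IsLocalHom (algebraMap 𝒪 (TQ 𝒪 θ tw)) := by
  refine ⟨fun x hx => ?_⟩
  by_contra hx'
  have h0 : residue 𝒪 x = 0 := (residue_eq_zero_iff x).mpr hx'
  rw [← mkQ_algebraMap, isUnit_mkQ_iff hloc.out, thetaO_algebraMap] at hx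
  exact hx h0

/-- `hres` -/
theorem residue_chi (t : A) :
    residue (TQ 𝒪 θ tw) (chi 𝒪 θ tw t) =
      ResidueField.map (algebraMap 𝒪 (TQ 𝒪 θ tw)) (θ t) := by
  obtain ⟨x, hx⟩ := residue_surjective (θ t)
  have h1 : ResidueField.map (algebraMap 𝒪 (TQ 𝒪 θ tw)) (θ t) =
      residue (TQ 𝒪 θ tw) (algebraMap 𝒪 (TQ 𝒪 θ tw) x) := by
    rw [← hx]
    exact ResidueField.map_residue _ x
  rw [h1, chi_apply, ← mkQ_algebraMap, residue_mkQ_eq_iff, thetaO_tmul, map_one, one_mul,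
    thetaO_algebraMap, hx]

/-- `residue ∘ algebraMap` is onto: the residue field of `TQ` is the one of `𝒪`. -/
theorem residue_comp_algebraMap_surjective :
    Function.Surjective (residue (TQ 𝒪 θ tw) ∘ algebraMap 𝒪 (TQ 𝒪 θ tw)) := by
  intro y
  obtain ⟨z, rfl⟩ := residue_surjective y
  obtain ⟨a, rfl⟩ := mkQ_surjective 𝒪 θ tw z
  obtain ⟨x, hx⟩ := residue_surjective (thetaO 𝒪 θ a)
  refine ⟨x, ?_⟩
  show residue (TQ 𝒪 θ tw) (algebraMap 𝒪 (TQ 𝒪 θ tw) x) = _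
  rw [← mkQ_algebraMap, residue_mkQ_eq_iff, thetaO_algebraMap, hx]

section Finite

variable [IsNoetherianRing 𝒪]

instance moduleFinite_TQ : Module.Finite 𝒪 (TQ 𝒪 θ tw) :=
  Module.Finite.of_injective (act 𝒪 θ tw).toLinearMap (act_injective 𝒪 θ tw)

instance isNoetherianRing_TQ : IsNoetherianRing (TQ 𝒪 θ tw) :=
  IsNoetherianRing.of_finite 𝒪 _

instance isAdicComplete_TQ [IsAdicComplete (maximalIdeal 𝒪) 𝒪] :
    IsAdicComplete (maximalIdeal (TQ 𝒪 θ tw)) (TQ 𝒪 θ tw) :=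
  IsLocalRing.isAdicComplete_of_module_finite (𝒪 := 𝒪)

instance moduleFree_TQ [IsDomain 𝒪] [IsPrincipalIdealRing 𝒪] : Module.Free 𝒪 (TQ 𝒪 θ tw) := by
  haveI : Module.IsTorsionFree 𝒪 (TQ 𝒪 θ tw) :=
    (act_injective 𝒪 θ tw).moduleIsTorsionFree (act 𝒪 θ tw).toLinearMap (fun _ _ => map_smul _ _ _)
  exact Module.free_of_finite_type_torsion_free'

end Finite

end Local

end Fermat.Agent.GB.B4.Datum.ImageRing
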