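/-
GATE-B / S43, (P3) PLUG:T (helper74): **the `TWInput` fields `T a₁ a₂ a₁_D a₂_D a_U` on helper12's
`ImageRing.TQ`**.

`T_Q := ImageRing.TQ 𝒪 θ (prodTw tw₁ tw₂)` is the image of `𝒪 ⊗ A` (`A` = the Hecke algebra of
forms, `tw₁ tw₂ : A →+* End_𝒪 M_i` its actions on `M¹_Q`, `M^χ_Q`, exported by B4-TWIST) in
`End_𝒪 (M¹_Q × M^χ_Q)`: this is the ring over which the Galois representation lives
(`PushTloc.exists_galRep_flat` consumes `chi`, `residue_chi`, `adjoin_range_chi`).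

Here: the two projections `actL`, `actR` (`= ImageRing.actOf`), joint faithfulness, `LocHyp` for the
product, and the **closure argument**: if on a generating set `G` of `A` the operators `tw₁ t`,
`tw₂ t` are given by one Hecke symbol `σ t : 𝕋` of the B3 tower (`tw₁ t = act₁ (σ t)`,
`tw₂ t = act₂ (σ t)`), then EVERY element of `T_Q` acts through a symbol (`exists_symbol`); hence
`T_Q` commutes with everything commuting with the symbols (diamonds: `a₁_D`, `a₂_D`) and is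
compatible with the isomorphism `U` modulo `ϖ` (`a_U`).  `exists_fields` is the statement in the
exact field shape of `GB/B9/ModOfTW.TWInput`.
-/
import Mathlib
import Fermat.Agent.GB.B4.Datum.ImageRing
import Fermat.Agent.GB.B3.TWLevel
import Fermat.Agent.GB.B3.TQ

set_option autoImplicit false

noncomputable section

namespace Fermat.Agent.GB.B4.Datum.TQFields

open TensorProduct IsLocalRing Fermat.Agent.GB.B4.Datum.Carrier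
  Fermat.Agent.GB.B4.Datum.ImageRing Fermat.Agent.GB.B3.TWLevel

/-! ### the product action and its two projections -/

section Prod

variable (𝒪 : Type) [CommRing 𝒪] [IsLocalRing 𝒪] {A : Type} [CommRing A]
  {M₁ M₂ : Type} [AddCommGroup M₁] [Module 𝒪 M₁] [AddCommGroup M₂] [Module 𝒪 M₂]

/-- the action of `A` on `M₁ × M₂` -/
def prodTw (tw₁ : A →+* Module.End 𝒪 M₁) (tw₂ : A →+* Module.End 𝒪 M₂) :
    A →+* Module.End 𝒪 (M₁ × M₂) :=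
  (LinearMap.prodMapRingHom 𝒪 M₁ M₂).comp (tw₁.prod tw₂)

omit [IsLocalRing 𝒪] in
@[simp] theorem prodTw_apply (tw₁ : A →+* Module.End 𝒪 M₁) (tw₂ : A →+* Module.End 𝒪 M₂) (t : A) :
    prodTw 𝒪 tw₁ tw₂ t = (tw₁ t).prodMap (tw₂ t) := rfl

theorem twO_prodTw (tw₁ : A →+* Module.End 𝒪 M₁) (tw₂ : A →+* Module.End 𝒪 M₂)
    (a : 𝒪 ⊗[ℤ] A) :
    twO 𝒪 (prodTw 𝒪 tw₁ tw₂) a = (twO 𝒪 tw₁ a).prodMap (twO 𝒪 tw₂ a) := by
  induction a using TensorProduct.induction_on with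
  | zero => rw [map_zero, map_zero, map_zero, LinearMap.prodMap_zero]
  | tmul x t => rw [twO_tmul, twO_tmul, twO_tmul, prodTw_apply, LinearMap.prodMap_smul]
  | add a b ha hb => rw [map_add, map_add, map_add, ha, hb, LinearMap.prodMap_add]

theorem twO_prodTw_apply (tw₁ : A →+* Module.End 𝒪 M₁) (tw₂ : A →+* Module.End 𝒪 M₂)
    (a : 𝒪 ⊗[ℤ] A) (x : M₁ × M₂) :
    twO 𝒪 (prodTw 𝒪 tw₁ tw₂) a x = (twO 𝒪 tw₁ a x.1, twO 𝒪 tw₂ a x.2) := by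
  rw [twO_prodTw]
  rfl

theorem ker_le_left (tw₁ : A →+* Module.End 𝒪 M₁) (tw₂ : A →+* Module.End 𝒪 M₂) :
    RingHom.ker (twO 𝒪 (prodTw 𝒪 tw₁ tw₂)) ≤ RingHom.ker (twO 𝒪 tw₁) := by
  intro a ha
  rw [RingHom.mem_ker] at ha ⊢
  refine LinearMap.ext fun x => ?_
  have h := congrArg Prod.fst (LinearMap.congr_fun ha (x, 0))
  rw [twO_prodTw_apply] at h
  exact h

theorem ker_le_right (tw₁ : A →+* Module.End 𝒪 M₁) (tw₂ : A →+* Module.End 𝒪 M₂) :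
    RingHom.ker (twO 𝒪 (prodTw 𝒪 tw₁ tw₂)) ≤ RingHom.ker (twO 𝒪 tw₂) := by
  intro a ha
  rw [RingHom.mem_ker] at ha ⊢
  refine LinearMap.ext fun x => ?_
  have h := congrArg Prod.snd (LinearMap.congr_fun ha (0, x))
  rw [twO_prodTw_apply] at h
  exact h

variable (θ : A →+* ResidueField 𝒪)

/-- **`a₁`**: the action of `T_Q` on the first module -/
def actL (tw₁ : A →+* Module.End 𝒪 M₁) (tw₂ : A →+* Module.End 𝒪 M₂) :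
    TQ 𝒪 θ (prodTw 𝒪 tw₁ tw₂) →ₐ[𝒪] Module.End 𝒪 M₁ :=
  actOf 𝒪 θ (prodTw 𝒪 tw₁ tw₂) tw₁ (ker_le_left 𝒪 tw₁ tw₂)

/-- **`a₂`**: the action of `T_Q` on the second module -/
def actR (tw₁ : A →+* Module.End 𝒪 M₁) (tw₂ : A →+* Module.End 𝒪 M₂) :
    TQ 𝒪 θ (prodTw 𝒪 tw₁ tw₂) →ₐ[𝒪] Module.End 𝒪 M₂ :=
  actOf 𝒪 θ (prodTw 𝒪 tw₁ tw₂) tw₂ (ker_le_right 𝒪 tw₁ tw₂)

@[simp] theorem actL_mkQ (tw₁ : A →+* Module.End 𝒪 M₁) (tw₂ : A →+* Module.End 𝒪 M₂)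
    (a : 𝒪 ⊗[ℤ] A) :
    actL 𝒪 θ tw₁ tw₂ (mkQ 𝒪 θ (prodTw 𝒪 tw₁ tw₂) a) = twO 𝒪 tw₁ a := rfl

@[simp] theorem actR_mkQ (tw₁ : A →+* Module.End 𝒪 M₁) (tw₂ : A →+* Module.End 𝒪 M₂)
    (a : 𝒪 ⊗[ℤ] A) :
    actR 𝒪 θ tw₁ tw₂ (mkQ 𝒪 θ (prodTw 𝒪 tw₁ tw₂) a) = twO 𝒪 tw₂ a := rfl

@[simp] theorem actL_chi (tw₁ : A →+* Module.End 𝒪 M₁) (tw₂ : A →+* Module.End 𝒪 M₂) (t : A) :
    actL 𝒪 θ tw₁ tw₂ (chi 𝒪 θ (prodTw 𝒪 tw₁ tw₂) t) = tw₁ t :=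
  actOf_chi 𝒪 θ _ _ _ t

@[simp] theorem actR_chi (tw₁ : A →+* Module.End 𝒪 M₁) (tw₂ : A →+* Module.End 𝒪 M₂) (t : A) :
    actR 𝒪 θ tw₁ tw₂ (chi 𝒪 θ (prodTw 𝒪 tw₁ tw₂) t) = tw₂ t :=
  actOf_chi 𝒪 θ _ _ _ t

/-- the faithful action of `T_Q` on `M₁ × M₂` is the product of the two projections -/
theorem act_eq_prodMap (tw₁ : A →+* Module.End 𝒪 M₁) (tw₂ : A →+* Module.End 𝒪 M₂)
    (t : TQ 𝒪 θ (prodTw 𝒪 tw₁ tw₂)) :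
    act 𝒪 θ (prodTw 𝒪 tw₁ tw₂) t = (actL 𝒪 θ tw₁ tw₂ t).prodMap (actR 𝒪 θ tw₁ tw₂ t) := by
  obtain ⟨a, rfl⟩ := mkQ_surjective 𝒪 θ (prodTw 𝒪 tw₁ tw₂) t
  rw [act_mkQ, actL_mkQ, actR_mkQ, twO_prodTw]

/-- **joint faithfulness** -/
theorem eq_zero_of_actL_of_actR (tw₁ : A →+* Module.End 𝒪 M₁) (tw₂ : A →+* Module.End 𝒪 M₂)
    (t : TQ 𝒪 θ (prodTw 𝒪 tw₁ tw₂)) (h₁ : actL 𝒪 θ tw₁ tw₂ t = 0)
    (h₂ : actR 𝒪 θ tw₁ tw₂ t = 0) : t = 0 := by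
  apply act_injective 𝒪 θ (prodTw 𝒪 tw₁ tw₂)
  rw [act_eq_prodMap, h₁, h₂, LinearMap.prodMap_zero, map_zero]

/-- **(LOC) for the product** from (LOC) for the two factors -/
theorem locHyp_prodTw {tw₁ : A →+* Module.End 𝒪 M₁} {tw₂ : A →+* Module.End 𝒪 M₂}
    (h₁ : LocHyp 𝒪 θ tw₁) (h₂ : LocHyp 𝒪 θ tw₂) : LocHyp 𝒪 θ (prodTw 𝒪 tw₁ tw₂) := by
  intro a ha
  rw [twO_prodTw, LinearMap.coe_prodMap]
  exact Function.Bijective.prodMap (h₁ a ha) (h₂ a ha)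

end Prod

/-! ### the closure argument: every element of `T_Q` acts through a Hecke symbol -/

section Closure

variable {𝒪 : Type} [CommRing 𝒪] [IsLocalRing 𝒪] {A : Type} [CommRing A]
  {M₁ M₂ : Type} [AddCommGroup M₁] [Module 𝒪 M₁] [AddCommGroup M₂] [Module 𝒪 M₂]
  {𝕋 : Type} [CommRing 𝕋] [Algebra 𝒪 𝕋]

/-- the elements of `A` acting on both modules through ONE Hecke symbol whose value under `ev` is
prescribed by `θ`, as a `ℤ`-subalgebra -/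
def symSubalgebra (act₁ : 𝕋 →ₐ[𝒪] Module.End 𝒪 M₁) (act₂ : 𝕋 →ₐ[𝒪] Module.End 𝒪 M₂)
    {κ : Type*} [CommRing κ] (ev : 𝕋 →+* κ) (θ : A →+* κ)
    (tw₁ : A →+* Module.End 𝒪 M₁) (tw₂ : A →+* Module.End 𝒪 M₂) : Subalgebra ℤ A where
  carrier := {t | ∃ s : 𝕋, tw₁ t = act₁ s ∧ tw₂ t = act₂ s ∧ θ t = ev s}
  mul_mem' := by
    rintro t t' ⟨s, h₁, h₂, h₃⟩ ⟨s', h₁', h₂', h₃'⟩
    exact ⟨s * s', by rw [map_mul, map_mul, h₁, h₁'], by rw [map_mul, map_mul, h₂, h₂'],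
      by rw [map_mul, map_mul, h₃, h₃']⟩
  add_mem' := by
    rintro t t' ⟨s, h₁, h₂, h₃⟩ ⟨s', h₁', h₂', h₃'⟩
    exact ⟨s + s', by rw [map_add, map_add, h₁, h₁'], by rw [map_add, map_add, h₂, h₂'],
      by rw [map_add, map_add, h₃, h₃']⟩
  algebraMap_mem' := by
    intro n
    refine ⟨(n : 𝕋), ?_, ?_, ?_⟩
    · rw [eq_intCast, map_intCast, map_intCast]
    · rw [eq_intCast, map_intCast, map_intCast]
    · rw [eq_intCast, map_intCast, map_intCast]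

omit [IsLocalRing 𝒪] in
theorem mem_symSubalgebra {act₁ : 𝕋 →ₐ[𝒪] Module.End 𝒪 M₁} {act₂ : 𝕋 →ₐ[𝒪] Module.End 𝒪 M₂}
    {κ : Type*} [CommRing κ] {ev : 𝕋 →+* κ} {θ : A →+* κ}
    {tw₁ : A →+* Module.End 𝒪 M₁} {tw₂ : A →+* Module.End 𝒪 M₂} {t : A} :
    t ∈ symSubalgebra act₁ act₂ ev θ tw₁ tw₂ ↔
      ∃ s : 𝕋, tw₁ t = act₁ s ∧ tw₂ t = act₂ s ∧ θ t = ev s := Iff.rfl

variable (act₁ : 𝕋 →ₐ[𝒪] Module.End 𝒪 M₁) (act₂ : 𝕋 →ₐ[𝒪] Module.End 𝒪 M₂)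
  (ev : 𝕋 →ₐ[𝒪] ResidueField 𝒪) (θ : A →+* ResidueField 𝒪)
  (tw₁ : A →+* Module.End 𝒪 M₁) (tw₂ : A →+* Module.End 𝒪 M₂)
  (G : Set A) (hG : Algebra.adjoin ℤ G = ⊤)
  (hsym : ∀ t ∈ G, ∃ s : 𝕋, tw₁ t = act₁ s ∧ tw₂ t = act₂ s ∧ θ t = ev s)

include hG hsym

/-- from the generators to all of `A` -/
theorem exists_symbol_of_mem (t : A) :
    ∃ s : 𝕋, tw₁ t = act₁ s ∧ tw₂ t = act₂ s ∧ θ t = ev s := by
  have h : Algebra.adjoin ℤ G ≤ symSubalgebra act₁ act₂ (ev : 𝕋 →+* ResidueField 𝒪) θ tw₁ tw₂ :=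
    Algebra.adjoin_le fun t ht => hsym t ht
  rw [hG] at h
  exact h (Algebra.mem_top : t ∈ (⊤ : Subalgebra ℤ A))

/-- from `A` to `𝒪 ⊗ A` -/
theorem exists_symbol_tensor (a : 𝒪 ⊗[ℤ] A) :
    ∃ s : 𝕋, twO 𝒪 tw₁ a = act₁ s ∧ twO 𝒪 tw₂ a = act₂ s ∧ thetaO 𝒪 θ a = ev s := by
  induction a using TensorProduct.induction_on with
  | zero => exact ⟨0, by rw [map_zero, map_zero], by rw [map_zero, map_zero],
      by rw [map_zero, map_zero]⟩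
  | tmul x t =>
    obtain ⟨s, h₁, h₂, h₃⟩ := exists_symbol_of_mem act₁ act₂ ev θ tw₁ tw₂ G hG hsym t
    refine ⟨x • s, ?_, ?_, ?_⟩
    · rw [twO_tmul, h₁, map_smul]
    · rw [twO_tmul, h₂, map_smul]
    · rw [thetaO_tmul, h₃, map_smul, Algebra.smul_def]
      rfl
  | add a b ha hb =>
    obtain ⟨s, h₁, h₂, h₃⟩ := ha
    obtain ⟨s', h₁', h₂', h₃'⟩ := hb
    exact ⟨s + s', by rw [map_add, map_add, h₁, h₁'], by rw [map_add, map_add, h₂, h₂'],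
      by rw [map_add, map_add, h₃, h₃']⟩

/-- **every element of `T_Q` acts through a Hecke symbol** -/
theorem exists_symbol (t : TQ 𝒪 θ (prodTw 𝒪 tw₁ tw₂)) :
    ∃ s : 𝕋, actL 𝒪 θ tw₁ tw₂ t = act₁ s ∧ actR 𝒪 θ tw₁ tw₂ t = act₂ s := by
  obtain ⟨a, rfl⟩ := mkQ_surjective 𝒪 θ (prodTw 𝒪 tw₁ tw₂) t
  obtain ⟨s, h₁, h₂, -⟩ := exists_symbol_tensor act₁ act₂ ev θ tw₁ tw₂ G hG hsym a
  exact ⟨s, by rw [actL_mkQ, h₁], by rw [actR_mkQ, h₂]⟩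

/-- `T_Q` commutes with every operator commuting with the symbols (first module) -/
theorem actL_commute (D : Module.End 𝒪 M₁) (hD : ∀ s, act₁ s * D = D * act₁ s)
    (t : TQ 𝒪 θ (prodTw 𝒪 tw₁ tw₂)) : actL 𝒪 θ tw₁ tw₂ t * D = D * actL 𝒪 θ tw₁ tw₂ t := by
  obtain ⟨s, h₁, -⟩ := exists_symbol act₁ act₂ ev θ tw₁ tw₂ G hG hsym t
  rw [h₁, hD]

/-- `T_Q` commutes with every operator commuting with the symbols (second module) -/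
theorem actR_commute (D : Module.End 𝒪 M₂) (hD : ∀ s, act₂ s * D = D * act₂ s)
    (t : TQ 𝒪 θ (prodTw 𝒪 tw₁ tw₂)) : actR 𝒪 θ tw₁ tw₂ t * D = D * actR 𝒪 θ tw₁ tw₂ t := by
  obtain ⟨s, -, h₂⟩ := exists_symbol act₁ act₂ ev θ tw₁ tw₂ G hG hsym t
  rw [h₂, hD]

/-- **(LOC) from the B3 side**: if both modules are finite and `𝔪 = ker ev`-primary for the
symbols, then `LocHyp` holds for the product action -/
theorem locHyp_of_isPrimary [Module.Finite 𝒪 M₁] [Module.Finite 𝒪 M₂]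
    (h₁ : Fermat.Agent.GB.B3.TQ.IsPrimary act₁ (RingHom.ker (ev : 𝕋 →+* ResidueField 𝒪)))
    (h₂ : Fermat.Agent.GB.B3.TQ.IsPrimary act₂ (RingHom.ker (ev : 𝕋 →+* ResidueField 𝒪))) :
    LocHyp 𝒪 θ (prodTw 𝒪 tw₁ tw₂) := by
  intro a ha
  obtain ⟨s, e₁, e₂, e₃⟩ := exists_symbol_tensor act₁ act₂ ev θ tw₁ tw₂ G hG hsym a
  have hs : s ∉ RingHom.ker (ev : 𝕋 →+* ResidueField 𝒪) := by
    rw [RingHom.mem_ker]
    intro h0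
    exact ha (by rw [e₃]; exact h0)
  rw [twO_prodTw, LinearMap.coe_prodMap, e₁, e₂]
  have b₁ : Function.Bijective (act₁ s) :=
    ⟨OrzechProperty.injective_of_surjective_endomorphism _ (h₁ s hs), h₁ s hs⟩
  have b₂ : Function.Bijective (act₂ s) :=
    ⟨OrzechProperty.injective_of_surjective_endomorphism _ (h₂ s hs), h₂ s hs⟩
  exact Function.Bijective.prodMap b₁ b₂

end Closure

/-! ### the `TWInput` fields -/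

section Fields

variable {𝒪 : Type} [CommRing 𝒪] [IsLocalRing 𝒪] {ϖ : 𝒪} {𝕋 : Type} [CommRing 𝕋] [Algebra 𝒪 𝕋]
  {M0 : Type} [AddCommGroup M0] [Module 𝒪 M0] {act0 : 𝕋 →ₐ[𝒪] Module.End 𝒪 M0}
  {M0χ : Type} [AddCommGroup M0χ] [Module 𝒪 M0χ] {act0χ : 𝕋 →ₐ[𝒪] Module.End 𝒪 M0χ}
  {k : ℕ} {N : Fin k → ℕ} {A : Type} [CommRing A]

/-- **PLUG:T** — the fields `a₁ a₂ a₁_D a₂_D a_U` of `GB/B9/ModOfTW.TWInput` at
`T := ImageRing.TQ 𝒪 θ (prodTw 𝒪 tw₁ twχ)`, from the actions `tw₁ twχ` of the Hecke algebra `A`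
of forms on the two levels and their description by Hecke symbols on a generating set -/
theorem exists_fields (TW : TWLevelData 𝒪 ϖ 𝕋 M0 act0 M0χ act0χ k N)
    (ev : 𝕋 →ₐ[𝒪] ResidueField 𝒪) (θ : A →+* ResidueField 𝒪)
    (tw₁ : A →+* Module.End 𝒪 TW.L1.M) (twχ : A →+* Module.End 𝒪 TW.Lχ.M)
    (G : Set A) (hG : Algebra.adjoin ℤ G = ⊤)
    (hsym : ∀ t ∈ G, ∃ s : 𝕋, tw₁ t = TW.L1.act s ∧ twχ t = TW.Lχ.act s ∧ θ t = ev s) :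
    ∃ (a₁ : TQ 𝒪 θ (prodTw 𝒪 tw₁ twχ) →ₐ[𝒪] Module.End 𝒪 TW.L1.M)
      (a₂ : TQ 𝒪 θ (prodTw 𝒪 tw₁ twχ) →ₐ[𝒪] Module.End 𝒪 TW.Lχ.M),
      (∀ t, a₁ (chi 𝒪 θ (prodTw 𝒪 tw₁ twχ) t) = tw₁ t) ∧
      (∀ t, a₂ (chi 𝒪 θ (prodTw 𝒪 tw₁ twχ) t) = twχ t) ∧
      (∀ t i, a₁ t * TW.L1.D i = TW.L1.D i * a₁ t) ∧
      (∀ t i, a₂ t * TW.Lχ.D i = TW.Lχ.D i * a₂ t) ∧
      (∀ t, a₁ t = 0 → a₂ t = 0 → t = 0) ∧
      (∀ t, ∃ s : 𝕋, a₁ t = TW.L1.act s ∧ a₂ t = TW.Lχ.act s) ∧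
      (∀ (t : TQ 𝒪 θ (prodTw 𝒪 tw₁ twχ)) (x : TW.L1.M) (y : TW.Lχ.M),
        TW.U (Submodule.Quotient.mk x) = Submodule.Quotient.mk y →
          TW.U (Submodule.Quotient.mk (a₁ t x)) = Submodule.Quotient.mk (a₂ t y)) := by
  refine ⟨actL 𝒪 θ tw₁ twχ, actR 𝒪 θ tw₁ twχ, actL_chi 𝒪 θ tw₁ twχ, actR_chi 𝒪 θ tw₁ twχ,
    ?_, ?_, eq_zero_of_actL_of_actR 𝒪 θ tw₁ twχ,
    exists_symbol TW.L1.act TW.Lχ.act ev θ tw₁ twχ G hG hsym, ?_⟩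
  · intro t i
    exact actL_commute TW.L1.act TW.Lχ.act ev θ tw₁ twχ G hG hsym (TW.L1.D i)
      (fun s => TW.L1.act_D s i) t
  · intro t i
    exact actR_commute TW.L1.act TW.Lχ.act ev θ tw₁ twχ G hG hsym (TW.Lχ.D i)
      (fun s => TW.Lχ.act_D s i) t
  · intro t x y hxy
    obtain ⟨s, h₁, h₂⟩ := exists_symbol TW.L1.act TW.Lχ.act ev θ tw₁ twχ G hG hsym t
    rw [h₁, h₂]
    exact TW.U_act s x y hxy

end Fields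

end Fermat.Agent.GB.B4.Datum.TQFields
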