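/-
GATE-B / S43, (P3) PLUG:T, twisted form (helper74): **the `TWInput` fields `T a₁ a₂ a₁_D a₂_D a_U`
on helper12's `ImageRing.TQ` for Hecke operators that are NOT Hecke symbols of the B3 tower.**

helper44's twist homomorphism has `tw (T_ℓ) = ⟨ℓ⟩^{-1/2} ∘ T_ℓ`, which is not of the form
`L.act s` for a B3 symbol `s`; so `TQFields.exists_fields` (hypothesis `hsym`) does not apply.
What the fields need is only that each `(tw₁ t, twχ t)` is a COMPATIBLE PAIR:

* `IsCompat TW f₁ f₂` : `f₁`, `f₂` commute with the Taylor–Wiles diamonds of `M¹_Q`, `M^χ_Q` and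
  are intertwined by `TW.U` modulo `ϖ`; compatible pairs form a subalgebra
  (`compatSub TW : Subalgebra 𝒪 (End M¹_Q × End M^χ_Q)`);
* `exists_fields_of_compat` : the fields from `IsCompat` on a generating set of `A`;
* the BIG-LEVEL producer: `B : FreeLevel O 𝕋 M0 act0 (s + k) N` (helper24's `ChiLevelMulti`),
  `twP : A →+* End_O B.M` commuting with ALL diamonds of `B` ⟹ `quotTw B twP hcomm c` on
  `B.M ⧸ ∑_v (D_v - c v)` for every character `c` of the framed diamonds, and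
  `(quotTw 1 t, quotTw c t)` is compatible for `twLevelDataMultiSelf B hN ϖ c hc hc1`
  (`isCompat_quotTw`); **`exists_fields_big`** : the fields, no hypothesis left;
* `locHyp_quotTw` : `LocHyp` passes from `B.M` to the quotients.
-/
import Mathlib
import Fermat.Agent.GB.B4.Datum.TQFields
import Fermat.Agent.GB.B3.ChiLevelMulti

set_option autoImplicit false
set_option linter.unusedSectionVars false

noncomputable section

namespace Fermat.Agent.GB.B4.Datum.TQCompat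

open TensorProduct IsLocalRing Fermat.Agent.GB.B4.Datum.Carrier
  Fermat.Agent.GB.B4.Datum.ImageRing Fermat.Agent.GB.B3.TWLevel
  Fermat.Agent.GB.B4.Datum.TQFields Fermat.Agent.GB.B3.ChiLevelMulti

/-! ### compatible pairs -/

section Compat

variable {𝒪 : Type} [CommRing 𝒪] [IsLocalRing 𝒪] {ϖ : 𝒪} {𝕋 : Type} [CommRing 𝕋] [Algebra 𝒪 𝕋]
  {M0 : Type} [AddCommGroup M0] [Module 𝒪 M0] {act0 : 𝕋 →ₐ[𝒪] Module.End 𝒪 M0}
  {M0χ : Type} [AddCommGroup M0χ] [Module 𝒪 M0χ] {act0χ : 𝕋 →ₐ[𝒪] Module.End 𝒪 M0χ}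
  {k : ℕ} {N : Fin k → ℕ} (TW : TWLevelData 𝒪 ϖ 𝕋 M0 act0 M0χ act0χ k N)

/-- a pair of endomorphisms of `M¹_Q`, `M^χ_Q` commuting with the diamonds and intertwined by the
comparison isomorphism modulo `ϖ` -/
def IsCompat (f₁ : Module.End 𝒪 TW.L1.M) (f₂ : Module.End 𝒪 TW.Lχ.M) : Prop :=
  (∀ i, f₁ * TW.L1.D i = TW.L1.D i * f₁) ∧ (∀ i, f₂ * TW.Lχ.D i = TW.Lχ.D i * f₂) ∧
    ∀ (x : TW.L1.M) (y : TW.Lχ.M),
      TW.U (Submodule.Quotient.mk x) = Submodule.Quotient.mk y →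
        TW.U (Submodule.Quotient.mk (f₁ x)) = Submodule.Quotient.mk (f₂ y)

/-- the Hecke symbols give compatible pairs -/
theorem isCompat_act (s : 𝕋) : IsCompat TW (TW.L1.act s) (TW.Lχ.act s) :=
  ⟨fun i => TW.L1.act_D s i, fun i => TW.Lχ.act_D s i, fun x y h => TW.U_act s x y h⟩

/-- the diamonds give compatible pairs -/
theorem isCompat_D (i : Fin k) : IsCompat TW (TW.L1.D i) (TW.Lχ.D i) :=
  ⟨fun j => TW.L1.D_comm i j, fun j => TW.Lχ.D_comm i j, fun x y h => TW.U_D i x y h⟩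

/-- **the algebra of compatible pairs** -/
def compatSub : Subalgebra 𝒪 (Module.End 𝒪 TW.L1.M × Module.End 𝒪 TW.Lχ.M) where
  carrier := {f | IsCompat TW f.1 f.2}
  mul_mem' := by
    rintro ⟨f₁, f₂⟩ ⟨g₁, g₂⟩ ⟨hf₁, hf₂, hfU⟩ ⟨hg₁, hg₂, hgU⟩
    refine ⟨fun i => ?_, fun i => ?_, fun x y h => ?_⟩
    · show f₁ * g₁ * TW.L1.D i = TW.L1.D i * (f₁ * g₁)
      rw [mul_assoc, hg₁ i, ← mul_assoc, hf₁ i, mul_assoc]
    · show f₂ * g₂ * TW.Lχ.D i = TW.Lχ.D i * (f₂ * g₂)
      rw [mul_assoc, hg₂ i, ← mul_assoc, hf₂ i, mul_assoc]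
    · exact hfU _ _ (hgU x y h)
  add_mem' := by
    rintro ⟨f₁, f₂⟩ ⟨g₁, g₂⟩ ⟨hf₁, hf₂, hfU⟩ ⟨hg₁, hg₂, hgU⟩
    refine ⟨fun i => ?_, fun i => ?_, fun x y h => ?_⟩
    · show (f₁ + g₁) * TW.L1.D i = TW.L1.D i * (f₁ + g₁)
      rw [add_mul, mul_add, hf₁ i, hg₁ i]
    · show (f₂ + g₂) * TW.Lχ.D i = TW.Lχ.D i * (f₂ + g₂)
      rw [add_mul, mul_add, hf₂ i, hg₂ i]
    · show TW.U (Submodule.Quotient.mk (f₁ x + g₁ x)) = Submodule.Quotient.mk (f₂ y + g₂ y)
      rw [Submodule.Quotient.mk_add, Submodule.Quotient.mk_add, map_add, hfU x y h, hgU x y h]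
  algebraMap_mem' := by
    intro r
    refine ⟨fun i => ?_, fun i => ?_, fun x y h => ?_⟩
    · exact Algebra.commutes r (TW.L1.D i)
    · exact Algebra.commutes r (TW.Lχ.D i)
    · show TW.U (Submodule.Quotient.mk (r • x)) = Submodule.Quotient.mk (r • y)
      rw [Submodule.Quotient.mk_smul, Submodule.Quotient.mk_smul, map_smul, h]

theorem mem_compatSub {f : Module.End 𝒪 TW.L1.M × Module.End 𝒪 TW.Lχ.M} :
    f ∈ compatSub TW ↔ IsCompat TW f.1 f.2 := Iff.rfl

variable {A : Type} [CommRing A]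
  (tw₁ : A →+* Module.End 𝒪 TW.L1.M) (twχ : A →+* Module.End 𝒪 TW.Lχ.M)
  (G : Set A) (hG : Algebra.adjoin ℤ G = ⊤) (hgen : ∀ t ∈ G, IsCompat TW (tw₁ t) (twχ t))

include hG hgen

/-- from the generators to all of `A` -/
theorem isCompat_of_mem (t : A) : IsCompat TW (tw₁ t) (twχ t) := by
  let Sub : Subalgebra ℤ A :=
    { carrier := {t | (tw₁ t, twχ t) ∈ compatSub TW}
      mul_mem' := by
        intro t t' h h'
        show (tw₁ (t * t'), twχ (t * t')) ∈ compatSub TW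
        rw [map_mul, map_mul]
        exact (compatSub TW).mul_mem h h'
      add_mem' := by
        intro t t' h h'
        show (tw₁ (t + t'), twχ (t + t')) ∈ compatSub TW
        rw [map_add, map_add]
        exact (compatSub TW).add_mem h h'
      algebraMap_mem' := by
        intro n
        show (tw₁ (algebraMap ℤ A n), twχ (algebraMap ℤ A n)) ∈ compatSub TW
        rw [eq_intCast, map_intCast, map_intCast]
        exact (compatSub TW).intCast_mem n }
  have h : Algebra.adjoin ℤ G ≤ Sub := Algebra.adjoin_le fun t ht => hgen t ht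
  rw [hG] at h
  exact h (Algebra.mem_top : t ∈ (⊤ : Subalgebra ℤ A))

/-- from `A` to `𝒪 ⊗ A` -/
theorem isCompat_twO (a : 𝒪 ⊗[ℤ] A) : IsCompat TW (twO 𝒪 tw₁ a) (twO 𝒪 twχ a) := by
  show (twO 𝒪 tw₁ a, twO 𝒪 twχ a) ∈ compatSub TW
  induction a using TensorProduct.induction_on with
  | zero =>
    rw [map_zero, map_zero]
    exact (compatSub TW).zero_mem
  | tmul x t =>
    rw [twO_tmul, twO_tmul]
    have h : (tw₁ t, twχ t) ∈ compatSub TW := isCompat_of_mem TW tw₁ twχ G hG hgen t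
    exact (compatSub TW).smul_mem h x
  | add a b ha hb =>
    rw [map_add, map_add]
    exact (compatSub TW).add_mem ha hb

variable (θ : A →+* ResidueField 𝒪)

/-- **every element of `T_Q` acts through a compatible pair** -/
theorem isCompat_TQ (t : TQ 𝒪 θ (prodTw 𝒪 tw₁ twχ)) :
    IsCompat TW (actL 𝒪 θ tw₁ twχ t) (actR 𝒪 θ tw₁ twχ t) := by
  obtain ⟨a, rfl⟩ := mkQ_surjective 𝒪 θ (prodTw 𝒪 tw₁ twχ) t
  rw [actL_mkQ, actR_mkQ]
  exact isCompat_twO TW tw₁ twχ G hG hgen a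

/-- **PLUG:T, twisted form** — the fields `a₁ a₂ a₁_D a₂_D a_U` of `GB/B9/ModOfTW.TWInput` at
`T := ImageRing.TQ 𝒪 θ (prodTw 𝒪 tw₁ twχ)` from compatibility on a generating set -/
theorem exists_fields_of_compat :
    ∃ (a₁ : TQ 𝒪 θ (prodTw 𝒪 tw₁ twχ) →ₐ[𝒪] Module.End 𝒪 TW.L1.M)
      (a₂ : TQ 𝒪 θ (prodTw 𝒪 tw₁ twχ) →ₐ[𝒪] Module.End 𝒪 TW.Lχ.M),
      (∀ t, a₁ (chi 𝒪 θ (prodTw 𝒪 tw₁ twχ) t) = tw₁ t) ∧
      (∀ t, a₂ (chi 𝒪 θ (prodTw 𝒪 tw₁ twχ) t) = twχ t) ∧
      (∀ t i, a₁ t * TW.L1.D i = TW.L1.D i * a₁ t) ∧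
      (∀ t i, a₂ t * TW.Lχ.D i = TW.Lχ.D i * a₂ t) ∧
      (∀ t, a₁ t = 0 → a₂ t = 0 → t = 0) ∧
      (∀ (t : TQ 𝒪 θ (prodTw 𝒪 tw₁ twχ)) (x : TW.L1.M) (y : TW.Lχ.M),
        TW.U (Submodule.Quotient.mk x) = Submodule.Quotient.mk y →
          TW.U (Submodule.Quotient.mk (a₁ t x)) = Submodule.Quotient.mk (a₂ t y)) :=
  ⟨actL 𝒪 θ tw₁ twχ, actR 𝒪 θ tw₁ twχ, actL_chi 𝒪 θ tw₁ twχ, actR_chi 𝒪 θ tw₁ twχ,
    fun t i => (isCompat_TQ TW tw₁ twχ G hG hgen θ t).1 i,
    fun t i => (isCompat_TQ TW tw₁ twχ G hG hgen θ t).2.1 i,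
    eq_zero_of_actL_of_actR 𝒪 θ tw₁ twχ,
    fun t x y h => (isCompat_TQ TW tw₁ twχ G hG hgen θ t).2.2 x y h⟩

end Compat

/-! ### the big-level producer -/

section Big

variable {O : Type} [CommRing O] [IsLocalRing O] {𝕋 : Type} [CommRing 𝕋] [Algebra O 𝕋]
  {M0 : Type} [AddCommGroup M0] [Module O M0] {act0 : 𝕋 →ₐ[O] Module.End O M0}
  {s k : ℕ} {N : Fin (s + k) → ℕ} (B : FreeLevel O 𝕋 M0 act0 (s + k) N)
  {A : Type} [CommRing A] (twP : A →+* Module.End O B.M)
  (hcomm : ∀ t i, twP t * B.D i = B.D i * twP t)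

/-- the action induced by `twP` on `B.M ⧸ ∑_v (D_v - c v) B.M` -/
def quotTw (c : Fin s → O) : A →+* Module.End O (FamCoinv (frD B) c) where
  toFun t := indF (frD B) c (twP t) (fun v => hcomm t _)
  map_one' := indF_ext _ _ fun x => by
    rw [indF_fmk, map_one]; rfl
  map_mul' t t' := indF_ext _ _ fun x => by
    rw [indF_fmk, map_mul]; rfl
  map_zero' := indF_ext _ _ fun x => by
    rw [indF_fmk, map_zero]; rfl
  map_add' t t' := indF_ext _ _ fun x => by
    rw [indF_fmk, map_add]; rfl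

@[simp] theorem quotTw_fmk (c : Fin s → O) (t : A) (x : B.M) :
    quotTw B twP hcomm c t (fmk (frD B) c x) = fmk (frD B) c (twP t x) := rfl

theorem twO_quotTw_fmk (c : Fin s → O) (a : O ⊗[ℤ] A) (x : B.M) :
    twO O (quotTw B twP hcomm c) a (fmk (frD B) c x) = fmk (frD B) c (twO O twP a x) := by
  induction a using TensorProduct.induction_on with
  | zero => rw [map_zero, map_zero]; rfl
  | tmul r t => rw [twO_tmul, twO_tmul]; rfl
  | add a b ha hb =>
    rw [map_add, map_add, LinearMap.add_apply, LinearMap.add_apply, ha, hb]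
    rfl

/-- `quotTw` commutes with the induced Taylor–Wiles diamonds -/
theorem quotTw_quotDM (c : Fin s → O) (t : A) (i : Fin k) :
    quotTw B twP hcomm c t * quotDM B c i = quotDM B c i * quotTw B twP hcomm c t := by
  refine indF_ext (frD B) c fun x => ?_
  rw [Module.End.mul_apply, Module.End.mul_apply, quotDM_fmk, quotTw_fmk, quotTw_fmk, quotDM_fmk]
  have h := LinearMap.congr_fun (hcomm t (Fin.natAdd s i)) x
  rw [Module.End.mul_apply, Module.End.mul_apply] at h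
  rw [h]

/-- `quotTw` commutes with the induced Hecke symbols when `twP` does -/
theorem quotTw_quotActM (hact : ∀ t u, twP t * B.act u = B.act u * twP t) (c : Fin s → O)
    (t : A) (u : 𝕋) :
    quotTw B twP hcomm c t * quotActM B c u = quotActM B c u * quotTw B twP hcomm c t := by
  refine indF_ext (frD B) c fun x => ?_
  rw [Module.End.mul_apply, Module.End.mul_apply, quotActM_fmk, quotTw_fmk, quotTw_fmk,
    quotActM_fmk]
  have h := LinearMap.congr_fun (hact t u) x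
  rw [Module.End.mul_apply, Module.End.mul_apply] at h
  rw [h]

variable (hN : ∀ i, 0 < N i) (ϖ : O) (c : Fin s → O)
  (hc : ∀ v, c v ^ N (Fin.castAdd k v) = 1) (hc1 : ∀ v, (1 : O) - c v ∈ Ideal.span {ϖ})

/-- the action on `M¹_Q` -/
def tw1 : A →+* Module.End O (twLevelDataMultiSelf B hN ϖ c hc hc1).L1.M :=
  quotTw B twP hcomm (fun _ => 1)

/-- the action on `M^χ_Q` -/
def twChi : A →+* Module.End O (twLevelDataMultiSelf B hN ϖ c hc hc1).Lχ.M :=
  quotTw B twP hcomm c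

theorem tw1_fmk (t : A) (x : B.M) :
    tw1 B twP hcomm hN ϖ c hc hc1 t (fmk (frD B) (fun _ => 1) x) =
      fmk (frD B) (fun _ => 1) (twP t x) := rfl

theorem twChi_fmk (t : A) (x : B.M) :
    twChi B twP hcomm hN ϖ c hc hc1 t (fmk (frD B) c x) = fmk (frD B) c (twP t x) := rfl

/-- **the pair induced by an operator of the big level is compatible** -/
theorem isCompat_quotTw (t : A) :
    IsCompat (twLevelDataMultiSelf B hN ϖ c hc hc1) (tw1 B twP hcomm hN ϖ c hc hc1 t)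
      (twChi B twP hcomm hN ϖ c hc hc1 t) := by
  refine ⟨fun i => ?_, fun i => ?_, fun x y h => ?_⟩
  · exact quotTw_quotDM B twP hcomm (fun _ => 1) t i
  · exact quotTw_quotDM B twP hcomm c t i
  · exact chiUM_comm (frD B) ϖ c hc1 (quotTw B twP hcomm (fun _ => 1) t)
      (quotTw B twP hcomm c t) (twP t) (fun _ => rfl) (fun _ => rfl) x y h

variable (θ : A →+* ResidueField O)

/-- **PLUG:T at the big level** — the fields `a₁ a₂ a₁_D a₂_D a_U` of `TWInput` for
`tw := twLevelDataMultiSelf B hN ϖ c hc hc1` and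
`T := ImageRing.TQ O θ (prodTw O tw1 twChi)`, from ONE action `twP` of `A` on the big module
commuting with all diamonds -/
theorem exists_fields_big :
    ∃ (a₁ : TQ O θ (prodTw O (tw1 B twP hcomm hN ϖ c hc hc1) (twChi B twP hcomm hN ϖ c hc hc1))
          →ₐ[O] Module.End O (twLevelDataMultiSelf B hN ϖ c hc hc1).L1.M)
      (a₂ : TQ O θ (prodTw O (tw1 B twP hcomm hN ϖ c hc hc1) (twChi B twP hcomm hN ϖ c hc hc1))
          →ₐ[O] Module.End O (twLevelDataMultiSelf B hN ϖ c hc hc1).Lχ.M),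
      (∀ t, a₁ (chi O θ _ t) = tw1 B twP hcomm hN ϖ c hc hc1 t) ∧
      (∀ t, a₂ (chi O θ _ t) = twChi B twP hcomm hN ϖ c hc hc1 t) ∧
      (∀ t i, a₁ t * (twLevelDataMultiSelf B hN ϖ c hc hc1).L1.D i =
        (twLevelDataMultiSelf B hN ϖ c hc hc1).L1.D i * a₁ t) ∧
      (∀ t i, a₂ t * (twLevelDataMultiSelf B hN ϖ c hc hc1).Lχ.D i =
        (twLevelDataMultiSelf B hN ϖ c hc hc1).Lχ.D i * a₂ t) ∧
      (∀ t, a₁ t = 0 → a₂ t = 0 → t = 0) ∧
      (∀ (t : TQ O θ (prodTw O (tw1 B twP hcomm hN ϖ c hc hc1)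
            (twChi B twP hcomm hN ϖ c hc hc1)))
          (x : (twLevelDataMultiSelf B hN ϖ c hc hc1).L1.M)
          (y : (twLevelDataMultiSelf B hN ϖ c hc hc1).Lχ.M),
        (twLevelDataMultiSelf B hN ϖ c hc hc1).U (Submodule.Quotient.mk x) =
            Submodule.Quotient.mk y →
          (twLevelDataMultiSelf B hN ϖ c hc hc1).U (Submodule.Quotient.mk (a₁ t x)) =
            Submodule.Quotient.mk (a₂ t y)) :=
  exists_fields_of_compat (twLevelDataMultiSelf B hN ϖ c hc hc1)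
    (tw1 B twP hcomm hN ϖ c hc hc1) (twChi B twP hcomm hN ϖ c hc hc1) Set.univ
    (by rw [Algebra.adjoin_univ])
    (fun t _ => isCompat_quotTw B twP hcomm hN ϖ c hc hc1 t) θ

/-- surjectivity passes to the quotients -/
theorem twO_quotTw_surjective (c' : Fin s → O) (a : O ⊗[ℤ] A)
    (h : Function.Surjective (twO O twP a)) :
    Function.Surjective (twO O (quotTw B twP hcomm c') a) := by
  intro y
  obtain ⟨x, rfl⟩ := fmk_surjective (frD B) c' y
  obtain ⟨x', rfl⟩ := h x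
  exact ⟨fmk (frD B) c' x', twO_quotTw_fmk B twP hcomm c' a x'⟩

/-- **(LOC) passes from the big level to the quotients** -/
theorem locHyp_quotTw [Module.Finite O B.M] (c' : Fin s → O) (h : LocHyp O θ twP) :
    LocHyp O θ (quotTw B twP hcomm c') := by
  intro a ha
  have hs := twO_quotTw_surjective B twP hcomm c' a (h a ha).2
  exact ⟨OrzechProperty.injective_of_surjective_endomorphism _ hs, hs⟩

/-- **(LOC) for the product `M¹_Q × M^χ_Q`** from (LOC) at the big level -/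
theorem locHyp_big [Module.Finite O B.M] (h : LocHyp O θ twP) :
    LocHyp O θ (prodTw O (tw1 B twP hcomm hN ϖ c hc hc1) (twChi B twP hcomm hN ϖ c hc hc1)) :=
  locHyp_prodTw O θ (locHyp_quotTw B twP hcomm θ (fun _ => 1) h)
    (locHyp_quotTw B twP hcomm θ c h)

end Big

end Fermat.Agent.GB.B4.Datum.TQCompat
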