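/-
GATE-B / S43, (P3) PLUG:T, file 2 (helper74): `TQFields.exists_fields` for the Prelude Hecke algebra
of forms `A = heckeAlgebra N' k S`: the generating set is `{T ℓ} ∪ {U q}`, so the symbol
compatibility `hsym` is asked on the `T ℓ` (`ℓ ∤ N'`, `ℓ ∉ S`) and the `U q` (`q ∣ N'`, `q ∉ S`)
only.  (The transported action `Ξ` of `GB/B4/Twist/Transport.exists_hecke_transport` satisfies it
by `Transport.transport_eq`, with the Betti Hecke operators as the intertwined endomorphisms.)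
-/
import Mathlib
import Fermat.Agent.GB.B4.Datum.TQFields
import Fermat.Prelude.Def_CuspForm_HeckeAlgebra

set_option autoImplicit false

noncomputable section

namespace Fermat.Agent.GB.B4.Datum.TQFieldsHecke

open CuspForm IsLocalRing Fermat.Agent.GB.B4.Datum.ImageRing Fermat.Agent.GB.B4.Datum.TQFields
  Fermat.Agent.GB.B3.TWLevel

variable (N' : ℕ) [NeZero N'] (k' : ℤ) (S : Set ℕ)

/-- the generators `T ℓ`, `U q` inside the Hecke algebra -/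
def gens : Set ↥(heckeAlgebra N' k' S) :=
  ((↑) : ↥(heckeAlgebra N' k' S) → Module.End ℂ (CuspForm (CongruenceSubgroup.Gamma0 N') k')) ⁻¹'
    heckeGenerators N' k' S

/-- **the Hecke algebra is generated by the `T ℓ` and the `U q`** -/
theorem adjoin_gens : Algebra.adjoin ℤ (gens N' k' S) = ⊤ :=
  Algebra.adjoin_adjoin_coe_preimage (R := ℤ) (s := heckeGenerators N' k' S)

variable {N' k' S}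

/-- a generator is a `T ℓ` or a `U q` -/
theorem gens_cases {t : ↥(heckeAlgebra N' k' S)} (ht : t ∈ gens N' k' S) :
    (∃ (ℓ : ℕ) (hℓ : ℓ.Prime) (hℓN : ¬ ℓ ∣ N') (hℓS : ℓ ∉ S), t = heckeAlgebra.T hℓ hℓN hℓS) ∨
      (∃ (q : ℕ) (hq : q.Prime) (hqN : q ∣ N') (hqS : q ∉ S), t = heckeAlgebra.U hq hqN hqS) := by
  rcases ht with ⟨ℓ, hℓ, hℓN, hℓS, h⟩ | ⟨q, hqN, hq, hqS, h⟩
  · exact Or.inl ⟨ℓ, hℓ, hℓN, hℓS, Subtype.ext h⟩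
  · exact Or.inr ⟨q, hq, hqN, hqS, Subtype.ext h⟩

theorem T_mem_gens {ℓ : ℕ} (hℓ : ℓ.Prime) (hℓN : ¬ ℓ ∣ N') (hℓS : ℓ ∉ S) :
    (heckeAlgebra.T hℓ hℓN hℓS : ↥(heckeAlgebra N' k' S)) ∈ gens N' k' S :=
  heckeTLin_mem_heckeGenerators hℓ hℓN hℓS

theorem U_mem_gens {q : ℕ} (hq : q.Prime) (hqN : q ∣ N') (hqS : q ∉ S) :
    (heckeAlgebra.U hq hqN hqS : ↥(heckeAlgebra N' k' S)) ∈ gens N' k' S :=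
  heckeULin_mem_heckeGenerators hq hqN hqS

/-- a property of the elements of the Hecke algebra closed under the ring operations holds as
soon as it holds for the `T ℓ` and the `U q` (in the `hsym` shape of `TQFields`) -/
theorem hsym_of_TU {𝒪 : Type} [CommRing 𝒪] [IsLocalRing 𝒪] {𝕋 : Type} [CommRing 𝕋] [Algebra 𝒪 𝕋]
    {M₁ M₂ : Type} [AddCommGroup M₁] [Module 𝒪 M₁] [AddCommGroup M₂] [Module 𝒪 M₂]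
    (act₁ : 𝕋 →ₐ[𝒪] Module.End 𝒪 M₁) (act₂ : 𝕋 →ₐ[𝒪] Module.End 𝒪 M₂)
    (ev : 𝕋 →ₐ[𝒪] ResidueField 𝒪) (θ : ↥(heckeAlgebra N' k' S) →+* ResidueField 𝒪)
    (tw₁ : ↥(heckeAlgebra N' k' S) →+* Module.End 𝒪 M₁)
    (tw₂ : ↥(heckeAlgebra N' k' S) →+* Module.End 𝒪 M₂)
    (hT : ∀ {ℓ : ℕ} (hℓ : ℓ.Prime) (hℓN : ¬ ℓ ∣ N') (hℓS : ℓ ∉ S), ∃ s : 𝕋,
      tw₁ (heckeAlgebra.T hℓ hℓN hℓS) = act₁ s ∧ tw₂ (heckeAlgebra.T hℓ hℓN hℓS) = act₂ s ∧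
        θ (heckeAlgebra.T hℓ hℓN hℓS) = ev s)
    (hU : ∀ {q : ℕ} (hq : q.Prime) (hqN : q ∣ N') (hqS : q ∉ S), ∃ s : 𝕋,
      tw₁ (heckeAlgebra.U hq hqN hqS) = act₁ s ∧ tw₂ (heckeAlgebra.U hq hqN hqS) = act₂ s ∧
        θ (heckeAlgebra.U hq hqN hqS) = ev s) :
    ∀ t ∈ gens N' k' S, ∃ s : 𝕋, tw₁ t = act₁ s ∧ tw₂ t = act₂ s ∧ θ t = ev s := by
  intro t ht
  rcases gens_cases ht with ⟨ℓ, hℓ, hℓN, hℓS, rfl⟩ | ⟨q, hq, hqN, hqS, rfl⟩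
  · exact hT hℓ hℓN hℓS
  · exact hU hq hqN hqS

/-- **PLUG:T for `A = heckeAlgebra N' k' S`**: the `TWInput` fields from the symbol compatibility on
the `T ℓ` and the `U q` -/
theorem exists_fields_hecke {𝒪 : Type} [CommRing 𝒪] [IsLocalRing 𝒪] {ϖ : 𝒪} {𝕋 : Type}
    [CommRing 𝕋] [Algebra 𝒪 𝕋]
    {M0 : Type} [AddCommGroup M0] [Module 𝒪 M0] {act0 : 𝕋 →ₐ[𝒪] Module.End 𝒪 M0}
    {M0χ : Type} [AddCommGroup M0χ] [Module 𝒪 M0χ] {act0χ : 𝕋 →ₐ[𝒪] Module.End 𝒪 M0χ}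
    {k : ℕ} {N : Fin k → ℕ} (TW : TWLevelData 𝒪 ϖ 𝕋 M0 act0 M0χ act0χ k N)
    (ev : 𝕋 →ₐ[𝒪] ResidueField 𝒪) (θ : ↥(heckeAlgebra N' k' S) →+* ResidueField 𝒪)
    (tw₁ : ↥(heckeAlgebra N' k' S) →+* Module.End 𝒪 TW.L1.M)
    (twχ : ↥(heckeAlgebra N' k' S) →+* Module.End 𝒪 TW.Lχ.M)
    (hT : ∀ {ℓ : ℕ} (hℓ : ℓ.Prime) (hℓN : ¬ ℓ ∣ N') (hℓS : ℓ ∉ S), ∃ s : 𝕋,
      tw₁ (heckeAlgebra.T hℓ hℓN hℓS) = TW.L1.act s ∧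
        twχ (heckeAlgebra.T hℓ hℓN hℓS) = TW.Lχ.act s ∧ θ (heckeAlgebra.T hℓ hℓN hℓS) = ev s)
    (hU : ∀ {q : ℕ} (hq : q.Prime) (hqN : q ∣ N') (hqS : q ∉ S), ∃ s : 𝕋,
      tw₁ (heckeAlgebra.U hq hqN hqS) = TW.L1.act s ∧
        twχ (heckeAlgebra.U hq hqN hqS) = TW.Lχ.act s ∧ θ (heckeAlgebra.U hq hqN hqS) = ev s) :
    ∃ (a₁ : TQ 𝒪 θ (prodTw 𝒪 tw₁ twχ) →ₐ[𝒪] Module.End 𝒪 TW.L1.M)
      (a₂ : TQ 𝒪 θ (prodTw 𝒪 tw₁ twχ) →ₐ[𝒪] Module.End 𝒪 TW.Lχ.M),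
      (∀ t, a₁ (chi 𝒪 θ (prodTw 𝒪 tw₁ twχ) t) = tw₁ t) ∧
      (∀ t, a₂ (chi 𝒪 θ (prodTw 𝒪 tw₁ twχ) t) = twχ t) ∧
      (∀ t i, a₁ t * TW.L1.D i = TW.L1.D i * a₁ t) ∧
      (∀ t i, a₂ t * TW.Lχ.D i = TW.Lχ.D i * a₂ t) ∧
      (∀ t, a₁ t = 0 → a₂ t = 0 → t = 0) ∧
      (∀ t, ∃ s : 𝕋, a₁ t = TW.L1.act s ∧ a₂ t = TW.Lχ.act s) ∧
      (∀ (t : TQ 𝒪 θ (prodTw 𝒪 tw₁ twχ)) (x : TW.L1.M) (y : TW.Lχ.M),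
        TW.U (Submodule.Quotient.mk x) = Submodule.Quotient.mk y →
          TW.U (Submodule.Quotient.mk (a₁ t x)) = Submodule.Quotient.mk (a₂ t y)) :=
  exists_fields TW ev θ tw₁ twχ (gens N' k' S) (adjoin_gens N' k' S)
    (hsym_of_TU TW.L1.act TW.Lχ.act ev θ tw₁ twχ hT hU)

/-- `LocHyp` for `A = heckeAlgebra N' k' S` from the B3 side -/
theorem locHyp_hecke {𝒪 : Type} [CommRing 𝒪] [IsLocalRing 𝒪] {𝕋 : Type} [CommRing 𝕋] [Algebra 𝒪 𝕋]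
    {M₁ M₂ : Type} [AddCommGroup M₁] [Module 𝒪 M₁] [AddCommGroup M₂] [Module 𝒪 M₂]
    [Module.Finite 𝒪 M₁] [Module.Finite 𝒪 M₂]
    (act₁ : 𝕋 →ₐ[𝒪] Module.End 𝒪 M₁) (act₂ : 𝕋 →ₐ[𝒪] Module.End 𝒪 M₂)
    (ev : 𝕋 →ₐ[𝒪] ResidueField 𝒪) (θ : ↥(heckeAlgebra N' k' S) →+* ResidueField 𝒪)
    (tw₁ : ↥(heckeAlgebra N' k' S) →+* Module.End 𝒪 M₁)
    (tw₂ : ↥(heckeAlgebra N' k' S) →+* Module.End 𝒪 M₂)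
    (hT : ∀ {ℓ : ℕ} (hℓ : ℓ.Prime) (hℓN : ¬ ℓ ∣ N') (hℓS : ℓ ∉ S), ∃ s : 𝕋,
      tw₁ (heckeAlgebra.T hℓ hℓN hℓS) = act₁ s ∧ tw₂ (heckeAlgebra.T hℓ hℓN hℓS) = act₂ s ∧
        θ (heckeAlgebra.T hℓ hℓN hℓS) = ev s)
    (hU : ∀ {q : ℕ} (hq : q.Prime) (hqN : q ∣ N') (hqS : q ∉ S), ∃ s : 𝕋,
      tw₁ (heckeAlgebra.U hq hqN hqS) = act₁ s ∧ tw₂ (heckeAlgebra.U hq hqN hqS) = act₂ s ∧
        θ (heckeAlgebra.U hq hqN hqS) = ev s)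
    (h₁ : Fermat.Agent.GB.B3.TQ.IsPrimary act₁ (RingHom.ker (ev : 𝕋 →+* ResidueField 𝒪)))
    (h₂ : Fermat.Agent.GB.B3.TQ.IsPrimary act₂ (RingHom.ker (ev : 𝕋 →+* ResidueField 𝒪))) :
    LocHyp 𝒪 θ (prodTw 𝒪 tw₁ tw₂) :=
  locHyp_of_isPrimary act₁ act₂ ev θ tw₁ tw₂ (gens N' k' S) (adjoin_gens N' k' S)
    (hsym_of_TU act₁ act₂ ev θ tw₁ tw₂ hT hU) h₁ h₂

end Fermat.Agent.GB.B4.Datum.TQFieldsHecke
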