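/-
GATE-B / GB-B4-DATUM (helper12), D1a/D1d: the carrier `Tloc 𝒪 θ` for the anemic Hecke algebra
`A = heckeAlgebra N 2 S` (finite over `ℤ` by S22, torsion free hence flat), and
`mkDatum`: a FULL `CuspForm.HeckeGaloisRepDatum N S 𝒪 θ (Tloc 𝒪 θ)` from a Galois representation
`ρ` over `Tloc 𝒪 θ` with the Eichler–Shimura characteristic polynomials and absolutely
irreducible residual representation.  So the ONLY thing that an existence theorem for a datum
still needs is `ρ` (gluing, `GB/B4/GlueRep`).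
-/
import Fermat.Agent.GB.B4.Datum.Carrier
import Fermat.Agent.S22
import Fermat.Prelude.Def_CuspForm_HeckeGaloisRepDatum

set_option autoImplicit false

noncomputable section

namespace Fermat.Agent.GB.B4.Datum.HeckeCarrier

open CuspForm IsLocalRing Polynomial Fermat.Agent.GB.B4.Datum.Carrier

variable {N : ℕ} [NeZero N] {S : Set ℕ}

instance finiteHecke : Module.Finite ℤ (heckeAlgebra N 2 S) := Fermat.Agent.S22.result N 2 S

instance flatHecke : Module.Flat ℤ (heckeAlgebra N 2 S) := inferInstance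

variable (𝒪 : Type) [CommRing 𝒪] [IsDomain 𝒪] [IsDiscreteValuationRing 𝒪]
  [IsAdicComplete (maximalIdeal 𝒪) 𝒪] (θ : heckeAlgebra N 2 S →+* ResidueField 𝒪)

/-- **D1d**: a full Hecke–Galois datum on the carrier from `ρ`. -/
def mkDatum (ρ : GaloisRepAdic (Tloc 𝒪 θ))
    (hchar : ∀ (ℓ : ℕ) (hℓ : ℓ.Prime) (hℓN : ¬ ℓ ∣ N) (hℓS : ℓ ∉ S),
      ∀ A : ValuationSubring (AlgebraicClosure ℚ), A.LiesOverPrime ℓ →
        ∀ σ : AlgebraicClosure ℚ ≃ₐ[ℚ] AlgebraicClosure ℚ, A.IsFrobeniusAt σ ℓ →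
          LinearMap.charpoly (ρ.ρ σ) =
            X ^ 2 - C (piT 𝒪 θ (heckeAlgebra.T hℓ hℓN hℓS)) * X + C ((ℓ : Tloc 𝒪 θ)))
    (habs : ρ.residual.IsAbsolutelyIrreducible) :
    HeckeGaloisRepDatum N S 𝒪 θ (Tloc 𝒪 θ) where
  π := piT 𝒪 θ
  residue_π := residue_piT 𝒪 θ
  adjoin_range_π := adjoin_range_piT 𝒪 θ
  exists_point := fun χ hχ => exists_point 𝒪 θ χ hχ
  residue_surjective := residue_comp_algebraMap_surjective 𝒪 θ
  ρ := ρ
  charpoly_frob := hchar
  residual_absIrr := habs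

@[simp] theorem mkDatum_π (ρ : GaloisRepAdic (Tloc 𝒪 θ)) (hchar) (habs) :
    (mkDatum 𝒪 θ ρ hchar habs).π = piT 𝒪 θ := rfl

@[simp] theorem mkDatum_ρ (ρ : GaloisRepAdic (Tloc 𝒪 θ)) (hchar) (habs) :
    (mkDatum 𝒪 θ ρ hchar habs).ρ = ρ := rfl

end Fermat.Agent.GB.B4.Datum.HeckeCarrier
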