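/-
GATE-B / (P3)+(P5)+(P6) seam (helper66): **`T_Q` is REDUCED and integral over `𝒪`.**

`T_Q = ImageRing.TQ 𝒪 θ tw` (helper12) is `𝒪`-free and generated over `𝒪` by the image of
`chi : A →+* T_Q`; if the Hecke algebra `A` is reduced and finite over `ℤ` (`A = heckeAlgebra N 2 S`:
`GS/Pet.isReduced_heckeAlgebra`, S22) this makes `T_Q` reduced
(`GS/Pet/DatumAlg.isReduced_of_adjoin_range`).  These are the instance binders
`[IsReduced T] [Algebra.IsIntegral O T]` of `GB/B7/Kill1Plug.hred_of_isReduced`,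
`GB/Alg/UnitPoints.unit_field_of_points` and `GB/Local/Kill2T`.

* `isReduced_TQ` / `isIntegral_TQ` : abstract `A`.
* `isReduced_TQ_hecke` : `A = heckeAlgebra N 2 S`, `S ⊇` primes of `N`.
-/
import Fermat.Agent.GB.B4.Datum.ImageRing
import Fermat.Agent.GB.B4.Datum.HeckeCarrier
import Fermat.Agent.GS.Pet.Reduced
import Fermat.Agent.GS.Pet.DatumAlg

set_option autoImplicit false
set_option linter.unusedSectionVars false

namespace Fermat.Agent.GB.B4.Datum.TQReduced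

open IsLocalRing CuspForm Fermat.Agent.GB.B4.Datum.ImageRing

section Abstract

variable {𝒪 : Type} [CommRing 𝒪] [IsLocalRing 𝒪] [IsNoetherianRing 𝒪] [IsDomain 𝒪]
  [IsPrincipalIdealRing 𝒪] [CharZero 𝒪]
  {A : Type} [CommRing A] [IsReduced A] [Module.Finite ℤ A]
  {M : Type} [AddCommGroup M] [Module 𝒪 M] [Module.Finite 𝒪 M] [Module.Free 𝒪 M] [Nontrivial M]
  (θ : A →+* ResidueField 𝒪) (tw : A →+* Module.End 𝒪 M) [Fact (LocHyp 𝒪 θ tw)]

/-- **`T_Q` is reduced.** -/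
theorem isReduced_TQ : IsReduced (TQ 𝒪 θ tw) :=
  Fermat.Agent.GS.Pet.DatumAlg.isReduced_of_adjoin_range (O := 𝒪) (chi 𝒪 θ tw)
    (adjoin_range_chi 𝒪 θ tw)

/-- `T_Q` is integral over `𝒪`. -/
theorem isIntegral_TQ : Algebra.IsIntegral 𝒪 (TQ 𝒪 θ tw) := Algebra.IsIntegral.of_finite 𝒪 _

end Abstract

section Hecke

variable {𝒪 : Type} [CommRing 𝒪] [IsLocalRing 𝒪] [IsNoetherianRing 𝒪] [IsDomain 𝒪]
  [IsPrincipalIdealRing 𝒪] [CharZero 𝒪]
  {N : ℕ} [NeZero N] {S : Finset ℕ}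
  {M : Type} [AddCommGroup M] [Module 𝒪 M] [Module.Finite 𝒪 M] [Module.Free 𝒪 M] [Nontrivial M]
  (θ : heckeAlgebra N 2 (↑S : Set ℕ) →+* ResidueField 𝒪)
  (tw : heckeAlgebra N 2 (↑S : Set ℕ) →+* Module.End 𝒪 M) [Fact (LocHyp 𝒪 θ tw)]

/-- **`T_Q` is reduced** for the Hecke algebra of level `N` away from `S ⊇` primes of `N`. -/
theorem isReduced_TQ_hecke (hNS : ∀ q : ℕ, q.Prime → q ∣ N → q ∈ S) :
    IsReduced (TQ 𝒪 θ tw) := by
  have : IsReduced (heckeAlgebra N 2 (↑S : Set ℕ)) :=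
    Fermat.Agent.GS.Pet.isReduced_heckeAlgebra N 2 (↑S : Set ℕ) (fun q hq hqN => hNS q hq hqN)
  exact isReduced_TQ θ tw

end Hecke

end Fermat.Agent.GB.B4.Datum.TQReduced
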