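/-
GATE-B / S43, (P3) LOC-GEN (helper74): **`ImageRing.LocHyp` from "scalar + nilpotent" on a
generating set** — the localisation hypothesis of helper12's `ImageRing.TQ` in the TWISTED setting,
where the operators `tw t` are NOT given by Hecke symbols (`tw (T_ℓ) = ⟨ℓ⟩^{-1/2} ∘ T_ℓ`).

`𝒪` local with residue field `κ`, `M` a finite `𝒪`-module, `bc f := id_κ ⊗ f ∈ End_κ (κ ⊗ M)`.

* `NilAt f c` : `bc f - c` is nilpotent (`f` acts on `κ ⊗ M` as the scalar `c` plus a nilpotent);
  closed under sums and products of COMMUTING operators, contains the scalars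
  (`nilAt_algebraMap`, `NilAt.add`, `NilAt.mul`, `NilAt.smul`);
* `NilAt.bijective` : `NilAt f c`, `c ≠ 0` ⟹ `f` bijective (unit + nilpotent, Nakayama, Orzech);
* `nilAt_of_pow_eq_one` : `f ^ (p ^ a) = 1`, `p = 0` in `κ` ⟹ `NilAt f 1` (diamond operators of
  `p`-power order);
* `nilAt_of_isPrimary` : a commutative `𝒪`-algebra `𝕋` acting on `M`, every `s ∉ ker ev` acting
  surjectively (`ev : 𝕋 →ₐ[𝒪] κ`) ⟹ `NilAt (act s) (ev s)` for every `s` (minimal polynomial);
* `nilAt_tw`, `nilAt_twO` : from a generating set of `A` to `A` and to `𝒪 ⊗ A`;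
* **`locHyp_of_nilAt`** : `LocHyp 𝒪 θ tw` as soon as `NilAt (tw t) (θ t)` on a generating set.
-/
import Mathlib
import Fermat.Agent.GB.B4.Datum.ImageRing

set_option autoImplicit false
set_option linter.style.haveILetI false

noncomputable section

namespace Fermat.Agent.GB.B4.Datum.LocGen

open TensorProduct IsLocalRing Polynomial Fermat.Agent.GB.B4.Datum.Carrier
  Fermat.Agent.GB.B4.Datum.ImageRing

variable {𝒪 : Type} [CommRing 𝒪] [IsLocalRing 𝒪] {M : Type} [AddCommGroup M] [Module 𝒪 M]

/-- reduction of an endomorphism to the residue field -/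
abbrev bc : Module.End 𝒪 M →ₐ[𝒪] Module.End (ResidueField 𝒪) (ResidueField 𝒪 ⊗[𝒪] M) :=
  Module.End.baseChangeHom 𝒪 (ResidueField 𝒪) M

theorem bc_apply_tmul (f : Module.End 𝒪 M) (c : ResidueField 𝒪) (m : M) :
    bc f (c ⊗ₜ[𝒪] m) = c ⊗ₜ[𝒪] f m := rfl

/-- `f` acts on `κ ⊗ M` as the scalar `c` up to a nilpotent -/
def NilAt (f : Module.End 𝒪 M) (c : ResidueField 𝒪) : Prop :=
  IsNilpotent (bc f - algebraMap (ResidueField 𝒪)
    (Module.End (ResidueField 𝒪) (ResidueField 𝒪 ⊗[𝒪] M)) c)

/-! ### generic ring lemmas (`E` any `κ`-algebra) -/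

section Generic

variable {κ E : Type*} [CommRing κ] [Ring E] [Algebra κ E]

theorem gen_commute {x y : E} (h : Commute x y) (c c' : κ) :
    Commute (x - algebraMap κ E c) (y - algebraMap κ E c') := by
  refine Commute.sub_left (Commute.sub_right h ?_) (Commute.sub_right ?_ ?_)
  · exact (Algebra.commutes c' x).symm
  · exact Algebra.commutes c y
  · exact Algebra.commutes c _

theorem gen_add {x y : E} {c c' : κ} (h : Commute x y)
    (hx : IsNilpotent (x - algebraMap κ E c)) (hy : IsNilpotent (y - algebraMap κ E c')) :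
    IsNilpotent (x + y - algebraMap κ E (c + c')) := by
  rw [map_add, add_sub_add_comm]
  exact Commute.isNilpotent_add (gen_commute h c c') hx hy

theorem gen_mul {x y : E} {c c' : κ} (h : Commute x y)
    (hx : IsNilpotent (x - algebraMap κ E c)) (hy : IsNilpotent (y - algebraMap κ E c')) :
    IsNilpotent (x * y - algebraMap κ E (c * c')) := by
  have e : x * y - algebraMap κ E (c * c') =
      (x - algebraMap κ E c) * y + algebraMap κ E c * (y - algebraMap κ E c') := by
    rw [map_mul, sub_mul, mul_sub, sub_add_sub_cancel]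
  rw [e]
  have c1 : Commute (x - algebraMap κ E c) y :=
    Commute.sub_left h (Algebra.commutes c y)
  have c2 : Commute (algebraMap κ E c) (y - algebraMap κ E c') := Algebra.commutes c _
  have n1 : IsNilpotent ((x - algebraMap κ E c) * y) := c1.isNilpotent_mul_right hx
  have n2 : IsNilpotent (algebraMap κ E c * (y - algebraMap κ E c')) :=
    c2.isNilpotent_mul_left hy
  refine Commute.isNilpotent_add ?_ n1 n2
  have c3 : Commute (x - algebraMap κ E c) (y - algebraMap κ E c') := gen_commute h c c'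
  have c4 : Commute (x - algebraMap κ E c) (algebraMap κ E c) := (Algebra.commutes c _).symm
  have c5 : Commute y (algebraMap κ E c) := (Algebra.commutes c _).symm
  have c6 : Commute y (y - algebraMap κ E c') :=
    Commute.sub_right (Commute.refl _) (Algebra.commutes c' _).symm
  exact Commute.mul_left (Commute.mul_right c4 c3) (Commute.mul_right c5 c6)

theorem gen_self (c : κ) : IsNilpotent (algebraMap κ E c - algebraMap κ E c) := by
  rw [sub_self]
  exact IsNilpotent.zero

theorem gen_zero {x : E} (hx : IsNilpotent x) : IsNilpotent (x - algebraMap κ E 0) := by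
  rwa [map_zero, sub_zero]

theorem gen_isUnit {x : E} {c : κ} (hc : IsUnit c) (hx : IsNilpotent (x - algebraMap κ E c)) :
    IsUnit x := by
  have hu : IsUnit (algebraMap κ E c) := hc.map _
  have := hx.isUnit_add_left_of_commute hu
    (Commute.sub_left (Algebra.commutes c x).symm (Commute.refl _))
  rwa [add_sub_cancel] at this

theorem gen_pow_char {p a : ℕ} [Fact p.Prime] [CharP E p] {x : E} (hx : x ^ (p ^ a) = 1) :
    IsNilpotent (x - algebraMap κ E 1) := by
  refine ⟨p ^ a, ?_⟩
  rw [map_one, sub_pow_char_pow_of_commute p a (Commute.one_right x), one_pow, hx, sub_self]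

end Generic

theorem nilAt_algebraMap (x : 𝒪) :
    NilAt (algebraMap 𝒪 (Module.End 𝒪 M) x) (residue 𝒪 x) := by
  unfold NilAt
  have h : bc (algebraMap 𝒪 (Module.End 𝒪 M) x) =
      algebraMap (ResidueField 𝒪) (Module.End (ResidueField 𝒪) (ResidueField 𝒪 ⊗[𝒪] M))
        (residue 𝒪 x) := by
    rw [AlgHom.commutes, IsScalarTower.algebraMap_apply 𝒪 (ResidueField 𝒪)
      (Module.End (ResidueField 𝒪) (ResidueField 𝒪 ⊗[𝒪] M)) x]
    rfl
  rw [h]
  exact gen_self (κ := ResidueField 𝒪)
    (E := Module.End (ResidueField 𝒪) (ResidueField 𝒪 ⊗[𝒪] M)) _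

theorem nilAt_one : NilAt (1 : Module.End 𝒪 M) 1 := by
  have h := nilAt_algebraMap (M := M) (1 : 𝒪)
  rwa [map_one, map_one] at h

theorem NilAt.add {f g : Module.End 𝒪 M} {c c' : ResidueField 𝒪} (hfg : Commute f g)
    (hf : NilAt f c) (hg : NilAt g c') : NilAt (f + g) (c + c') := by
  unfold NilAt at hf hg ⊢
  have h := gen_add (κ := ResidueField 𝒪)
    (E := Module.End (ResidueField 𝒪) (ResidueField 𝒪 ⊗[𝒪] M)) (hfg.map bc) hf hg
  rwa [← map_add bc] at h

theorem NilAt.mul {f g : Module.End 𝒪 M} {c c' : ResidueField 𝒪} (hfg : Commute f g)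
    (hf : NilAt f c) (hg : NilAt g c') : NilAt (f * g) (c * c') := by
  unfold NilAt at hf hg ⊢
  have h := gen_mul (κ := ResidueField 𝒪)
    (E := Module.End (ResidueField 𝒪) (ResidueField 𝒪 ⊗[𝒪] M)) (hfg.map bc) hf hg
  rwa [← map_mul bc] at h

theorem NilAt.smul {f : Module.End 𝒪 M} {c : ResidueField 𝒪} (x : 𝒪) (hf : NilAt f c) :
    NilAt (x • f) (residue 𝒪 x * c) := by
  rw [Algebra.smul_def]
  exact NilAt.mul (Algebra.commutes x f) (nilAt_algebraMap x) hf

theorem nilAt_zero : NilAt (0 : Module.End 𝒪 M) 0 := by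
  have h := nilAt_algebraMap (M := M) (0 : 𝒪)
  rwa [map_zero, map_zero] at h

theorem NilAt.neg {f : Module.End 𝒪 M} {c : ResidueField 𝒪} (hf : NilAt f c) :
    NilAt (-f) (-c) := by
  have h := NilAt.smul (-1 : 𝒪) hf
  rwa [neg_smul, one_smul, map_neg, map_one, neg_mul, one_mul] at h

/-! ### bijectivity -/

theorem surjective_of_bc_surjective [Module.Finite 𝒪 M] (f : Module.End 𝒪 M)
    (h : Function.Surjective (bc f)) : Function.Surjective f := by
  rw [← LinearMap.range_eq_top, ← map_tensorProduct_mk_eq_top (R := 𝒪) (M := M),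
    eq_top_iff]
  intro z _
  obtain ⟨w, rfl⟩ := h z
  obtain ⟨m, rfl⟩ := TensorProduct.mk_surjective 𝒪 M (ResidueField 𝒪) residue_surjective w
  exact ⟨f m, ⟨m, rfl⟩, rfl⟩

theorem bc_surjective_of_surjective (f : Module.End 𝒪 M) (h : Function.Surjective f) :
    Function.Surjective (bc f) := by
  intro z
  induction z using TensorProduct.induction_on with
  | zero => exact ⟨0, map_zero _⟩
  | tmul c m =>
    obtain ⟨m', rfl⟩ := h m
    exact ⟨c ⊗ₜ m', rfl⟩
  | add z w hz hw =>
    obtain ⟨z', rfl⟩ := hz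
    obtain ⟨w', rfl⟩ := hw
    exact ⟨z' + w', map_add _ _ _⟩

/-- **scalar `≠ 0` plus nilpotent is bijective** -/
theorem NilAt.bijective [Module.Finite 𝒪 M] {f : Module.End 𝒪 M} {c : ResidueField 𝒪}
    (hf : NilAt f c) (hc : c ≠ 0) : Function.Bijective f := by
  have h1 : IsUnit (bc f) := gen_isUnit (κ := ResidueField 𝒪)
    (E := Module.End (ResidueField 𝒪) (ResidueField 𝒪 ⊗[𝒪] M)) (isUnit_iff_ne_zero.mpr hc) hf
  have h2 : Function.Surjective (bc f) := ((Module.End.isUnit_iff _).mp h1).2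
  have h3 : Function.Surjective f := surjective_of_bc_surjective f h2
  exact ⟨OrzechProperty.injective_of_surjective_endomorphism f h3, h3⟩

/-! ### operators of `p`-power order -/

theorem nilAt_of_pow_eq_one {p a : ℕ} [Fact p.Prime] (hp : (p : ResidueField 𝒪) = 0)
    {f : Module.End 𝒪 M} (hf : f ^ (p ^ a) = 1) : NilAt f 1 := by
  unfold NilAt
  haveI : CharP (ResidueField 𝒪) p := by
    refine (CharP.charP_iff_prime_eq_zero (Fact.out : p.Prime)).mpr hp
  haveI : CharP (Module.End (ResidueField 𝒪) (ResidueField 𝒪 ⊗[𝒪] M)) p ∨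
      Subsingleton (Module.End (ResidueField 𝒪) (ResidueField 𝒪 ⊗[𝒪] M)) := by
    by_cases hs : Nontrivial (Module.End (ResidueField 𝒪) (ResidueField 𝒪 ⊗[𝒪] M))
    · left
      exact charP_of_injective_algebraMap
        (FaithfulSMul.algebraMap_injective (ResidueField 𝒪)
          (Module.End (ResidueField 𝒪) (ResidueField 𝒪 ⊗[𝒪] M))) p
    · right
      exact not_nontrivial_iff_subsingleton.mp hs
  rcases this with hch | hss
  · exact gen_pow_char (κ := ResidueField 𝒪)
      (E := Module.End (ResidueField 𝒪) (ResidueField 𝒪 ⊗[𝒪] M))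
      (by rw [← map_pow bc, hf, map_one])
  · exact ⟨1, Subsingleton.elim _ _⟩

/-! ### primary modules -/

section Primary

variable {𝕋 : Type} [CommRing 𝕋] [Algebra 𝒪 𝕋]

/-- elements of the kernel of `ev` act nilpotently on `κ ⊗ M` -/
theorem isNilpotent_bc_of_mem_ker [Module.Finite 𝒪 M] (act : 𝕋 →ₐ[𝒪] Module.End 𝒪 M)
    (ev : 𝕋 →ₐ[𝒪] ResidueField 𝒪)
    (hprim : ∀ s : 𝕋, ev s ≠ 0 → Function.Surjective (act s)) (m : 𝕋) (hm : ev m = 0) :
    IsNilpotent (bc (act m)) := by
  set g := bc (act m) with hg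
  have hint : IsIntegral (ResidueField 𝒪) g := Algebra.IsIntegral.isIntegral g
  have hμ0 : minpoly (ResidueField 𝒪) g ≠ 0 := minpoly.ne_zero hint
  obtain ⟨Q, hQ, hQd⟩ := Polynomial.exists_eq_pow_rootMultiplicity_mul_and_not_dvd
    (minpoly (ResidueField 𝒪) g) hμ0 0
  have hQ0 : Q.eval 0 ≠ 0 := by
    intro h0
    apply hQd
    rw [Polynomial.dvd_iff_isRoot]
    exact h0
  obtain ⟨Q', rfl⟩ := Polynomial.map_surjective (residue 𝒪) residue_surjective Q
  -- the symbol `s' = Q'(m)`
  have hev : ev (Polynomial.aeval m Q') ≠ 0 := by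
    rw [← Polynomial.aeval_algHom_apply, hm, ← Polynomial.coeff_zero_eq_aeval_zero']
    rw [← Polynomial.coeff_zero_eq_eval_zero, Polynomial.coeff_map] at hQ0
    exact hQ0
  have hsurj : Function.Surjective (bc (act (Polynomial.aeval m Q'))) :=
    bc_surjective_of_surjective _ (hprim _ hev)
  have e1 : bc (act (Polynomial.aeval m Q')) =
      Polynomial.aeval g (Q'.map (residue 𝒪)) := by
    rw [← Polynomial.aeval_algHom_apply, ← Polynomial.aeval_algHom_apply]
    exact (Polynomial.aeval_map_algebraMap (ResidueField 𝒪) g Q').symm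
  have e2 : g ^ (Polynomial.rootMultiplicity 0 (minpoly (ResidueField 𝒪) g)) *
      Polynomial.aeval g (Q'.map (residue 𝒪)) = 0 := by
    have h := minpoly.aeval (ResidueField 𝒪) g
    rw [hQ, map_mul, map_pow, map_sub, Polynomial.aeval_X, Polynomial.aeval_C, map_zero] at h
    rw [show g - 0 = g from sub_zero g] at h
    exact h
  refine ⟨Polynomial.rootMultiplicity 0 (minpoly (ResidueField 𝒪) g), ?_⟩
  refine LinearMap.ext fun z => ?_
  rw [← e1] at e2
  obtain ⟨w, rfl⟩ := hsurj z
  have := LinearMap.congr_fun e2 w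
  rwa [Module.End.mul_apply] at this

/-- **a primary module is "scalar + nilpotent" for every symbol** -/
theorem nilAt_of_isPrimary [Module.Finite 𝒪 M] (act : 𝕋 →ₐ[𝒪] Module.End 𝒪 M)
    (ev : 𝕋 →ₐ[𝒪] ResidueField 𝒪)
    (hprim : ∀ s : 𝕋, ev s ≠ 0 → Function.Surjective (act s)) (s : 𝕋) :
    NilAt (act s) (ev s) := by
  obtain ⟨x, hx⟩ := residue_surjective (ev s)
  have hm : ev (s - algebraMap 𝒪 𝕋 x) = 0 := by
    rw [map_sub, AlgHom.commutes, ← hx]
    exact sub_self _
  have h1 := isNilpotent_bc_of_mem_ker act ev hprim _ hm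
  have h2 : NilAt (act (s - algebraMap 𝒪 𝕋 x)) 0 := by
    unfold NilAt
    exact gen_zero (κ := ResidueField 𝒪)
      (E := Module.End (ResidueField 𝒪) (ResidueField 𝒪 ⊗[𝒪] M)) h1
  have h3 : NilAt (act (algebraMap 𝒪 𝕋 x)) (residue 𝒪 x) := by
    rw [AlgHom.commutes]
    exact nilAt_algebraMap x
  have h4 := NilAt.add (by rw [AlgHom.commutes]; exact (Algebra.commutes x _).symm) h2 h3
  rwa [← map_add, sub_add_cancel, zero_add, hx] at h4

end Primary

/-! ### from generators to `𝒪 ⊗ A` -/

section Gen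

variable {A : Type} [CommRing A] (θ : A →+* ResidueField 𝒪) (tw : A →+* Module.End 𝒪 M)

/-- the elements of `A` acting as `θ t` plus a nilpotent, a subring -/
def nilSubring : Subring A where
  carrier := {t | NilAt (tw t) (θ t)}
  mul_mem' := by
    intro t t' h h'
    show NilAt (tw (t * t')) (θ (t * t'))
    rw [map_mul, map_mul]
    exact NilAt.mul (by rw [Commute, SemiconjBy, ← map_mul, ← map_mul, mul_comm]) h h'
  one_mem' := by
    show NilAt (tw 1) (θ 1)
    rw [map_one, map_one]
    exact nilAt_one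
  add_mem' := by
    intro t t' h h'
    show NilAt (tw (t + t')) (θ (t + t'))
    rw [map_add, map_add]
    exact NilAt.add (by rw [Commute, SemiconjBy, ← map_mul, ← map_mul, mul_comm]) h h'
  zero_mem' := by
    show NilAt (tw 0) (θ 0)
    rw [map_zero, map_zero]
    exact nilAt_zero
  neg_mem' := by
    intro t h
    show NilAt (tw (-t)) (θ (-t))
    rw [map_neg, map_neg]
    exact NilAt.neg h

variable (G : Set A) (hG : Subring.closure G = ⊤) (hgen : ∀ t ∈ G, NilAt (tw t) (θ t))

include hG hgen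

theorem nilAt_tw (t : A) : NilAt (tw t) (θ t) := by
  have h : Subring.closure G ≤ nilSubring θ tw := Subring.closure_le.mpr fun t ht => hgen t ht
  rw [hG] at h
  exact h (Subring.mem_top t)

theorem nilAt_twO (a : 𝒪 ⊗[ℤ] A) : NilAt (twO 𝒪 tw a) (thetaO 𝒪 θ a) := by
  induction a using TensorProduct.induction_on with
  | zero =>
    rw [map_zero, map_zero]
    exact nilAt_zero
  | tmul x t =>
    rw [twO_tmul, thetaO_tmul]
    exact NilAt.smul x (nilAt_tw θ tw G hG hgen t)
  | add a b ha hb =>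
    rw [map_add, map_add]
    exact NilAt.add (by rw [Commute, SemiconjBy, ← map_mul, ← map_mul, mul_comm]) ha hb

/-- **(LOC) from "scalar + nilpotent" on generators** -/
theorem locHyp_of_nilAt [Module.Finite 𝒪 M] : LocHyp 𝒪 θ tw := fun a ha =>
  (nilAt_twO θ tw G hG hgen a).bijective ha

end Gen

end Fermat.Agent.GB.B4.Datum.LocGen
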