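/-
GATE-B / S43, (P3) seam B4-TWIST → B3 (helper74): **restriction of a Hecke action defined on a
submodule `V` of the ambient module to the `𝔪`-primary part realised by a B3 level.**

helper44's twist homomorphism `tw : A →+* End_O V` lives on `V = parabolicHoms O (GammaH θ) O`,
B3's big level `F` is realised (`RealLevel.Realizes`) as the `𝔪`-primary part of the FULL
`L = Hom(GammaH θ, O)`; (BND) (`GB/B3/Boundary`) says that the realisation lands in `V`.  Here, with
no modular input:

* `liftEnd`, `ι_liftEnd` : an endomorphism of `M` from a map `M → L` with values in the range of an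
  injective `ι : M → L`;
* `exists_restrict` : every operator of `L` commuting with the symbols restricts to `F.M`;
* `twP ι hinj hrange act hιact V hV tw actV hactV hcomm hprim : A →+* End_O M` with
  `ιV_twP : ιV (twP t m) = tw t (ιV m)`, for ANY realisation `ι : M → L` of the `𝔪`-primary part
  (a `Realizes` structure, or `Base.locSub` with `ι = subtype`), as soon as `tw t` commutes with the
  symbols on `V` and `M` is `𝔪`-primary;
* `locRestrict`, `twLoc`, `coe_twLoc`, `twLoc_act`, `twLoc_locRestrict` : the same on helper95's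
  `Base.locSub actL 𝔪` (realisation `= subtype`), for ANY ambient action;
* `twP_commute` : `twP t` commutes with every operator of `F.M` whose ambient operator preserves `V`
  and commutes with `tw t` there (symbols: `twP_act`, diamonds: `twP_D`);
* `commute_of_gens` : commutation with `tw t` may be checked on ring generators.
-/
import Mathlib
import Fermat.Agent.GB.B3.Realizes
import Fermat.Agent.GB.B3.Base

set_option autoImplicit false

noncomputable section

namespace Fermat.Agent.GB.B4.Datum.TwRestrict

open Fermat.Agent.GB.B3.TWLevel Fermat.Agent.GB.B3.RealLevel Fermat.Agent.GB.B3.Base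

/-! ### endomorphisms through an injective map -/

section Lift

variable {O : Type*} [CommRing O] {M L : Type*} [AddCommGroup M] [Module O M]
  [AddCommGroup L] [Module O L]

/-- the endomorphism `ι⁻¹ ∘ f` of `M` -/
def liftEnd (ι : M →ₗ[O] L) (hι : Function.Injective ι) (f : M →ₗ[O] L)
    (hf : ∀ m, f m ∈ LinearMap.range ι) : Module.End O M :=
  (LinearEquiv.ofInjective ι hι).symm.toLinearMap ∘ₗ f.codRestrict (LinearMap.range ι) hf

theorem ι_liftEnd (ι : M →ₗ[O] L) (hι : Function.Injective ι) (f : M →ₗ[O] L)
    (hf : ∀ m, f m ∈ LinearMap.range ι) (m : M) : ι (liftEnd ι hι f hf m) = f m := by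
  have h := (LinearEquiv.ofInjective ι hι).apply_symm_apply (f.codRestrict _ hf m)
  exact congrArg Subtype.val h

end Lift

/-! ### operators defined on the whole ambient module -/

section IsLocComm

variable {O : Type*} [CommRing O] {𝕋 : Type*} [CommRing 𝕋] [Algebra O 𝕋]
  {L : Type*} [AddCommGroup L] [Module O L] {actL : 𝕋 →ₐ[O] Module.End O L} {𝔪 : Ideal 𝕋}

/-- an operator commuting with the symbols preserves the `𝔪`-primary part -/
theorem isLoc_of_commute (X : Module.End O L) (hX : ∀ s, X * actL s = actL s * X) {x : L}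
    (hx : IsLoc actL 𝔪 x) : IsLoc actL 𝔪 (X x) := by
  intro s hs
  obtain ⟨y, rfl⟩ := hx s hs
  refine ⟨X y, ?_⟩
  have h := LinearMap.congr_fun (hX s) y
  rw [Module.End.mul_apply, Module.End.mul_apply] at h
  exact h.symm

end IsLocComm

section Whole

variable {O : Type} [CommRing O] {𝕋 : Type} [CommRing 𝕋] [Algebra O 𝕋]
  {M0 : Type} [AddCommGroup M0] [Module O M0] {act0 : 𝕋 →ₐ[O] Module.End O M0}
  {k : ℕ} {N : Fin k → ℕ} {F : FreeLevel O 𝕋 M0 act0 k N}
  {L : Type} [AddCommGroup L] [Module O L] {actL : 𝕋 →ₐ[O] Module.End O L} {𝔪 : Ideal 𝕋}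
  {E : Fin k → Module.End O L} (R : Realizes F actL 𝔪 E)

/-- **every operator of `L` commuting with the symbols restricts to the level** -/
theorem exists_restrict (X : Module.End O L) (hX : ∀ s, X * actL s = actL s * X) :
    ∃ Y : Module.End O F.M, ∀ m, R.ι (Y m) = X (R.ι m) := by
  have hf : ∀ m, (X ∘ₗ R.ι) m ∈ LinearMap.range R.ι := fun m =>
    (R.range _).2 (isLoc_of_commute X hX ((R.range _).1 ⟨m, rfl⟩))
  exact ⟨liftEnd R.ι R.inj (X ∘ₗ R.ι) hf, fun m => ι_liftEnd R.ι R.inj _ hf m⟩

end Whole

/-! ### an action defined on a submodule -/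

section Sub

variable {O : Type*} [CommRing O] {𝕋 : Type*} [CommRing 𝕋] [Algebra O 𝕋]
  {L : Type*} [AddCommGroup L] [Module O L] {actL : 𝕋 →ₐ[O] Module.End O L} {𝔪 : Ideal 𝕋}
  {M : Type*} [AddCommGroup M] [Module O M] (ι : M →ₗ[O] L) (hinj : Function.Injective ι)
  (hrange : ∀ x, x ∈ LinearMap.range ι ↔ IsLoc actL 𝔪 x)
  (act : 𝕋 → Module.End O M) (hιact : ∀ s m, ι (act s m) = actL s (ι m))
  (V : Submodule O L) (hV : ∀ m, ι m ∈ V)

/-- the realisation, with values in `V` -/
def ιV : M →ₗ[O] V := ι.codRestrict V hV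

@[simp] theorem coe_ιV (m : M) : ((ιV ι V hV m : V) : L) = ι m := rfl

include hinj in
theorem ιV_injective : Function.Injective (ιV ι V hV) := fun _ _ h =>
  hinj (congrArg Subtype.val h)

variable {A : Type*} [CommRing A] (tw : A →+* Module.End O V)
  (actV : 𝕋 → Module.End O V) (hactV : ∀ s (v : V), ((actV s v : V) : L) = actL s v)
  (hcomm : ∀ t s, tw t * actV s = actV s * tw t)
  (hprim : ∀ s, s ∉ 𝔪 → Function.Surjective (act s))

include hrange hιact hactV hcomm hprim in
theorem tw_mem_range (t : A) (m : M) :
    (tw t ∘ₗ ιV ι V hV) m ∈ LinearMap.range (ιV ι V hV) := by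
  have hloc : IsLoc actL 𝔪 ((tw t (ιV ι V hV m) : V) : L) := by
    intro s hs
    obtain ⟨m₁, rfl⟩ := hprim s hs m
    refine ⟨((tw t (ιV ι V hV m₁) : V) : L), ?_⟩
    have e1 : ιV ι V hV (act s m₁) = actV s (ιV ι V hV m₁) := by
      apply Subtype.ext
      rw [coe_ιV, hιact, hactV, coe_ιV]
    rw [e1, ← hactV]
    have h := LinearMap.congr_fun (hcomm t s) (ιV ι V hV m₁)
    rw [Module.End.mul_apply, Module.End.mul_apply] at h
    rw [h]
  obtain ⟨m', hm'⟩ := (hrange _).2 hloc
  exact ⟨m', Subtype.ext hm'⟩

/-- **the restricted action** -/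
def twP : A →+* Module.End O M where
  toFun t := liftEnd (ιV ι V hV) (ιV_injective ι hinj V hV) (tw t ∘ₗ ιV ι V hV)
    (tw_mem_range ι hrange act hιact V hV tw actV hactV hcomm hprim t)
  map_one' := by
    refine LinearMap.ext fun m => ιV_injective ι hinj V hV ?_
    rw [ι_liftEnd, LinearMap.comp_apply, map_one]
    rfl
  map_mul' t t' := by
    refine LinearMap.ext fun m => ιV_injective ι hinj V hV ?_
    rw [ι_liftEnd, LinearMap.comp_apply, map_mul, Module.End.mul_apply, Module.End.mul_apply,
      ι_liftEnd, LinearMap.comp_apply, ι_liftEnd, LinearMap.comp_apply]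
  map_zero' := by
    refine LinearMap.ext fun m => ιV_injective ι hinj V hV ?_
    rw [ι_liftEnd, LinearMap.comp_apply, map_zero]
    simp
  map_add' t t' := by
    refine LinearMap.ext fun m => ιV_injective ι hinj V hV ?_
    rw [ι_liftEnd, LinearMap.comp_apply, map_add, LinearMap.add_apply, LinearMap.add_apply,
      map_add, ι_liftEnd, LinearMap.comp_apply, ι_liftEnd, LinearMap.comp_apply]

theorem ιV_twP (t : A) (m : M) :
    ιV ι V hV (twP ι hinj hrange act hιact V hV tw actV hactV hcomm hprim t m) =
      tw t (ιV ι V hV m) :=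
  ι_liftEnd _ _ _ _ m

theorem ι_twP (t : A) (m : M) :
    ι (twP ι hinj hrange act hιact V hV tw actV hactV hcomm hprim t m) =
      ((tw t (ιV ι V hV m) : V) : L) :=
  congrArg Subtype.val (ιV_twP ι hinj hrange act hιact V hV tw actV hactV hcomm hprim t m)

/-- `twP t` commutes with every operator whose ambient operator commutes with `tw t` on `V` -/
theorem twP_commute (t : A) (Y : Module.End O M) (YV : Module.End O V)
    (hY : ∀ m, ιV ι V hV (Y m) = YV (ιV ι V hV m)) (hc : tw t * YV = YV * tw t) :
    twP ι hinj hrange act hιact V hV tw actV hactV hcomm hprim t * Y =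
      Y * twP ι hinj hrange act hιact V hV tw actV hactV hcomm hprim t := by
  refine LinearMap.ext fun m => ιV_injective ι hinj V hV ?_
  rw [Module.End.mul_apply, Module.End.mul_apply, ιV_twP, hY, hY, ιV_twP]
  have h := LinearMap.congr_fun hc (ιV ι V hV m)
  rw [Module.End.mul_apply, Module.End.mul_apply] at h
  exact h

/-- `twP t` commutes with the symbols -/
theorem twP_act (t : A) (s : 𝕋) :
    twP ι hinj hrange act hιact V hV tw actV hactV hcomm hprim t * act s =
      act s * twP ι hinj hrange act hιact V hV tw actV hactV hcomm hprim t :=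
  twP_commute ι hinj hrange act hιact V hV tw actV hactV hcomm hprim t (act s) (actV s)
    (fun m => by
      apply Subtype.ext
      rw [coe_ιV, hιact, hactV, coe_ιV]) (hcomm t s)

/-- `twP t` commutes with the operators of `M` induced by operators of `L` that preserve `V` and
commute with `tw` there (diamonds) -/
theorem twP_D {κ : Type*} (D : κ → Module.End O M) (E : κ → Module.End O L)
    (hιD : ∀ i m, ι (D i m) = E i (ι m))
    (EV : κ → Module.End O V) (hEV : ∀ i (v : V), ((EV i v : V) : L) = E i v)
    (hcommE : ∀ t i, tw t * EV i = EV i * tw t) (t : A) (i : κ) :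
    twP ι hinj hrange act hιact V hV tw actV hactV hcomm hprim t * D i =
      D i * twP ι hinj hrange act hιact V hV tw actV hactV hcomm hprim t :=
  twP_commute ι hinj hrange act hιact V hV tw actV hactV hcomm hprim t (D i) (EV i)
    (fun m => by
      apply Subtype.ext
      rw [coe_ιV, hιD, hEV, coe_ιV]) (hcommE t i)

/-- **uniqueness**: the restricted action is determined by its characterisation -/
theorem twP_unique (tw' : A → Module.End O M)
    (h : ∀ t m, ι (tw' t m) = ((tw t (ιV ι V hV m) : V) : L)) (t : A) :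
    tw' t = twP ι hinj hrange act hιact V hV tw actV hactV hcomm hprim t := by
  refine LinearMap.ext fun m => hinj ?_
  rw [h, ι_twP]

end Sub

/-! ### the case of `Base.locSub` -/

section LocSub

variable {O : Type*} [CommRing O] {𝕋 : Type*} [CommRing 𝕋] [Algebra O 𝕋]
  {L : Type*} [AddCommGroup L] [Module O L] (actL : 𝕋 →ₐ[O] Module.End O L) (𝔪 : Ideal 𝕋)

/-- restriction to the `𝔪`-primary part of an operator commuting with the symbols -/
def locRestrict (X : Module.End O L) (hX : ∀ s, X * actL s = actL s * X) :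
    Module.End O (locSub actL 𝔪) :=
  X.restrict fun _ hx => isLoc_of_commute X hX hx

@[simp] theorem coe_locRestrict (X : Module.End O L) (hX : ∀ s, X * actL s = actL s * X)
    (x : locSub actL 𝔪) : ((locRestrict actL 𝔪 X hX x : locSub actL 𝔪) : L) = X x := rfl

variable (V : Submodule O L) (hV : ∀ x, IsLoc actL 𝔪 x → x ∈ V)
  {A : Type*} [CommRing A] (tw : A →+* Module.End O V)
  (actV : 𝕋 → Module.End O V) (hactV : ∀ s (v : V), ((actV s v : V) : L) = actL s v)
  (hcomm : ∀ t s, tw t * actV s = actV s * tw t)
  (hprim : ∀ s, s ∉ 𝔪 → Function.Surjective (locSubAct actL 𝔪 s))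

theorem range_subtype_locSub (x : L) :
    x ∈ LinearMap.range (locSub actL 𝔪).subtype ↔ IsLoc actL 𝔪 x := by
  rw [Submodule.range_subtype]
  exact Iff.rfl

/-- **the restricted action on `Base.locSub`** -/
def twLoc : A →+* Module.End O (locSub actL 𝔪) :=
  twP (locSub actL 𝔪).subtype Subtype.val_injective (range_subtype_locSub actL 𝔪)
    (fun s => locSubAct actL 𝔪 s) (fun _ _ => rfl) V (fun m => hV m m.2) tw actV hactV hcomm
    hprim

theorem coe_twLoc (t : A) (x : locSub actL 𝔪) :
    ((twLoc actL 𝔪 V hV tw actV hactV hcomm hprim t x : locSub actL 𝔪) : L) =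
      ((tw t ⟨x, hV x x.2⟩ : V) : L) :=
  ι_twP (locSub actL 𝔪).subtype Subtype.val_injective (range_subtype_locSub actL 𝔪)
    (fun s => locSubAct actL 𝔪 s) (fun _ _ => rfl) V (fun m => hV m m.2) tw actV hactV hcomm
    hprim t x

theorem twLoc_act (t : A) (s : 𝕋) :
    twLoc actL 𝔪 V hV tw actV hactV hcomm hprim t * locSubAct actL 𝔪 s =
      locSubAct actL 𝔪 s * twLoc actL 𝔪 V hV tw actV hactV hcomm hprim t :=
  twP_act (locSub actL 𝔪).subtype Subtype.val_injective (range_subtype_locSub actL 𝔪)
    (fun s => locSubAct actL 𝔪 s) (fun _ _ => rfl) V (fun m => hV m m.2) tw actV hactV hcomm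
    hprim t s

/-- `twLoc t` commutes with the restriction of every operator of `L` commuting with the symbols,
preserving `V` and commuting with `tw t` there (diamonds) -/
theorem twLoc_locRestrict (X : Module.End O L) (hX : ∀ s, X * actL s = actL s * X)
    (XV : Module.End O V) (hXV : ∀ v : V, ((XV v : V) : L) = X v)
    (hc : ∀ t, tw t * XV = XV * tw t) (t : A) :
    twLoc actL 𝔪 V hV tw actV hactV hcomm hprim t * locRestrict actL 𝔪 X hX =
      locRestrict actL 𝔪 X hX * twLoc actL 𝔪 V hV tw actV hactV hcomm hprim t :=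
  twP_D (locSub actL 𝔪).subtype Subtype.val_injective (range_subtype_locSub actL 𝔪)
    (fun s => locSubAct actL 𝔪 s) (fun _ _ => rfl) V (fun m => hV m m.2) tw actV hactV hcomm
    hprim (fun _ : Unit => locRestrict actL 𝔪 X hX) (fun _ => X) (fun _ _ => rfl)
    (fun _ => XV) (fun _ v => hXV v) (fun t _ => hc t) t ()

end LocSub

/-! ### commutation on generators -/

section Gens

variable {A : Type*} [CommRing A] {E : Type*} [Ring E] (tw : A →+* E) (G : Set A)
  (hG : Subring.closure G = ⊤)

include hG in
/-- an element commuting with the images of ring generators commutes with the whole image -/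
theorem commute_of_gens (X : E) (hX : ∀ g ∈ G, tw g * X = X * tw g) (t : A) :
    tw t * X = X * tw t := by
  have ht : t ∈ Subring.closure G := by
    rw [hG]
    exact Subring.mem_top t
  induction ht using Subring.closure_induction with
  | mem x hx => exact hX x hx
  | zero => rw [map_zero, zero_mul, mul_zero]
  | one => rw [map_one, one_mul, mul_one]
  | add x y _ _ hx hy => rw [map_add, add_mul, mul_add, hx, hy]
  | neg x _ hx => rw [map_neg, neg_mul, mul_neg, hx]
  | mul x y _ _ hx hy => rw [map_mul, mul_assoc, hy, ← mul_assoc, hx, mul_assoc]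

end Gens

end Fermat.Agent.GB.B4.Datum.TwRestrict
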