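/-
GATE-B / S43, (P3) seam B4-TWIST → B3 → T_Q (helper74): **helper44's twist action restricted to
helper95's big level `Plug.bigLevel`, with (LOC).**

Standing data of `GB/B3/Plug.lean` (`Sy 𝔪 H h`), `θ = Theta (Δs p e) H.psi j`,
`V = parabolicHoms O (GammaH θ) O`.  Input: a ring homomorphism `tw : A →+* End_O V` (`A` any
commutative ring: `heckeAlgebra N'' 2 S` for `TwInst.exists_tw_primeData` /
`TwUInst.exists_twU_primeData`) and a set `G` of ring generators of `A` such that every `g ∈ G` acts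
as a DIAMOND TIMES A SYMBOL: `tw g v = diaH d (actH u v)` (`hgen`; `T_ℓ ↦ ⟨ℓ⟩^{-1/2} T_ℓ`,
`U_q ↦ ⟨d_q⟩ U_q`).  Then, modulo the matrix lemma `Boundary.StarStar` (BND):

* `actV`, `coe_actV` : the symbols act on `V`;
* `tw_eq_of_gen`, `tw_actV_comm`, `tw_diaV_comm` : `tw t` commutes with symbols and diamonds on `V`;
* `surjective_locSubAct` : `Base.locSub` of a finite ambient module is `𝔪`-primary;
* **`exists_twLoc`** : for ANY `θ`, `twP : A →+* End_O (Base.locSub (actH Sy O θ) 𝔪)` (hypotheses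
  (BND) and primary-ness of `locSub`), commuting with symbols and all restricted diamonds;
* **`exists_twP`** : `twP : A →+* End_O (bigLevel j).M` with `ι (twP t m) = tw t ⟨ι m, _⟩`, commuting
  with ALL diamonds `B.D i` and all symbols `B.act u` — the input of `TQCompat.exists_fields_big`;
* **`locHyp_twP`** : `LocHyp O θA twP` when moreover `θA g = ev u` on the generators
  (`ev : Sy.𝕋 O →ₐ[O] κ` vanishing on `𝔪`) — `LocGen.locHyp_of_nilAt`: the diamonds have `p`-power
  order, the symbols are scalar + nilpotent on the `𝔪`-primary `κ ⊗ P_Q`.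
-/
import Mathlib
import Fermat.Agent.GB.B4.Twist.TwFinal
import Fermat.Agent.GB.B3.Boundary.PlugPar
import Fermat.Agent.GB.B3.PlugPrimary
import Fermat.Agent.GB.B4.Datum.LocGen
import Fermat.Agent.GB.B4.Datum.TQCompat
import Fermat.Agent.GB.B4.Datum.TwRestrict

set_option autoImplicit false
set_option linter.unusedSectionVars false
set_option linter.style.haveILetI false

noncomputable section

open scoped MatrixGroups
open CongruenceSubgroup ModularCurve.Period

namespace Fermat.Agent.GB.B4.Datum.TwRestrictPlug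

open Fermat.Agent.GM.B Fermat.Agent.GB.B3 Fermat.Agent.GB.B3.EisGamma0
  Fermat.Agent.GB.B3.CycInst Fermat.Agent.GB.B3.HeckeAct Fermat.Agent.GB.B3.HeckeActH
  Fermat.Agent.GB.B3.StepInst
  Fermat.Agent.GB.B3.RealLevel Fermat.Agent.GB.B3.Tower Fermat.Agent.GB.B3.TWChars
  Fermat.Agent.GB.B3.FinalTW Fermat.Agent.GB.B3.Plug Fermat.Agent.GB.B3.TWLevel
  Fermat.Agent.GB.B3.GamH Fermat.Agent.GB.B3.Boundary Fermat.Agent.GB.B3.PlugPrimary
  Fermat.Agent.GB.B4.Twist.TwFinal Fermat.Agent.GB.B4.Datum.TwRestrict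
  Fermat.Agent.GB.B4.Datum.LocGen Fermat.Agent.GB.B4.Datum.ImageRing

/-! ### the symbols on the parabolic classes -/

section ActV

variable {N : ℕ} (Sy : Symbols N) {Δ : Type} [CommGroup Δ] (θ : (ZMod N)ˣ →* Δ)
  (O : Type) [CommRing O]

/-- the generators `T_ℓ`, `U_r` on the parabolic classes -/
def fV : Sy.ι₁ ⊕ Sy.ι₂ → Module.End O ↥(parabolicHoms O (GammaH θ) O)
  | Sum.inl i => haveI := Sy.factℓ i; THV θ O (Sy.hℓN i)
  | Sum.inr j => haveI := Sy.neZeroR j; UHV θ O (Sy.hrN j)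

theorem coe_fV (x : Sy.ι₁ ⊕ Sy.ι₂) (v : ↥(parabolicHoms O (GammaH θ) O)) :
    ((fV Sy θ O x v : ↥(parabolicHoms O (GammaH θ) O)) : Additive (GammaH θ) →+ O)
      = opLin O (sysH Sy θ x) (v : Additive (GammaH θ) →+ O) := by
  rcases x with i | j
  · rfl
  · rfl

theorem fV_comm (x y : Sy.ι₁ ⊕ Sy.ι₂) : fV Sy θ O x * fV Sy θ O y = fV Sy θ O y * fV Sy θ O x := by
  refine LinearMap.ext fun v => Subtype.ext ?_
  rw [Module.End.mul_apply, Module.End.mul_apply, coe_fV, coe_fV, coe_fV, coe_fV]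
  exact opsCommute_sysH Sy O θ x y _

/-- **the action of the symbols on the parabolic classes** -/
def actV : Sy.𝕋 O →ₐ[O] Module.End O ↥(parabolicHoms O (GammaH θ) O) :=
  polyAct (fV Sy θ O) (fV_comm Sy θ O)

theorem actH_eq_polyAct :
    actH Sy O θ = polyAct (fun i => opLin O (sysH Sy θ i))
      (opLin_comm (opsCommute_sysH Sy O θ)) := rfl

theorem coe_actV (s : Sy.𝕋 O) (v : ↥(parabolicHoms O (GammaH θ) O)) :
    ((actV Sy θ O s v : ↥(parabolicHoms O (GammaH θ) O)) : Additive (GammaH θ) →+ O)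
      = actH Sy O θ s (v : Additive (GammaH θ) →+ O) := by
  rw [actH_eq_polyAct]
  exact polyAct_intertwine (fV Sy θ O) (fV_comm Sy θ O) (fun i => opLin O (sysH Sy θ i))
    (opLin_comm (opsCommute_sysH Sy O θ)) (parabolicHoms O (GammaH θ) O).subtype
    (fun i v => coe_fV Sy θ O i v) s v

theorem diaV_fV (d : Gamma0 N) (x : Sy.ι₁ ⊕ Sy.ι₂) :
    diaV θ O d * fV Sy θ O x = fV Sy θ O x * diaV θ O d := by
  refine LinearMap.ext fun v => Subtype.ext ?_
  rcases x with i | j
  · haveI := Sy.factℓ i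
    exact diaH_TH θ (Sy.hℓN i) d _
  · haveI := Sy.neZeroR j
    exact diaH_UH θ (Sy.hrN j) d _

theorem diaV_actV (d : Gamma0 N) (s : Sy.𝕋 O) :
    diaV θ O d * actV Sy θ O s = actV Sy θ O s * diaV θ O d :=
  polyAct_commute_of (fV Sy θ O) (fV_comm Sy θ O) (diaV θ O d) (diaV_fV Sy θ O d) s

theorem diaV_comm (d d' : Gamma0 N) : diaV θ O d * diaV θ O d' = diaV θ O d' * diaV θ O d := by
  refine LinearMap.ext fun v => Subtype.ext ?_
  exact diaH_comm θ d d' _

variable {O}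
variable {A : Type} [CommRing A] (tw : A →+* Module.End O ↥(parabolicHoms O (GammaH θ) O))
  (G : Set A) (hG : Subring.closure G = ⊤)
  (hgen : ∀ g ∈ G, ∃ (d : Gamma0 N) (u : Sy.𝕋 O), ∀ v : ↥(parabolicHoms O (GammaH θ) O),
    ((tw g v : ↥(parabolicHoms O (GammaH θ) O)) : Additive (GammaH θ) →+ O)
      = diaH θ O d (actH Sy O θ u (v : Additive (GammaH θ) →+ O)))

theorem tw_eq_of_gen {g : A} {d : Gamma0 N} {u : Sy.𝕋 O}
    (h : ∀ v : ↥(parabolicHoms O (GammaH θ) O),
      ((tw g v : ↥(parabolicHoms O (GammaH θ) O)) : Additive (GammaH θ) →+ O)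
        = diaH θ O d (actH Sy O θ u (v : Additive (GammaH θ) →+ O))) :
    tw g = diaV θ O d * actV Sy θ O u := by
  refine LinearMap.ext fun v => Subtype.ext ?_
  rw [h, Module.End.mul_apply, coe_diaV, coe_actV]

include hG hgen in
/-- `tw t` commutes with the symbols on `V` -/
theorem tw_actV_comm (t : A) (s : Sy.𝕋 O) : tw t * actV Sy θ O s = actV Sy θ O s * tw t := by
  refine commute_of_gens (E := Module.End O ↥(parabolicHoms O (GammaH θ) O)) tw G hG _
    (fun g hg => ?_) t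
  obtain ⟨d, u, h⟩ := hgen g hg
  rw [tw_eq_of_gen Sy θ tw h, mul_assoc, ← map_mul, mul_comm u s, map_mul, ← mul_assoc,
    diaV_actV, mul_assoc]

include hG hgen in
/-- `tw t` commutes with the diamonds on `V` -/
theorem tw_diaV_comm (t : A) (d' : Gamma0 N) : tw t * diaV θ O d' = diaV θ O d' * tw t := by
  refine commute_of_gens (E := Module.End O ↥(parabolicHoms O (GammaH θ) O)) tw G hG _
    (fun g hg => ?_) t
  obtain ⟨d, u, h⟩ := hgen g hg
  rw [tw_eq_of_gen Sy θ tw h, mul_assoc, ← diaV_actV, ← mul_assoc, diaV_comm, mul_assoc]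

end ActV

/-! ### primary-ness of `Base.locSub` -/

section PrimLocSub

open Fermat.Agent.GB.B3.Loc Fermat.Agent.GB.B3.LocBridge

variable {O : Type} [CommRing O] [IsLocalRing O] [IsNoetherianRing O]
  [IsAdicComplete (IsLocalRing.maximalIdeal O) O]
variable {A : Type} [CommRing A] [Algebra O A] {𝔪 : Ideal A} [𝔪.IsMaximal]
variable {L : Type} [AddCommGroup L] [Module O L] [Module.Finite O L]

/-- every `s ∉ 𝔪` acts surjectively on the `𝔪`-primary part of a finite ambient module -/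
theorem surjective_locSubAct (actL : A →ₐ[O] Module.End O L) (s : A) (hs : s ∉ 𝔪) :
    Function.Surjective (Base.locSubAct actL 𝔪 s) := by
  intro x
  letI : Module A L := moduleOfAct actL
  haveI : IsScalarTower O A L := isScalarTower_moduleOfAct actL
  have hx : (x : L) ∈ locPart 𝔪 L :=
    (isLoc_iff_mem_locPart actL (fun _ _ => rfl) 𝔪 _).1 x.2
  obtain ⟨y, hy⟩ := (bijective_smul_locPart O (L := L) 𝔪 hs).2 ⟨x, hx⟩
  have hy' : s • (y : L) = x := congrArg Subtype.val hy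
  exact ⟨⟨y, (isLoc_iff_mem_locPart actL (fun _ _ => rfl) 𝔪 _).2 y.2⟩, Subtype.ext hy'⟩

end PrimLocSub

/-! ### the generic level: `Base.locSub (actH Sy O θ) 𝔪` -/

section GenericLoc

variable {N : ℕ} (Sy : Symbols N) {Δ : Type} [CommGroup Δ] (θ : (ZMod N)ˣ →* Δ)
  {O : Type} [CommRing O] (𝔪 : Ideal (Sy.𝕋 O))
  (hBND : ∀ x, IsLoc (actH Sy O θ) 𝔪 x → x ∈ parabolicHoms O (GammaH θ) O)
  (hprim : ∀ s, s ∉ 𝔪 → Function.Surjective (Base.locSubAct (actH Sy O θ) 𝔪 s))
  {A : Type} [CommRing A] (tw : A →+* Module.End O ↥(parabolicHoms O (GammaH θ) O))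
  (G : Set A) (hG : Subring.closure G = ⊤)
  (hgen : ∀ g ∈ G, ∃ (d : Gamma0 N) (u : Sy.𝕋 O), ∀ v : ↥(parabolicHoms O (GammaH θ) O),
    ((tw g v : ↥(parabolicHoms O (GammaH θ) O)) : Additive (GammaH θ) →+ O)
      = diaH θ O d (actH Sy O θ u (v : Additive (GammaH θ) →+ O)))

theorem diaLin_actH (d : Gamma0 N) (s : Sy.𝕋 O) :
    diaLin O θ d * actH Sy O θ s = actH Sy O θ s * diaLin O θ d := by
  refine LinearMap.ext fun ψ => ?_
  rw [Module.End.mul_apply, Module.End.mul_apply, diaLin_apply, diaLin_apply]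
  exact diaH_act Sy O θ d s ψ

include hBND hprim hG hgen in
/-- **the twist action on the `𝔪`-primary part of `Hom(Γ_H(θ), O)`, any `θ`** (helper49's shape):
`twP t x = tw t ⟨x, _⟩`, commuting with the symbols and with every restricted diamond -/
theorem exists_twLoc :
    ∃ twP : A →+* Module.End O (Base.locSub (actH Sy O θ) 𝔪),
      (∀ (t : A) (x : Base.locSub (actH Sy O θ) 𝔪),
        ((twP t x : Base.locSub (actH Sy O θ) 𝔪) : Additive (GammaH θ) →+ O) =
          ((tw t ⟨x, hBND x x.2⟩ : ↥(parabolicHoms O (GammaH θ) O)) :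
            Additive (GammaH θ) →+ O)) ∧
      (∀ t s, twP t * Base.locSubAct (actH Sy O θ) 𝔪 s =
        Base.locSubAct (actH Sy O θ) 𝔪 s * twP t) ∧
      (∀ t (d : Gamma0 N),
        twP t * locRestrict (actH Sy O θ) 𝔪 (diaLin O θ d) (diaLin_actH Sy θ d) =
          locRestrict (actH Sy O θ) 𝔪 (diaLin O θ d) (diaLin_actH Sy θ d) * twP t) := by
  have hactV : ∀ (s : Sy.𝕋 O) (v : ↥(parabolicHoms O (GammaH θ) O)),
      ((actV Sy θ O s v : ↥(parabolicHoms O (GammaH θ) O)) : Additive (GammaH θ) →+ O)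
        = actH Sy O θ s v := fun s v => coe_actV Sy θ O s v
  have hcomm := tw_actV_comm Sy θ tw G hG hgen
  refine ⟨twLoc (actH Sy O θ) 𝔪 (parabolicHoms O (GammaH θ) O) hBND tw
    (fun s => actV Sy θ O s) hactV hcomm hprim, ?_, ?_, ?_⟩
  · intro t x
    exact coe_twLoc (actH Sy O θ) 𝔪 _ hBND tw _ hactV hcomm hprim t x
  · intro t s
    exact twLoc_act (actH Sy O θ) 𝔪 _ hBND tw _ hactV hcomm hprim t s
  · intro t d
    exact twLoc_locRestrict (actH Sy O θ) 𝔪 _ hBND tw _ hactV hcomm hprim (diaLin O θ d)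
      (diaLin_actH Sy θ d) (diaV θ O d) (fun v => rfl)
      (fun t => tw_diaV_comm Sy θ tw G hG hgen t d) t

end GenericLoc

/-! ### "diamond of `p`-power order times symbol" is scalar + nilpotent -/

section AbstractNil

variable {O : Type} [CommRing O] [IsLocalRing O] {𝕋 : Type} [CommRing 𝕋] [Algebra O 𝕋]
  {M0 : Type} [AddCommGroup M0] [Module O M0] {act0 : 𝕋 →ₐ[O] Module.End O M0}
  {k : ℕ} {Nk : Fin k → ℕ} {F : FreeLevel O 𝕋 M0 act0 k Nk}
  {L : Type} [AddCommGroup L] [Module O L] {actL : 𝕋 →ₐ[O] Module.End O L} {𝔪 : Ideal 𝕋}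
  {E : Fin k → Module.End O L} (R : Realizes F actL 𝔪 E)

theorem nilAt_of_dia_mul_act [Module.Finite O F.M] {p a : ℕ} [Fact p.Prime]
    (hp : (p : IsLocalRing.ResidueField O) = 0)
    (ev : 𝕋 →ₐ[O] IsLocalRing.ResidueField O) (hev : ∀ s ∈ 𝔪, ev s = 0)
    (hprim : ∀ s, s ∉ 𝔪 → Function.Surjective (F.act s))
    (X : Module.End O L) (hX : ∀ s, X * actL s = actL s * X) (hXpow : X ^ p ^ a = 1)
    (g : Module.End O F.M) (u : 𝕋) (hg : ∀ m, R.ι (g m) = X (actL u (R.ι m))) :
    NilAt g (ev u) := by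
  obtain ⟨DP, hDP⟩ := exists_restrict R X hX
  have e1 : g = DP * F.act u := by
    refine LinearMap.ext fun m => R.inj ?_
    rw [hg, Module.End.mul_apply, hDP, R.ι_act]
  have hpow : DP ^ p ^ a = 1 := by
    have hn : ∀ (n : ℕ) (m : F.M), R.ι ((DP ^ n) m) = (X ^ n) (R.ι m) := by
      intro n
      induction n with
      | zero => intro m; rfl
      | succ n ih =>
        intro m
        rw [pow_succ, pow_succ, Module.End.mul_apply, Module.End.mul_apply, ih, hDP]
    refine LinearMap.ext fun m => R.inj ?_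
    rw [hn, hXpow]
    rfl
  have hcomm : Commute DP (F.act u) := by
    refine LinearMap.ext fun m => R.inj ?_
    rw [Module.End.mul_apply, Module.End.mul_apply, hDP, R.ι_act, R.ι_act, hDP]
    have h := LinearMap.congr_fun (hX u) (R.ι m)
    rw [Module.End.mul_apply, Module.End.mul_apply] at h
    exact h
  have n1 : NilAt DP 1 := nilAt_of_pow_eq_one hp hpow
  have n2 : NilAt (F.act u) (ev u) :=
    nilAt_of_isPrimary _ ev (fun s hs => hprim s (fun hmem => hs (hev s hmem))) u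
  have n3 := NilAt.mul hcomm n1 n2
  rwa [one_mul, ← e1] at n3

end AbstractNil

/-! ### the big level -/

section Big

variable {N p : ℕ} [NeZero N] [hpF : Fact p.Prime] {K : ℕ} {r e N' : ℕ → ℕ}
variable (Sy : Symbols N)
variable {O : Type} [CommRing O] [IsDomain O] [IsPrincipalIdealRing O] [IsLocalRing O]
  [IsAdicComplete (IsLocalRing.maximalIdeal O) O] [Module.IsTorsionFree ℤ O]
variable (𝔪 : Ideal (Sy.𝕋 O)) [𝔪.IsMaximal]
variable (H : PrimeData N p K r e N') {ϖ : O} {s0 : Sy.ι₁} (h : Plug.Hyp Sy 𝔪 p ϖ s0)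
variable (j : ℕ)
  (hSS : haveI := Sy.factℓ s0; StarStar (Theta (Δs p e) H.psi j) (Sy.hℓN s0))
variable {A : Type} [CommRing A]
  (tw : A →+* Module.End O ↥(parabolicHoms O (GammaH (Theta (Δs p e) H.psi j)) O))
  (G : Set A) (hG : Subring.closure G = ⊤)

/-- the big level is a finite `O`-module -/
theorem finite_bigLevel : Module.Finite O (bigLevel Sy 𝔪 H h j).M :=
  Module.Finite.of_basis (bigLevel Sy 𝔪 H h j).basis

section Exists

variable (hgen : ∀ g ∈ G, ∃ (d : Gamma0 N) (u : Sy.𝕋 O),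
    ∀ v : ↥(parabolicHoms O (GammaH (Theta (Δs p e) H.psi j)) O),
      ((tw g v : ↥(parabolicHoms O (GammaH (Theta (Δs p e) H.psi j)) O)) :
          Additive (GammaH (Theta (Δs p e) H.psi j)) →+ O)
        = diaH (Theta (Δs p e) H.psi j) O d (actH Sy O (Theta (Δs p e) H.psi j) u
            (v : Additive (GammaH (Theta (Δs p e) H.psi j)) →+ O)))

include hSS hG hgen in
/-- **the twist action on the big level** `P_Q` -/
theorem exists_twP :
    ∃ twP : A →+* Module.End O (bigLevel Sy 𝔪 H h j).M,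
      (∀ (t : A) (m : (bigLevel Sy 𝔪 H h j).M),
        (bigReal Sy 𝔪 H h j).ι (twP t m) =
          ((tw t ⟨(bigReal Sy 𝔪 H h j).ι m, bigReal_mem_parabolicHoms Sy 𝔪 H h j hSS m⟩ :
            ↥(parabolicHoms O (GammaH (Theta (Δs p e) H.psi j)) O)) :
            Additive (GammaH (Theta (Δs p e) H.psi j)) →+ O)) ∧
      (∀ t i, twP t * (bigLevel Sy 𝔪 H h j).D i = (bigLevel Sy 𝔪 H h j).D i * twP t) ∧
      (∀ t u, twP t * (bigLevel Sy 𝔪 H h j).act u = (bigLevel Sy 𝔪 H h j).act u * twP t) := by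
  have hactV : ∀ (s : Sy.𝕋 O)
      (v : ↥(parabolicHoms O (GammaH (Theta (Δs p e) H.psi j)) O)),
      ((actV Sy (Theta (Δs p e) H.psi j) O s v :
          ↥(parabolicHoms O (GammaH (Theta (Δs p e) H.psi j)) O)) :
          Additive (GammaH (Theta (Δs p e) H.psi j)) →+ O)
        = actH Sy O (Theta (Δs p e) H.psi j) s v :=
    fun s v => coe_actV Sy (Theta (Δs p e) H.psi j) O s v
  have hcomm := tw_actV_comm Sy (Theta (Δs p e) H.psi j) tw G hG hgen
  have hprim := isPrimary_bigLevel Sy 𝔪 H h j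
  set R := bigReal Sy 𝔪 H h j with hR
  refine ⟨twP R.ι R.inj R.range (fun s => (bigLevel Sy 𝔪 H h j).act s) R.ι_act
    (parabolicHoms O (GammaH (Theta (Δs p e) H.psi j)) O)
    (bigReal_mem_parabolicHoms Sy 𝔪 H h j hSS) tw
    (fun s => actV Sy (Theta (Δs p e) H.psi j) O s) hactV hcomm hprim, ?_, ?_, ?_⟩
  · intro t m
    exact ι_twP R.ι R.inj R.range _ R.ι_act _ _ tw _ hactV hcomm hprim t m
  · intro t i
    exact twP_D R.ι R.inj R.range _ R.ι_act _ _ tw _ hactV hcomm hprim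
      (bigLevel Sy 𝔪 H h j).D
      (fun i => diaLin O (Theta (Δs p e) H.psi j) (dfun (H.dd hpF.out) j i)) R.ι_D
      (fun i => diaV (Theta (Δs p e) H.psi j) O (dfun (H.dd hpF.out) j i))
      (fun i v => rfl)
      (fun t i => tw_diaV_comm Sy (Theta (Δs p e) H.psi j) tw G hG hgen t _) t i
  · intro t u
    exact twP_act R.ι R.inj R.range _ R.ι_act _ _ tw _ hactV hcomm hprim t u

end Exists

/-! ### (LOC) -/

section Loc

variable (ev : Sy.𝕋 O →ₐ[O] IsLocalRing.ResidueField O) (hev : ∀ s ∈ 𝔪, ev s = 0)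
  (θA : A →+* IsLocalRing.ResidueField O)
  (hgen : ∀ g ∈ G, ∃ (d : Gamma0 N) (u : Sy.𝕋 O), θA g = ev u ∧
    ∀ v : ↥(parabolicHoms O (GammaH (Theta (Δs p e) H.psi j)) O),
      ((tw g v : ↥(parabolicHoms O (GammaH (Theta (Δs p e) H.psi j)) O)) :
          Additive (GammaH (Theta (Δs p e) H.psi j)) →+ O)
        = diaH (Theta (Δs p e) H.psi j) O d (actH Sy O (Theta (Δs p e) H.psi j) u
            (v : Additive (GammaH (Theta (Δs p e) H.psi j)) →+ O)))
  (twP : A →+* Module.End O (bigLevel Sy 𝔪 H h j).M)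
  (htwP : ∀ (t : A) (m : (bigLevel Sy 𝔪 H h j).M),
    (bigReal Sy 𝔪 H h j).ι (twP t m) =
      ((tw t ⟨(bigReal Sy 𝔪 H h j).ι m, bigReal_mem_parabolicHoms Sy 𝔪 H h j hSS m⟩ :
        ↥(parabolicHoms O (GammaH (Theta (Δs p e) H.psi j)) O)) :
        Additive (GammaH (Theta (Δs p e) H.psi j)) →+ O))

include h in
theorem natCast_residue_eq_zero : (p : IsLocalRing.ResidueField O) = 0 := by
  have h1 : (p : O) ∈ IsLocalRing.maximalIdeal O := by
    rw [h.hmax]
    exact h.hpϖ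
  have h2 := (IsLocalRing.residue_eq_zero_iff (p : O)).mpr h1
  rwa [map_natCast] at h2

include hev hgen htwP hG in
/-- **(LOC) for the twist action on the big level** -/
theorem locHyp_twP : LocHyp O θA twP := by
  haveI := finite_bigLevel Sy 𝔪 H h j
  refine locHyp_of_nilAt θA twP G hG fun g hg => ?_
  obtain ⟨d, u, hθ, hv⟩ := hgen g hg
  rw [hθ]
  have hd : chi (Theta (Δs p e) H.psi j) (d ^ p ^ (∑ i : Fin j, e i)) = 1 := by
    rw [map_pow]
    exact pow_eq_one_Δs p e j _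
  exact nilAt_of_dia_mul_act (bigReal Sy 𝔪 H h j) (natCast_residue_eq_zero Sy 𝔪 h) ev hev
    (isPrimary_bigLevel Sy 𝔪 H h j) (diaLin O (Theta (Δs p e) H.psi j) d)
    (fun s => by
      refine LinearMap.ext fun ψ => ?_
      rw [Module.End.mul_apply, Module.End.mul_apply, diaLin_apply, diaLin_apply]
      exact diaH_act Sy O (Theta (Δs p e) H.psi j) d s ψ)
    (diaLin_pow O (Theta (Δs p e) H.psi j) d _ hd) (twP g) u
    (fun m => by rw [htwP, hv, diaLin_apply])

end Loc

end Big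

end Fermat.Agent.GB.B4.Datum.TwRestrictPlug
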