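/-
GATE-B / S43, node GB-B4-DATUM, part D2 (helper32): **push-forward of a Hecke–Galois datum along a
quotient of its coefficient ring.**

`H : HeckeGaloisRepDatum N S 𝒪 θ T` is ANY datum (frozen `exists_point` forces `T` to be the FULL
`θ`-localisation of the Hecke algebra of `Γ₀(N)`), `φ : T →+* T_Q` ANY local ring homomorphism to a
local ring (in the application: `T ↠ T_Q`, the `𝒪`-algebra generated by the twisted Hecke operators
on the Taylor–Wiles module `M_Q`, via the twist homomorphism of B4-TWIST).  Then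
`ρ_Q := H.ρ.baseChangeAlong φ` satisfies

* `charpoly_frob_push`        : `charpoly ρ_Q(Frob_ℓ) = X² − φ(π T_ℓ) X + ℓ`, `ℓ ∉ S`, `ℓ ∤ N`;
* `trace_frob_push`, `det_frob_push` : the two coefficients separately;
* `detIsCyclotomic_push`      : frozen `DetIsCyclotomic p` (GS/DetCyc);
* `isUnramifiedAt_push`       : unramified outside `S` (S31);
* `isUnipotentOnInertiaAt_push` : unipotent inertia at `q ∥ N`, `q ≠ p` (S34);
* `isFlatAt_push`             : flat at `p ∤ N`, `p` odd, `φ` SURJECTIVE (S32);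
* `isOrdinaryAt_push`, `isStrictOrdinaryAt_push` : (strict) ordinarity of `H.ρ` (binder: S33 / the
  strict refinement) passes to `ρ_Q`;
* `flatCond_push`, `strictCond_push` : the two S56-SHAPED deformation conditions
  `flatCondition 𝒪 p Tram ρ ∧ ∀ q ∈ Smin, …` / `strictOrdinaryCondition …` for `ρ_Q`
  (`S ⊆ Tram`, every prime of `Smin` exactly divides `N`), i.e. `𝒟 ρ_Q` for B2-COND / S54.

No new mathematics: S31, S32, S34, GS/DetCyc applied to `H` VERBATIM, then the base-change lemmas of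
`GP/Tan/BaseChangeCond` (helper64).  New here: `isOrdinaryAt_baseChangeAlong` (non-strict form).
-/
import Fermat.Agent.S31
import Fermat.Agent.S32
import Fermat.Agent.S34
import Fermat.Agent.S54.Formal
import Fermat.Agent.GS.DetCyc
import Fermat.Agent.GP.Tan.BaseChangeCond

set_option autoImplicit false

open Polynomial IsLocalRing CuspForm
open scoped TensorProduct

namespace Fermat.Agent.GB.B4.Datum.Push

/-- `G_ℚ`. -/
local notation "GQ" => AlgebraicClosure ℚ ≃ₐ[ℚ] AlgebraicClosure ℚ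

/-! ### Base change of (non-strict) ordinarity -/

section Ord

variable {A : Type} [CommRing A] [IsLocalRing A] {B : Type} [CommRing B] [IsLocalRing B]

omit [IsLocalRing A] [IsLocalRing B] in
/-- Core of the ordinary base change, in explicit tensor-product form. -/
theorem ordinary_core [Algebra A B] {V : Type} [AddCommGroup V]
    [Module A V] {G : Type} (r : G → Module.End A V) (D I : Set G)
    (h : ∃ L : Submodule A V,
      (∃ b : Module.Basis (Fin 2) A V, L = Submodule.span A {b 0}) ∧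
      (∀ σ ∈ D, ∀ v ∈ L, r σ v ∈ L) ∧
      (∀ σ ∈ I, ∀ v : V, r σ v - v ∈ L)) :
    ∃ L : Submodule B (B ⊗[A] V),
      (∃ b : Module.Basis (Fin 2) B (B ⊗[A] V), L = Submodule.span B {b 0}) ∧
      (∀ σ ∈ D, ∀ v ∈ L, (r σ).baseChange B v ∈ L) ∧
      (∀ σ ∈ I, ∀ v : B ⊗[A] V, (r σ).baseChange B v - v ∈ L) := by
  obtain ⟨L, ⟨b, hb⟩, hD, hI⟩ := h
  have hb0 : b 0 ∈ L := hb ▸ Submodule.mem_span_singleton_self (b 0)
  refine ⟨Submodule.span B {(1 : B) ⊗ₜ[A] b 0}, ⟨b.baseChange B, ?_⟩, ?_, ?_⟩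
  · rw [Module.Basis.baseChange_apply]
  · intro σ hσ w hw
    obtain ⟨c, rfl⟩ := Submodule.mem_span_singleton.1 hw
    rw [map_smul, LinearMap.baseChange_tmul]
    exact Submodule.smul_mem _ _
      (GP.Tan.baseChangeAlong_tmul_mem_span (b 0) (hb ▸ hD σ hσ (b 0) hb0) 1)
  · intro σ hσ w
    have h1 := GP.Tan.baseChangeAlong_baseChange_sub_smul_mem_span (B := B) (b 0) (r σ) 1
      (fun v => by rw [one_smul]; exact hb ▸ hI σ hσ v) w
    rwa [map_one, one_smul] at h1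

/-- Frozen `IsOrdinaryAt` is stable under base change along any local homomorphism. -/
theorem isOrdinaryAt_baseChangeAlong (φ : A →+* B) (hφ : IsLocalHom φ) {ρ : GaloisRepAdic A}
    {p : ℕ} (h : ρ.IsOrdinaryAt p) : (ρ.baseChangeAlong φ hφ).IsOrdinaryAt p := by
  let _ : Algebra A B := φ.toAlgebra
  intro P hP
  exact ordinary_core (B := B) (fun σ => ρ.ρ σ)
    (P.decompositionSubgroup ℚ : Set (AlgebraicClosure ℚ ≃ₐ[ℚ] AlgebraicClosure ℚ))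
    (P.inertiaSubgroupIn ℚ : Set (AlgebraicClosure ℚ ≃ₐ[ℚ] AlgebraicClosure ℚ)) (h P hP)

end Ord

/-! ### The push-forward -/

section Push

variable {p : ℕ} {N : ℕ} [NeZero N] {S : Finset ℕ}
  {𝒪 : Type} [CommRing 𝒪] [IsDomain 𝒪] [IsDiscreteValuationRing 𝒪]
  [IsAdicComplete (IsLocalRing.maximalIdeal 𝒪) 𝒪]
  {θ : CuspForm.heckeAlgebra N 2 (↑S : Set ℕ) →+* IsLocalRing.ResidueField 𝒪}
  {T : Type} [CommRing T] [IsLocalRing T] [IsNoetherianRing T]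
  [IsAdicComplete (IsLocalRing.maximalIdeal T) T] [Algebra 𝒪 T] [IsLocalHom (algebraMap 𝒪 T)]
  [Module.Finite 𝒪 T] [Module.Free 𝒪 T]
  {TQ : Type} [CommRing TQ] [IsLocalRing TQ]

/-- The pushed representation `ρ_Q = H.ρ ⊗_{T,φ} T_Q`. -/
noncomputable def pushRep (H : HeckeGaloisRepDatum N (↑S : Set ℕ) 𝒪 θ T) (φ : T →+* TQ)
    (hφ : IsLocalHom φ) : GaloisRepAdic TQ :=
  H.ρ.baseChangeAlong φ hφ

theorem pushRep_def (H : HeckeGaloisRepDatum N (↑S : Set ℕ) 𝒪 θ T) (φ : T →+* TQ)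
    (hφ : IsLocalHom φ) : pushRep H φ hφ = H.ρ.baseChangeAlong φ hφ := rfl

/-- **Frobenius characteristic polynomials** of the pushed representation. -/
theorem charpoly_frob_push (H : HeckeGaloisRepDatum N (↑S : Set ℕ) 𝒪 θ T) (φ : T →+* TQ)
    (hφ : IsLocalHom φ) (ℓ : ℕ) (hℓ : ℓ.Prime) (hℓN : ¬ ℓ ∣ N) (hℓS : ℓ ∉ (↑S : Set ℕ))
    (A : ValuationSubring (AlgebraicClosure ℚ)) (hA : A.LiesOverPrime ℓ) (σ : GQ)
    (hσ : A.IsFrobeniusAt σ ℓ) :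
    LinearMap.charpoly ((pushRep H φ hφ).ρ σ) =
      X ^ 2 - C (φ (H.π (heckeAlgebra.T hℓ hℓN hℓS))) * X + C ((ℓ : TQ)) := by
  rw [pushRep_def, S54.charpoly_baseChangeAlong, H.charpoly_frob ℓ hℓ hℓN hℓS A hA σ hσ]
  rw [Polynomial.map_add, Polynomial.map_sub, Polynomial.map_mul, Polynomial.map_pow,
    Polynomial.map_X, Polynomial.map_C, Polynomial.map_C, map_natCast]

/-- trace at Frobenius -/
theorem trace_frob_push (H : HeckeGaloisRepDatum N (↑S : Set ℕ) 𝒪 θ T) (φ : T →+* TQ)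
    (hφ : IsLocalHom φ) (ℓ : ℕ) (hℓ : ℓ.Prime) (hℓN : ¬ ℓ ∣ N) (hℓS : ℓ ∉ (↑S : Set ℕ))
    (A : ValuationSubring (AlgebraicClosure ℚ)) (hA : A.LiesOverPrime ℓ) (σ : GQ)
    (hσ : A.IsFrobeniusAt σ ℓ) :
    (pushRep H φ hφ).trace σ = φ (H.π (heckeAlgebra.T hℓ hℓN hℓS)) := by
  have h := charpoly_frob_push H φ hφ ℓ hℓ hℓN hℓS A hA σ hσ
  have h1 := congrArg (fun P : TQ[X] => P.coeff 1)
    (GK.Tate.charpoly_eq_of_finrank_two (pushRep H φ hφ).finrank_eq ((pushRep H φ hφ).ρ σ))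
  rw [h] at h1
  simp only [coeff_add, coeff_sub, coeff_X_pow, coeff_C_mul, coeff_X_one, mul_one, coeff_C] at h1
  have h12 : ¬ ((1 : ℕ) = 2) := by decide
  simp only [h12, one_ne_zero, if_false, zero_sub, add_zero, neg_inj] at h1
  exact h1.symm

/-- determinant at Frobenius -/
theorem det_frob_push (H : HeckeGaloisRepDatum N (↑S : Set ℕ) 𝒪 θ T) (φ : T →+* TQ)
    (hφ : IsLocalHom φ) (ℓ : ℕ) (hℓ : ℓ.Prime) (hℓN : ¬ ℓ ∣ N) (hℓS : ℓ ∉ (↑S : Set ℕ))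
    (A : ValuationSubring (AlgebraicClosure ℚ)) (hA : A.LiesOverPrime ℓ) (σ : GQ)
    (hσ : A.IsFrobeniusAt σ ℓ) :
    LinearMap.det ((pushRep H φ hφ).ρ σ) = (ℓ : TQ) := by
  exact GK.Tate.det_eq_of_charpoly_eq (pushRep H φ hφ).finrank_eq ((pushRep H φ hφ).ρ σ) _ _
    (charpoly_frob_push H φ hφ ℓ hℓ hℓN hℓS A hA σ hσ)

/-- **det = cyclotomic** for the pushed representation. -/
theorem detIsCyclotomic_push (hp : p.Prime) (hp𝒪 : (p : 𝒪) ∈ IsLocalRing.maximalIdeal 𝒪)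
    (hpS : p ∈ S) (H : HeckeGaloisRepDatum N (↑S : Set ℕ) 𝒪 θ T) (φ : T →+* TQ)
    (hφ : IsLocalHom φ) : (pushRep H φ hφ).DetIsCyclotomic p :=
  GP.Tan.detIsCyclotomic_baseChangeAlong φ hφ (GS.DetCyc.detIsCyclotomic hp hp𝒪 hpS H)

/-- **unramified outside `S`** (S31). -/
theorem isUnramifiedAt_push (hp : p.Prime) (hp𝒪 : (p : 𝒪) ∈ IsLocalRing.maximalIdeal 𝒪)
    (hpS : p ∈ S) (hNS : ∀ q : ℕ, q.Prime → q ∣ N → q ∈ S)
    (H : HeckeGaloisRepDatum N (↑S : Set ℕ) 𝒪 θ T) (φ : T →+* TQ) (hφ : IsLocalHom φ)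
    (q : ℕ) (hq : q.Prime) (hqS : q ∉ S) : (pushRep H φ hφ).IsUnramifiedAt q :=
  GP.Tan.isUnramifiedAt_baseChangeAlong φ hφ (S31.result hp hp𝒪 hpS hNS H q hq hqS)

/-- **unipotent inertia at `q ∥ N`, `q ≠ p`** (S34). -/
theorem isUnipotentOnInertiaAt_push [Finite (ResidueField 𝒪)] [CharZero 𝒪] (hp : p.Prime)
    (hp𝒪 : (p : 𝒪) ∈ IsLocalRing.maximalIdeal 𝒪) (hpS : p ∈ S)
    (hNS : ∀ q : ℕ, q.Prime → q ∣ N → q ∈ S)
    (H : HeckeGaloisRepDatum N (↑S : Set ℕ) 𝒪 θ T) (φ : T →+* TQ) (hφ : IsLocalHom φ)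
    (q : ℕ) (hq : q.Prime) (hqp : q ≠ p) (hqN : q ∣ N) (hq2 : ¬ q ^ 2 ∣ N) :
    (pushRep H φ hφ).IsUnipotentOnInertiaAt q :=
  GP.Tan.isUnipotentOnInertiaAt_baseChangeAlong φ hφ
    (S34.result hp hp𝒪 hpS hNS H q hq hqp hqN hq2)

/-- **flat at `p ∤ N`** (S32), `φ` surjective. -/
theorem isFlatAt_push [Finite (ResidueField 𝒪)] [CharZero 𝒪] (hp : p.Prime) (hp2 : p ≠ 2)
    (hp𝒪 : (p : 𝒪) ∈ IsLocalRing.maximalIdeal 𝒪) (hpN : ¬ p ∣ N) (hpS : p ∈ S)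
    (hNS : ∀ q : ℕ, q.Prime → q ∣ N → q ∈ S)
    (H : HeckeGaloisRepDatum N (↑S : Set ℕ) 𝒪 θ T) (φ : T →+* TQ) (hφ : IsLocalHom φ)
    (hsurj : Function.Surjective φ) : (pushRep H φ hφ).IsFlatAt p :=
  GP.Tan.isFlatAt_baseChangeAlong_of_surjective φ hφ hsurj
    (S32.result hp hp2 hp𝒪 hpN hpS hNS H)

/-- ordinarity passes to the pushed representation (input: S33 for `H`) -/
theorem isOrdinaryAt_push (H : HeckeGaloisRepDatum N (↑S : Set ℕ) 𝒪 θ T) (φ : T →+* TQ)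
    (hφ : IsLocalHom φ) (hord : H.ρ.IsOrdinaryAt p) : (pushRep H φ hφ).IsOrdinaryAt p :=
  isOrdinaryAt_baseChangeAlong φ hφ hord

/-- strict ordinarity passes to the pushed representation -/
theorem isStrictOrdinaryAt_push (H : HeckeGaloisRepDatum N (↑S : Set ℕ) 𝒪 θ T) (φ : T →+* TQ)
    (hφ : IsLocalHom φ) (hord : H.ρ.IsStrictOrdinaryAt p) :
    (pushRep H φ hφ).IsStrictOrdinaryAt p :=
  GP.Tan.isStrictOrdinaryAt_baseChangeAlong φ hφ hord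

/-! ### The S56-shaped deformation conditions for `ρ_Q` -/

variable [Algebra 𝒪 TQ]

/-- **`𝒟FL ρ_Q`**: the flat S56-shaped condition (helper93's `𝒟FL p Tram Smin`) for the pushed
representation: `p ∤ N` odd, `S ⊆ Tram`, every prime of `Smin` (other than `p`) exactly divides
`N`, `φ` surjective. -/
theorem flatCond_push [Finite (ResidueField 𝒪)] [CharZero 𝒪] (hp : p.Prime) (hp2 : p ≠ 2)
    (hp𝒪 : (p : 𝒪) ∈ IsLocalRing.maximalIdeal 𝒪) (hpN : ¬ p ∣ N) (hpS : p ∈ S)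
    (hNS : ∀ q : ℕ, q.Prime → q ∣ N → q ∈ S)
    (H : HeckeGaloisRepDatum N (↑S : Set ℕ) 𝒪 θ T) (φ : T →+* TQ) (hφ : IsLocalHom φ)
    (hsurj : Function.Surjective φ) (Tram Smin : Finset ℕ) (hST : S ⊆ Tram)
    (hSmin : ∀ q ∈ Smin, q.Prime → q ≠ p → q ∣ N ∧ ¬ q ^ 2 ∣ N) :
    GaloisRep.flatCondition 𝒪 p Tram (pushRep H φ hφ) ∧
      ∀ q ∈ Smin, q.Prime → q ≠ p → (pushRep H φ hφ).IsUnipotentOnInertiaAt q :=
  ⟨⟨detIsCyclotomic_push hp hp𝒪 hpS H φ hφ,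
      isFlatAt_push hp hp2 hp𝒪 hpN hpS hNS H φ hφ hsurj,
      fun q hq hqT => isUnramifiedAt_push hp hp𝒪 hpS hNS H φ hφ q hq (fun h => hqT (hST h))⟩,
    fun q hqm hq hqp => isUnipotentOnInertiaAt_push hp hp𝒪 hpS hNS H φ hφ q hq hqp
      (hSmin q hqm hq hqp).1 (hSmin q hqm hq hqp).2⟩

/-- **`𝒟SO ρ_Q`**: the strict-ordinary S56-shaped condition for the pushed representation, from
strict ordinarity of `H.ρ` at `p` (binder). -/
theorem strictCond_push [Finite (ResidueField 𝒪)] [CharZero 𝒪] (hp : p.Prime)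
    (hp𝒪 : (p : 𝒪) ∈ IsLocalRing.maximalIdeal 𝒪) (hpS : p ∈ S)
    (hNS : ∀ q : ℕ, q.Prime → q ∣ N → q ∈ S)
    (H : HeckeGaloisRepDatum N (↑S : Set ℕ) 𝒪 θ T) (φ : T →+* TQ) (hφ : IsLocalHom φ)
    (hord : H.ρ.IsStrictOrdinaryAt p) (Tram Smin : Finset ℕ) (hST : S ⊆ Tram)
    (hSmin : ∀ q ∈ Smin, q.Prime → q ≠ p → q ∣ N ∧ ¬ q ^ 2 ∣ N) :
    GaloisRep.strictOrdinaryCondition 𝒪 p Tram (pushRep H φ hφ) ∧
      ∀ q ∈ Smin, q.Prime → q ≠ p → (pushRep H φ hφ).IsUnipotentOnInertiaAt q :=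
  ⟨⟨detIsCyclotomic_push hp hp𝒪 hpS H φ hφ, isStrictOrdinaryAt_push H φ hφ hord,
      fun q hq hqT => isUnramifiedAt_push hp hp𝒪 hpS hNS H φ hφ q hq (fun h => hqT (hST h))⟩,
    fun q hqm hq hqp => isUnipotentOnInertiaAt_push hp hp𝒪 hpS hNS H φ hφ q hq hqp
      (hSmin q hqm hq hqp).1 (hSmin q hqm hq hqp).2⟩

/-- the non-strict ordinary frozen condition `ordinaryCondition` for `ρ_Q`, from S33 for `H`. -/
theorem ordCond_push (hp : p.Prime)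
    (hp𝒪 : (p : 𝒪) ∈ IsLocalRing.maximalIdeal 𝒪) (hpS : p ∈ S)
    (hNS : ∀ q : ℕ, q.Prime → q ∣ N → q ∈ S)
    (H : HeckeGaloisRepDatum N (↑S : Set ℕ) 𝒪 θ T) (φ : T →+* TQ) (hφ : IsLocalHom φ)
    (hord : H.ρ.IsOrdinaryAt p) (Tram : Finset ℕ) (hST : S ⊆ Tram) :
    GaloisRep.ordinaryCondition 𝒪 p Tram (pushRep H φ hφ) :=
  ⟨detIsCyclotomic_push hp hp𝒪 hpS H φ hφ, isOrdinaryAt_push H φ hφ hord,
    fun q hq hqT => isUnramifiedAt_push hp hp𝒪 hpS hNS H φ hφ q hq (fun h => hqT (hST h))⟩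

end Push

end Fermat.Agent.GB.B4.Datum.Push
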