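/-
GATE-B / S43, node GB-B4-DATUM, part D2 (helper32), glue: **the Galois representation over a
twisted Hecke algebra `T_Q`** from a datum on helper12's carrier `Tloc 𝒪 θ` (`GB/B4/Datum/Carrier`)
and the twist homomorphism `tw : heckeAlgebra N 2 S →+* T_Q` (B4-TWIST).

* `exists_phi` : `tw` residually `θ`, `T_Q = 𝒪[range tw]` ⟹ a SURJECTIVE LOCAL `𝒪`-algebra hom
  `φ : Tloc 𝒪 θ → T_Q` with `φ ∘ piT = tw` (Carrier.exists_lift + generation);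
* `exists_galRep_flat` : the GalPkg of B9 in the flat case (`p ∤ N`): `ρ_Q : GaloisRepAdic T_Q`
  with `charpoly ρ_Q(Frob_ℓ) = X² − tw(T_ℓ) X + ℓ`, the S56-shaped flat condition `𝒟FL ρ_Q`, and
  the residual representation of `ρ_Q` = the one of the datum;
* `exists_galRep_strict` : same with `𝒟SO`, strict ordinarity of `H.ρ` at `p` as a binder.
-/
import Fermat.Agent.GB.B4.Datum.Push
import Fermat.Agent.GB.B4.Datum.HeckeCarrier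
import Fermat.Agent.GP.Tan.UnivInj

set_option autoImplicit false

open Polynomial IsLocalRing CuspForm
open Fermat.Agent.GB.B4.Datum.Carrier Fermat.Agent.GB.B4.Datum.Push

namespace Fermat.Agent.GB.B4.Datum.PushTloc

/-- `G_ℚ`. -/
local notation "GQ" => AlgebraicClosure ℚ ≃ₐ[ℚ] AlgebraicClosure ℚ

section Phi

variable (𝒪 : Type) [CommRing 𝒪] [IsLocalRing 𝒪] {A : Type} [CommRing A]
  {TQ : Type} [CommRing TQ] [IsLocalRing TQ] [Algebra 𝒪 TQ] [IsLocalHom (algebraMap 𝒪 TQ)]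

/-- the surjective local `𝒪`-algebra hom `Tloc 𝒪 θ → T_Q` attached to a twist hom. -/
theorem exists_phi (θ : A →+* ResidueField 𝒪) (tw : A →+* TQ)
    (hres : ∀ t : A, residue TQ (tw t) = ResidueField.map (algebraMap 𝒪 TQ) (θ t))
    (hgen : Algebra.adjoin 𝒪 (Set.range tw) = ⊤) :
    ∃ φ : Tloc 𝒪 θ →ₐ[𝒪] TQ, (∀ t : A, φ (piT 𝒪 θ t) = tw t) ∧ IsLocalHom φ.toRingHom ∧
      Function.Surjective φ := by
  obtain ⟨φ, hφ, hloc⟩ := exists_lift 𝒪 θ tw hres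
  refine ⟨φ, hφ, hloc, ?_⟩
  have h1 : Algebra.adjoin 𝒪 (Set.range tw) ≤ φ.range := by
    apply Algebra.adjoin_le
    rintro _ ⟨t, rfl⟩
    exact ⟨piT 𝒪 θ t, hφ t⟩
  rw [hgen] at h1
  intro y
  exact h1 Algebra.mem_top

end Phi

section Gal

variable {p : ℕ} {N : ℕ} [NeZero N] {S : Finset ℕ}
  {𝒪 : Type} [CommRing 𝒪] [IsDomain 𝒪] [IsDiscreteValuationRing 𝒪]
  [IsAdicComplete (IsLocalRing.maximalIdeal 𝒪) 𝒪]
  {θ : CuspForm.heckeAlgebra N 2 (↑S : Set ℕ) →+* IsLocalRing.ResidueField 𝒪}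
  {TQ : Type} [CommRing TQ] [IsLocalRing TQ] [Algebra 𝒪 TQ] [IsLocalHom (algebraMap 𝒪 TQ)]

/-- the residual representation of the pushed representation -/
theorem residual_push {T : Type} [CommRing T] [IsLocalRing T] (ρ : GaloisRepAdic T)
    (φ : T →+* TQ) (hφ : IsLocalHom φ) {k : Type} [Field k] (ρbar : ResidualGaloisRep k)
    (ψ : k →+* ResidueField T) (h : ρ.residual.IsEquiv (ρbar.baseChangeAlong ψ)) :
    (ρ.baseChangeAlong φ hφ).residual.IsEquiv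
      (ρbar.baseChangeAlong ((haveI := hφ; ResidueField.map φ).comp ψ)) :=
  GP.Tan.UnivInj.residual_baseChangeAlong_isEquiv ρ φ hφ ρbar ψ h

/-- **GalPkg, flat case.**  `H` a datum on the carrier `Tloc 𝒪 θ` with `H.π = piT`, `p ∤ N` odd,
`tw` a residually-`θ` ring hom generating `T_Q` over `𝒪`.  Then there are a surjective local
`𝒪`-algebra hom `φ : Tloc 𝒪 θ → T_Q` with `φ ∘ piT = tw` and `ρ_Q := H.ρ ⊗_φ T_Q` with the
Eichler–Shimura relations for `tw (T_ℓ)` and the S56-shaped flat condition. -/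
theorem exists_galRep_flat [Finite (ResidueField 𝒪)] [CharZero 𝒪] (hp : p.Prime) (hp2 : p ≠ 2)
    (hp𝒪 : (p : 𝒪) ∈ IsLocalRing.maximalIdeal 𝒪) (hpN : ¬ p ∣ N) (hpS : p ∈ S)
    (hNS : ∀ q : ℕ, q.Prime → q ∣ N → q ∈ S)
    (H : HeckeGaloisRepDatum N (↑S : Set ℕ) 𝒪 θ (Tloc 𝒪 θ)) (hπ : H.π = piT 𝒪 θ)
    (tw : heckeAlgebra N 2 (↑S : Set ℕ) →+* TQ)
    (hres : ∀ t, residue TQ (tw t) = ResidueField.map (algebraMap 𝒪 TQ) (θ t))
    (hgen : Algebra.adjoin 𝒪 (Set.range tw) = ⊤)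
    (Tram Smin : Finset ℕ) (hST : S ⊆ Tram)
    (hSmin : ∀ q ∈ Smin, q.Prime → q ≠ p → q ∣ N ∧ ¬ q ^ 2 ∣ N) :
    ∃ (φ : Tloc 𝒪 θ →ₐ[𝒪] TQ) (hφ : IsLocalHom φ.toRingHom), Function.Surjective φ ∧
      (∀ t, φ (piT 𝒪 θ t) = tw t) ∧
      (∀ (ℓ : ℕ) (hℓ : ℓ.Prime) (hℓN : ¬ ℓ ∣ N) (hℓS : ℓ ∉ (↑S : Set ℕ))
        (A : ValuationSubring (AlgebraicClosure ℚ)), A.LiesOverPrime ℓ → ∀ σ : GQ,
        A.IsFrobeniusAt σ ℓ →
          LinearMap.charpoly ((pushRep H φ.toRingHom hφ).ρ σ) =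
            X ^ 2 - C (tw (heckeAlgebra.T hℓ hℓN hℓS)) * X + C ((ℓ : TQ))) ∧
      (GaloisRep.flatCondition 𝒪 p Tram (pushRep H φ.toRingHom hφ) ∧
        ∀ q ∈ Smin, q.Prime → q ≠ p → (pushRep H φ.toRingHom hφ).IsUnipotentOnInertiaAt q) := by
  obtain ⟨φ, hφt, hloc, hsurj⟩ := exists_phi 𝒪 θ tw hres hgen
  refine ⟨φ, hloc, hsurj, hφt, ?_, ?_⟩
  · intro ℓ hℓ hℓN hℓS A hA σ hσ
    have h := charpoly_frob_push H φ.toRingHom hloc ℓ hℓ hℓN hℓS A hA σ hσ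
    rw [hπ] at h
    rw [h]
    congr 3
    exact congrArg _ (hφt _)
  · exact flatCond_push hp hp2 hp𝒪 hpN hpS hNS H φ.toRingHom hloc hsurj Tram Smin hST hSmin

/-- **GalPkg, strict-ordinary case** (strict ordinarity of `H.ρ` as a binder). -/
theorem exists_galRep_strict [Finite (ResidueField 𝒪)] [CharZero 𝒪] (hp : p.Prime)
    (hp𝒪 : (p : 𝒪) ∈ IsLocalRing.maximalIdeal 𝒪) (hpS : p ∈ S)
    (hNS : ∀ q : ℕ, q.Prime → q ∣ N → q ∈ S)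
    (H : HeckeGaloisRepDatum N (↑S : Set ℕ) 𝒪 θ (Tloc 𝒪 θ)) (hπ : H.π = piT 𝒪 θ)
    (hord : H.ρ.IsStrictOrdinaryAt p)
    (tw : heckeAlgebra N 2 (↑S : Set ℕ) →+* TQ)
    (hres : ∀ t, residue TQ (tw t) = ResidueField.map (algebraMap 𝒪 TQ) (θ t))
    (hgen : Algebra.adjoin 𝒪 (Set.range tw) = ⊤)
    (Tram Smin : Finset ℕ) (hST : S ⊆ Tram)
    (hSmin : ∀ q ∈ Smin, q.Prime → q ≠ p → q ∣ N ∧ ¬ q ^ 2 ∣ N) :
    ∃ (φ : Tloc 𝒪 θ →ₐ[𝒪] TQ) (hφ : IsLocalHom φ.toRingHom), Function.Surjective φ ∧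
      (∀ t, φ (piT 𝒪 θ t) = tw t) ∧
      (∀ (ℓ : ℕ) (hℓ : ℓ.Prime) (hℓN : ¬ ℓ ∣ N) (hℓS : ℓ ∉ (↑S : Set ℕ))
        (A : ValuationSubring (AlgebraicClosure ℚ)), A.LiesOverPrime ℓ → ∀ σ : GQ,
        A.IsFrobeniusAt σ ℓ →
          LinearMap.charpoly ((pushRep H φ.toRingHom hφ).ρ σ) =
            X ^ 2 - C (tw (heckeAlgebra.T hℓ hℓN hℓS)) * X + C ((ℓ : TQ))) ∧
      (GaloisRep.strictOrdinaryCondition 𝒪 p Tram (pushRep H φ.toRingHom hφ) ∧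
        ∀ q ∈ Smin, q.Prime → q ≠ p → (pushRep H φ.toRingHom hφ).IsUnipotentOnInertiaAt q) := by
  obtain ⟨φ, hφt, hloc, hsurj⟩ := exists_phi 𝒪 θ tw hres hgen
  refine ⟨φ, hloc, hsurj, hφt, ?_, ?_⟩
  · intro ℓ hℓ hℓN hℓS A hA σ hσ
    have h := charpoly_frob_push H φ.toRingHom hloc ℓ hℓ hℓN hℓS A hA σ hσ
    rw [hπ] at h
    rw [h]
    congr 3
    exact congrArg _ (hφt _)
  · exact strictCond_push hp hp𝒪 hpS hNS H φ.toRingHom hloc hord Tram Smin hST hSmin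

end Gal

end Fermat.Agent.GB.B4.Datum.PushTloc
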