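/-
GATE-B / GB-B4-DATUM (helper12): the universal property of the carrier `Tloc 𝒪 θ` in `def` form.

`lift 𝒪 θ χ hχ : Tloc 𝒪 θ →ₐ[𝒪] B` for a ring hom `χ : A →+* B` into a local `𝒪`-algebra which
lifts `θ` residually; `lift_piT`, `isLocalHom_lift`, `lift_surjective` (when `B` is generated by
the image of `χ`), `algHom_ext` (uniqueness).  This is how the full Hecke ring maps onto `T_Q`
(twist hom) and onto every point.
-/
import Fermat.Agent.GB.B4.Datum.Carrier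

set_option autoImplicit false

noncomputable section

namespace Fermat.Agent.GB.B4.Datum.Carrier

open TensorProduct IsLocalRing

variable (𝒪 : Type) [CommRing 𝒪] [IsLocalRing 𝒪] {A : Type} [CommRing A]
  {B : Type*} [CommRing B]

/-- two `𝒪`-algebra homs out of `Tloc 𝒪 θ` which agree on the image of `A` are equal. -/
theorem algHom_ext [Algebra 𝒪 B] (θ : A →+* ResidueField 𝒪) {ψ₁ ψ₂ : Tloc 𝒪 θ →ₐ[𝒪] B}
    (h : ∀ t : A, ψ₁ (piT 𝒪 θ t) = ψ₂ (piT 𝒪 θ t)) : ψ₁ = ψ₂ := by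
  have hkey : ∀ a : 𝒪 ⊗[ℤ] A, ψ₁ (algebraMap (𝒪 ⊗[ℤ] A) (Tloc 𝒪 θ) a) =
      ψ₂ (algebraMap (𝒪 ⊗[ℤ] A) (Tloc 𝒪 θ) a) := by
    intro a
    induction a using TensorProduct.induction_on with
    | zero => rw [map_zero, map_zero, map_zero]
    | tmul x t => rw [algebraMap_tmul, map_smul, map_smul, h]
    | add a b ha hb => rw [map_add, map_add, map_add, ha, hb]
  have hring : (ψ₁ : Tloc 𝒪 θ →+* B) = (ψ₂ : Tloc 𝒪 θ →+* B) :=
    IsLocalization.ringHom_ext (maxθ 𝒪 θ).primeCompl (RingHom.ext fun a => hkey a)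
  exact AlgHom.ext fun x => RingHom.congr_fun hring x

variable [IsLocalRing B] [Algebra 𝒪 B] [IsLocalHom (algebraMap 𝒪 B)]

/-- **the lift** of a residually-`θ` ring hom `χ : A →+* B` to the carrier. -/
def lift (θ : A →+* ResidueField 𝒪) (χ : A →+* B)
    (hχ : ∀ t : A, residue B (χ t) = ResidueField.map (algebraMap 𝒪 B) (θ t)) :
    Tloc 𝒪 θ →ₐ[𝒪] B :=
  Classical.choose (exists_lift 𝒪 θ χ hχ)

theorem lift_piT (θ : A →+* ResidueField 𝒪) (χ : A →+* B)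
    (hχ : ∀ t : A, residue B (χ t) = ResidueField.map (algebraMap 𝒪 B) (θ t)) (t : A) :
    lift 𝒪 θ χ hχ (piT 𝒪 θ t) = χ t :=
  (Classical.choose_spec (exists_lift 𝒪 θ χ hχ)).1 t

theorem isLocalHom_lift (θ : A →+* ResidueField 𝒪) (χ : A →+* B)
    (hχ : ∀ t : A, residue B (χ t) = ResidueField.map (algebraMap 𝒪 B) (θ t)) :
    IsLocalHom (lift 𝒪 θ χ hχ).toRingHom :=
  (Classical.choose_spec (exists_lift 𝒪 θ χ hχ)).2

theorem lift_comp_piT (θ : A →+* ResidueField 𝒪) (χ : A →+* B)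
    (hχ : ∀ t : A, residue B (χ t) = ResidueField.map (algebraMap 𝒪 B) (θ t)) :
    (lift 𝒪 θ χ hχ).toRingHom.comp (piT 𝒪 θ) = χ :=
  RingHom.ext fun t => lift_piT 𝒪 θ χ hχ t

/-- the lift is onto as soon as `B` is generated over `𝒪` by the image of `χ`. -/
theorem lift_surjective (θ : A →+* ResidueField 𝒪) (χ : A →+* B)
    (hχ : ∀ t : A, residue B (χ t) = ResidueField.map (algebraMap 𝒪 B) (θ t))
    (hgen : Algebra.adjoin 𝒪 (Set.range χ) = ⊤) :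
    Function.Surjective (lift 𝒪 θ χ hχ) := by
  rw [← AlgHom.range_eq_top, eq_top_iff, ← hgen]
  refine Algebra.adjoin_le ?_
  rintro _ ⟨t, rfl⟩
  exact ⟨piT 𝒪 θ t, lift_piT 𝒪 θ χ hχ t⟩

theorem lift_unique (θ : A →+* ResidueField 𝒪) (χ : A →+* B)
    (hχ : ∀ t : A, residue B (χ t) = ResidueField.map (algebraMap 𝒪 B) (θ t))
    (ψ : Tloc 𝒪 θ →ₐ[𝒪] B) (hψ : ∀ t : A, ψ (piT 𝒪 θ t) = χ t) : ψ = lift 𝒪 θ χ hχ :=
  algHom_ext 𝒪 θ fun t => by rw [hψ, lift_piT]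

end Fermat.Agent.GB.B4.Datum.Carrier
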