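/-
GATE-B / ProviderFlat G2, sub-leaf GB-B4-LOCHYP-TWIST (helper73): **`ImageRing.LocHyp` in the TWISTED
setting.**

The twisted Hecke action `tw : A →+* End_𝒪 M` of B4-TWIST sends `T_ℓ` to
`(diamond) ∘ (B3 symbol operator)`, which is NOT a B3 symbol, so `TQFields.locHyp_of_isPrimary`
does not apply.  Here:

* `NilMod f` : `f ∈ End_𝒪 M` is nilpotent modulo `𝔪_𝒪 M`; `red` : reduction `End_𝒪 M →+* End_𝒪 (M ⧸ 𝔪_𝒪 M)`;
  `NilMod.add`, `NilMod.mul_left/right` (commuting operators);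
* **`locHyp_of_gens`** : if on a generating set `G` of `A` every `tw t` is, up to an operator
  nilpotent modulo `𝔪_𝒪 M`, a scalar `c` lifting `θ t`, then `LocHyp 𝒪 θ tw` (`M` finite over the
  local ring `𝒪`): unit modulo a radical ideal, Nakayama, Orzech;
* `nilMod_sub_one_of_pow_eq_one` : an operator of `p`-power order is unipotent modulo `𝔪_𝒪 M`
  (`p ∈ 𝔪_𝒪`);
* `nilMod_act_of_mem` : on a `𝔪`-primary finite module the symbols of `𝔪` are nilpotent modulo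
  `𝔪_𝒪 M` (`TQ.Hecke act` is local and finite over `𝒪`);
* **`locHyp_of_twist`** : `tw t = d_t ∘ act s_t`, `d_t` unipotent modulo `𝔪_𝒪 M` commuting with the
  symbols, `θ t = ev s_t`, `act` primary at `ker ev`  ⟹ `LocHyp 𝒪 θ tw`;
* `locHyp_prodTw_of_twist` : the same for `TQFields.prodTw tw₁ tw₂` on `M₁ × M₂`.
-/
import Mathlib
import Fermat.Agent.GB.B4.Datum.ImageRing
import Fermat.Agent.GB.B4.Datum.TQFields
import Fermat.Agent.GB.B3.TQ

set_option autoImplicit false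
set_option linter.unusedSectionVars false
set_option linter.style.haveILetI false

noncomputable section

namespace Fermat.Agent.GB.B4.Datum.LocHypTwist

open TensorProduct IsLocalRing Fermat.Agent.GB.B4.Datum.Carrier
  Fermat.Agent.GB.B4.Datum.ImageRing

/-! ### reduction modulo `𝔪_𝒪 M` -/

section Red

variable {𝒪 : Type*} [CommRing 𝒪] [IsLocalRing 𝒪] {M : Type*} [AddCommGroup M] [Module 𝒪 M]

variable (𝒪 M) in
/-- `𝔪_𝒪 M` -/
def mM : Submodule 𝒪 M := maximalIdeal 𝒪 • (⊤ : Submodule 𝒪 M)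

/-- every endomorphism preserves `𝔪_𝒪 M` -/
theorem map_mem_mM (f : Module.End 𝒪 M) {x : M} (hx : x ∈ mM 𝒪 M) : f x ∈ mM 𝒪 M := by
  have h : (mM 𝒪 M).map f ≤ mM 𝒪 M := by
    unfold mM
    rw [Submodule.map_smul'']
    exact Submodule.smul_mono le_rfl le_top
  exact h (Submodule.mem_map_of_mem hx)

theorem smul_mem_mM {c : 𝒪} (hc : c ∈ maximalIdeal 𝒪) (x : M) : c • x ∈ mM 𝒪 M :=
  Submodule.smul_mem_smul hc Submodule.mem_top

/-- reduction modulo `𝔪_𝒪 M`, as a ring homomorphism -/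
def red : Module.End 𝒪 M →+* Module.End 𝒪 (M ⧸ mM 𝒪 M) where
  toFun f := Submodule.mapQ _ _ f (fun _ hx => map_mem_mM f hx)
  map_one' := by
    ext x
    rfl
  map_mul' f g := by
    ext x
    rfl
  map_zero' := by
    ext x
    rfl
  map_add' f g := by
    ext x
    rfl

@[simp] theorem red_apply_mk (f : Module.End 𝒪 M) (x : M) :
    red f (Submodule.Quotient.mk x) = Submodule.Quotient.mk (f x) := rfl

theorem red_eq_zero_iff (f : Module.End 𝒪 M) : red f = 0 ↔ ∀ x, f x ∈ mM 𝒪 M := by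
  constructor
  · intro h x
    have := LinearMap.congr_fun h (Submodule.Quotient.mk x)
    rw [red_apply_mk, LinearMap.zero_apply, Submodule.Quotient.mk_eq_zero] at this
    exact this
  · intro h
    ext x
    show (red f) (Submodule.Quotient.mk x) = 0
    rw [red_apply_mk, Submodule.Quotient.mk_eq_zero]
    exact h x

/-- `f` is nilpotent modulo `𝔪_𝒪 M` -/
def NilMod (f : Module.End 𝒪 M) : Prop := ∃ n : ℕ, ∀ x, (f ^ n) x ∈ mM 𝒪 M

theorem nilMod_iff (f : Module.End 𝒪 M) : NilMod f ↔ IsNilpotent (red f) := by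
  constructor
  · rintro ⟨n, hn⟩
    exact ⟨n, by rw [← map_pow, red_eq_zero_iff]; exact hn⟩
  · rintro ⟨n, hn⟩
    exact ⟨n, by rw [← map_pow, red_eq_zero_iff] at hn; exact hn⟩

theorem NilMod.zero : NilMod (0 : Module.End 𝒪 M) :=
  ⟨1, fun x => by rw [pow_one, LinearMap.zero_apply]; exact Submodule.zero_mem _⟩

theorem NilMod.add {f g : Module.End 𝒪 M} (hfg : Commute f g) (hf : NilMod f) (hg : NilMod g) :
    NilMod (f + g) := by
  rw [nilMod_iff] at hf hg ⊢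
  rw [map_add]
  exact Commute.isNilpotent_add (hfg.map red) hf hg

theorem NilMod.neg {f : Module.End 𝒪 M} (hf : NilMod f) : NilMod (-f) := by
  rw [nilMod_iff] at hf ⊢
  rw [map_neg]
  exact hf.neg

theorem NilMod.sub {f g : Module.End 𝒪 M} (hfg : Commute f g) (hf : NilMod f) (hg : NilMod g) :
    NilMod (f - g) := by
  rw [sub_eq_add_neg]
  exact NilMod.add hfg.neg_right hf hg.neg

theorem NilMod.mul_right {f h : Module.End 𝒪 M} (hfh : Commute f h) (hf : NilMod f) :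
    NilMod (f * h) := by
  rw [nilMod_iff] at hf ⊢
  rw [map_mul]
  exact Commute.isNilpotent_mul_right (hfh.map red) hf

theorem NilMod.mul_left {f h : Module.End 𝒪 M} (hfh : Commute f h) (hf : NilMod f) :
    NilMod (h * f) := by
  rw [nilMod_iff] at hf ⊢
  rw [map_mul]
  exact Commute.isNilpotent_mul_left (hfh.map red).symm hf

/-- scalars of `𝔪_𝒪` are nilpotent modulo `𝔪_𝒪 M` -/
theorem NilMod.algebraMap {c : 𝒪} (hc : c ∈ maximalIdeal 𝒪) :
    NilMod (algebraMap 𝒪 (Module.End 𝒪 M) c) :=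
  ⟨1, fun x => by
    rw [pow_one, Module.algebraMap_end_apply]
    exact smul_mem_mM hc x⟩

/-- **an operator of `p`-power order is unipotent modulo `𝔪_𝒪 M`** (`p ∈ 𝔪_𝒪`) -/
theorem nilMod_sub_one_of_pow_eq_one {p a : ℕ} (hp : p.Prime) (hpO : (p : 𝒪) ∈ maximalIdeal 𝒪)
    (d : Module.End 𝒪 M) (hd : d ^ p ^ a = 1) : NilMod (d - 1) := by
  obtain ⟨r, hr⟩ := Commute.exists_add_pow_prime_pow_eq hp
    ((Commute.one_right (d - 1))) a
  rw [sub_add_cancel, hd, one_pow] at hr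
  refine ⟨p ^ a, fun x => ?_⟩
  have h1 : (d - 1) ^ p ^ a = -((p : Module.End 𝒪 M) * (d - 1) * 1 * r) := by
    rw [eq_neg_iff_add_eq_zero]
    have h2 : (1 : Module.End 𝒪 M) = (d - 1) ^ p ^ a + 1 + (p : Module.End 𝒪 M) * (d - 1) * 1 * r :=
      hr
    have h3 : (d - 1) ^ p ^ a + (p : Module.End 𝒪 M) * (d - 1) * 1 * r
        = ((d - 1) ^ p ^ a + 1 + (p : Module.End 𝒪 M) * (d - 1) * 1 * r) - 1 := by abel
    rw [h3, ← h2, sub_self]
  rw [h1, LinearMap.neg_apply, mul_assoc, mul_assoc, Module.End.mul_apply]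
  apply Submodule.neg_mem
  have h4 : ((p : Module.End 𝒪 M)) = algebraMap 𝒪 (Module.End 𝒪 M) (p : 𝒪) := by
    rw [map_natCast]
  rw [h4, Module.algebraMap_end_apply]
  exact smul_mem_mM hpO _

end Red

/-! ### the criterion -/

section Criterion

variable {𝒪 : Type} [CommRing 𝒪] [IsLocalRing 𝒪] {A : Type} [CommRing A]
  {M : Type} [AddCommGroup M] [Module 𝒪 M]

/-- the reduction of the extended action -/
def rho (tw : A →+* Module.End 𝒪 M) : 𝒪 ⊗[ℤ] A →+* Module.End 𝒪 (M ⧸ mM 𝒪 M) :=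
  (red (𝒪 := 𝒪) (M := M)).comp (twO 𝒪 tw : 𝒪 ⊗[ℤ] A →+* Module.End 𝒪 M)

theorem rho_apply (tw : A →+* Module.End 𝒪 M) (a : 𝒪 ⊗[ℤ] A) :
    rho tw a = red (twO 𝒪 tw a) := rfl

theorem mem_radical_ker_rho_iff (tw : A →+* Module.End 𝒪 M) (a : 𝒪 ⊗[ℤ] A) :
    a ∈ (RingHom.ker (rho tw)).radical ↔ NilMod (twO 𝒪 tw a) := by
  rw [nilMod_iff, ← rho_apply]
  constructor
  · rintro ⟨n, hn⟩
    rw [RingHom.mem_ker, map_pow] at hn
    exact ⟨n, hn⟩
  · rintro ⟨n, hn⟩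
    exact ⟨n, by rw [RingHom.mem_ker, map_pow]; exact hn⟩

theorem twO_includeRight (tw : A →+* Module.End 𝒪 M) (t : A) :
    twO 𝒪 tw ((1 : 𝒪) ⊗ₜ[ℤ] t) = tw t := by
  rw [twO_tmul, one_smul]

variable (θ : A →+* ResidueField 𝒪) (tw : A →+* Module.End 𝒪 M)
  (G : Set A) (hG : Algebra.adjoin ℤ G = ⊤)
  (h : ∀ t ∈ G, ∃ c : 𝒪, residue 𝒪 c = θ t ∧ NilMod (tw t - algebraMap 𝒪 (Module.End 𝒪 M) c))

include hG h

/-- step A: the elements of `A` -/
theorem exists_scalar_of_mem (t : A) :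
    ∃ c : 𝒪, residue 𝒪 c = θ t ∧
      ((1 : 𝒪) ⊗ₜ[ℤ] t - algebraMap 𝒪 (𝒪 ⊗[ℤ] A) c) ∈ (RingHom.ker (rho tw)).radical := by
  have ht : t ∈ Algebra.adjoin ℤ G := by rw [hG]; exact Algebra.mem_top
  induction ht using Algebra.adjoin_induction with
  | mem t ht =>
    obtain ⟨c, hc, hn⟩ := h t ht
    refine ⟨c, hc, ?_⟩
    rw [mem_radical_ker_rho_iff, map_sub, twO_includeRight, AlgHom.commutes]
    exact hn
  | algebraMap r =>
    refine ⟨(r : 𝒪), by rw [map_intCast, eq_intCast, map_intCast], ?_⟩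
    have h0 : ((1 : 𝒪) ⊗ₜ[ℤ] (algebraMap ℤ A r) - algebraMap 𝒪 (𝒪 ⊗[ℤ] A) (r : 𝒪)) = 0 := by
      rw [map_intCast, sub_eq_zero]
      have : ((1 : 𝒪) ⊗ₜ[ℤ] (algebraMap ℤ A r) : 𝒪 ⊗[ℤ] A)
          = (Algebra.TensorProduct.includeRight : A →ₐ[ℤ] 𝒪 ⊗[ℤ] A) (algebraMap ℤ A r) := rfl
      rw [this, AlgHom.commutes, eq_intCast]
    rw [h0]
    exact Ideal.zero_mem _
  | add x y _ _ hx hy =>
    obtain ⟨c, hc, hcm⟩ := hx
    obtain ⟨c', hc', hcm'⟩ := hy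
    refine ⟨c + c', by rw [map_add, map_add, hc, hc'], ?_⟩
    have : ((1 : 𝒪) ⊗ₜ[ℤ] (x + y) - algebraMap 𝒪 (𝒪 ⊗[ℤ] A) (c + c'))
        = ((1 : 𝒪) ⊗ₜ[ℤ] x - algebraMap 𝒪 (𝒪 ⊗[ℤ] A) c)
          + ((1 : 𝒪) ⊗ₜ[ℤ] y - algebraMap 𝒪 (𝒪 ⊗[ℤ] A) c') := by
      rw [TensorProduct.tmul_add, map_add]
      abel
    rw [this]
    exact Ideal.add_mem _ hcm hcm'
  | mul x y _ _ hx hy =>
    obtain ⟨c, hc, hcm⟩ := hx
    obtain ⟨c', hc', hcm'⟩ := hy
    refine ⟨c * c', by rw [map_mul, map_mul, hc, hc'], ?_⟩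
    have : ((1 : 𝒪) ⊗ₜ[ℤ] (x * y) - algebraMap 𝒪 (𝒪 ⊗[ℤ] A) (c * c'))
        = ((1 : 𝒪) ⊗ₜ[ℤ] x - algebraMap 𝒪 (𝒪 ⊗[ℤ] A) c) * ((1 : 𝒪) ⊗ₜ[ℤ] y)
          + algebraMap 𝒪 (𝒪 ⊗[ℤ] A) c * ((1 : 𝒪) ⊗ₜ[ℤ] y - algebraMap 𝒪 (𝒪 ⊗[ℤ] A) c') := by
      have hxy : ((1 : 𝒪) ⊗ₜ[ℤ] (x * y) : 𝒪 ⊗[ℤ] A)
          = ((1 : 𝒪) ⊗ₜ[ℤ] x) * ((1 : 𝒪) ⊗ₜ[ℤ] y) := by
        rw [Algebra.TensorProduct.tmul_mul_tmul, one_mul]
      rw [hxy, map_mul]
      ring
    rw [this]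
    exact Ideal.add_mem _ (Ideal.mul_mem_right _ _ hcm) (Ideal.mul_mem_left _ _ hcm')

/-- step B: the elements of `𝒪 ⊗ A` -/
theorem exists_scalar_tensor (a : 𝒪 ⊗[ℤ] A) :
    ∃ c : 𝒪, residue 𝒪 c = thetaO 𝒪 θ a ∧
      (a - algebraMap 𝒪 (𝒪 ⊗[ℤ] A) c) ∈ (RingHom.ker (rho tw)).radical := by
  induction a using TensorProduct.induction_on with
  | zero =>
    exact ⟨0, by rw [map_zero, map_zero], by rw [map_zero, sub_zero]; exact Ideal.zero_mem _⟩
  | tmul x t =>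
    obtain ⟨c, hc, hcm⟩ := exists_scalar_of_mem θ tw G hG h t
    refine ⟨x * c, by rw [map_mul, hc, thetaO_tmul], ?_⟩
    have : (x ⊗ₜ[ℤ] t - algebraMap 𝒪 (𝒪 ⊗[ℤ] A) (x * c))
        = algebraMap 𝒪 (𝒪 ⊗[ℤ] A) x * ((1 : 𝒪) ⊗ₜ[ℤ] t - algebraMap 𝒪 (𝒪 ⊗[ℤ] A) c) := by
      have hxt : (x ⊗ₜ[ℤ] t : 𝒪 ⊗[ℤ] A)
          = algebraMap 𝒪 (𝒪 ⊗[ℤ] A) x * ((1 : 𝒪) ⊗ₜ[ℤ] t) := by
        rw [Algebra.TensorProduct.algebraMap_apply, Algebra.TensorProduct.tmul_mul_tmul,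
          one_mul, Algebra.algebraMap_self, RingHom.id_apply, mul_one]
      rw [hxt, map_mul]
      ring
    rw [this]
    exact Ideal.mul_mem_left _ _ hcm
  | add a b ha hb =>
    obtain ⟨c, hc, hcm⟩ := ha
    obtain ⟨c', hc', hcm'⟩ := hb
    refine ⟨c + c', by rw [map_add, map_add, hc, hc'], ?_⟩
    have : (a + b - algebraMap 𝒪 (𝒪 ⊗[ℤ] A) (c + c'))
        = (a - algebraMap 𝒪 (𝒪 ⊗[ℤ] A) c) + (b - algebraMap 𝒪 (𝒪 ⊗[ℤ] A) c') := by
      rw [map_add]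
      abel
    rw [this]
    exact Ideal.add_mem _ hcm hcm'

/-- **(LOC) from the generators**: if every `tw t`, `t ∈ G`, is a scalar lifting `θ t` up to an
operator nilpotent modulo `𝔪_𝒪 M`, then every `a ∈ 𝒪 ⊗ A` with `θ(a) ≠ 0` acts bijectively. -/
theorem locHyp_of_gens [Module.Finite 𝒪 M] : LocHyp 𝒪 θ tw := by
  intro a ha
  obtain ⟨c, hc, hcm⟩ := exists_scalar_tensor θ tw G hG h a
  have hcu : IsUnit c := by
    rw [← residue_ne_zero_iff_isUnit, hc]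
    exact ha
  obtain ⟨c', hcc'⟩ := hcu.exists_right_inv
  obtain ⟨e, he⟩ : ∃ e : 𝒪 ⊗[ℤ] A, e = a * algebraMap 𝒪 (𝒪 ⊗[ℤ] A) c' := ⟨_, rfl⟩
  have h1 : (1 : 𝒪 ⊗[ℤ] A) - e ∈ (RingHom.ker (rho tw)).radical := by
    have : (1 : 𝒪 ⊗[ℤ] A) - e
        = -((a - algebraMap 𝒪 (𝒪 ⊗[ℤ] A) c) * algebraMap 𝒪 (𝒪 ⊗[ℤ] A) c') := by
      have h11 : algebraMap 𝒪 (𝒪 ⊗[ℤ] A) c * algebraMap 𝒪 (𝒪 ⊗[ℤ] A) c' = 1 := by
        rw [← map_mul, hcc', map_one]
      rw [he, sub_mul, h11]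
      ring
    rw [this]
    exact (Ideal.neg_mem_iff _).mpr (Ideal.mul_mem_right _ _ hcm)
  obtain ⟨n, hn⟩ := h1
  obtain ⟨b, hb⟩ : ∃ b : 𝒪 ⊗[ℤ] A, b = algebraMap 𝒪 (𝒪 ⊗[ℤ] A) c' *
      ∑ i ∈ Finset.range n, ((1 : 𝒪 ⊗[ℤ] A) - e) ^ i := ⟨_, rfl⟩
  have hab : a * b = 1 - ((1 : 𝒪 ⊗[ℤ] A) - e) ^ n := by
    have := mul_neg_geom_sum ((1 : 𝒪 ⊗[ℤ] A) - e) n
    rw [sub_sub_cancel] at this
    rw [hb, ← mul_assoc, ← he, this]
  obtain ⟨j, hj⟩ : ∃ j : Module.End 𝒪 M, j = twO 𝒪 tw (((1 : 𝒪 ⊗[ℤ] A) - e) ^ n) := ⟨_, rfl⟩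
  have hjm : ∀ x, j x ∈ mM 𝒪 M := by
    rw [← red_eq_zero_iff, hj]
    exact hn
  have hw : twO 𝒪 tw a * twO 𝒪 tw b = 1 - j := by
    rw [← map_mul, hab, map_sub, map_one, hj]
  have hsurj_w : Function.Surjective (1 - j : Module.End 𝒪 M) := by
    rw [← LinearMap.range_eq_top]
    apply le_antisymm le_top
    apply Submodule.le_of_le_smul_of_le_jacobson_bot (I := maximalIdeal 𝒪)
      (Module.Finite.fg_top)
    · exact IsLocalRing.maximalIdeal_le_jacobson _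
    · intro x _
      have hx : x = (1 - j) x + j x := by
        rw [LinearMap.sub_apply, Module.End.one_apply, sub_add_cancel]
      rw [hx]
      exact Submodule.add_mem_sup (LinearMap.mem_range_self _ x) (hjm x)
  have hsurj : Function.Surjective (twO 𝒪 tw a) := by
    intro y
    obtain ⟨x, hx⟩ := hsurj_w y
    refine ⟨twO 𝒪 tw b x, ?_⟩
    rw [← Module.End.mul_apply, hw]
    exact hx
  exact ⟨OrzechProperty.injective_of_surjective_endomorphism _ hsurj, hsurj⟩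

end Criterion

/-! ### the producer: symbols of a primary module, twisted by unipotent diamonds -/

section Producer

open Fermat.Agent.GB.B3.TQ

/-- in a local ring integral over the local ring `𝒪`, the maximal ideal is the radical of
`𝔪_𝒪 H` -/
theorem maximalIdeal_le_radical_map (𝒪 : Type*) [CommRing 𝒪] [IsLocalRing 𝒪] (H : Type*)
    [CommRing H] [IsLocalRing H] [Algebra 𝒪 H] [Algebra.IsIntegral 𝒪 H] :
    maximalIdeal H ≤ (Ideal.map (algebraMap 𝒪 H) (maximalIdeal 𝒪)).radical := by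
  rw [Ideal.radical_eq_sInf]
  refine le_sInf fun 𝔭 h𝔭 => ?_
  obtain ⟨hle, hprime⟩ := h𝔭
  haveI := hprime
  have hcomap : maximalIdeal 𝒪 ≤ 𝔭.comap (algebraMap 𝒪 H) := Ideal.map_le_iff_le_comap.mp hle
  have hne : 𝔭.comap (algebraMap 𝒪 H) ≠ ⊤ := (Ideal.comap_isPrime (algebraMap 𝒪 H) 𝔭).ne_top
  have heq : maximalIdeal 𝒪 = 𝔭.comap (algebraMap 𝒪 H) :=
    (IsLocalRing.maximalIdeal.isMaximal 𝒪).eq_of_le hne hcomap
  have hmax : (𝔭.comap (algebraMap 𝒪 H)).IsMaximal := heq ▸ IsLocalRing.maximalIdeal.isMaximal 𝒪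
  have h𝔭max : 𝔭.IsMaximal := Ideal.isMaximal_of_isIntegral_of_isMaximal_comap 𝔭 hmax
  exact le_of_eq (IsLocalRing.eq_maximalIdeal h𝔭max).symm

variable (O : Type) [CommRing O] [IsLocalRing O] [IsNoetherianRing O]
  [IsAdicComplete (IsLocalRing.maximalIdeal O) O]
variable {𝕋 : Type} [CommRing 𝕋] [Algebra O 𝕋]
variable {M : Type} [AddCommGroup M] [Module O M] [Module.Finite O M]

omit [IsNoetherianRing O] [IsAdicComplete (IsLocalRing.maximalIdeal O) O] [Module.Finite O M] in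
/-- the elements of `𝔪_O · Hecke` act into `𝔪_O M` -/
theorem heckeAct_mem_mM (act : 𝕋 →ₐ[O] Module.End O M) {y : Hecke act}
    (hy : y ∈ Ideal.map (algebraMap O (Hecke act)) (maximalIdeal O)) (m : M) :
    heckeAct act y m ∈ mM O M := by
  unfold Ideal.map at hy
  induction hy using Submodule.span_induction generalizing m with
  | mem y hy =>
    obtain ⟨c, hc, rfl⟩ := hy
    rw [AlgHom.commutes, Module.algebraMap_end_apply]
    exact smul_mem_mM hc m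
  | zero =>
    rw [map_zero, LinearMap.zero_apply]
    exact Submodule.zero_mem _
  | add y z _ _ hy hz =>
    rw [map_add, LinearMap.add_apply]
    exact Submodule.add_mem _ (hy m) (hz m)
  | smul a y _ hy =>
    rw [smul_eq_mul, map_mul, Module.End.mul_apply]
    exact map_mem_mM _ (hy m)

/-- **on a primary finite module the symbols of `𝔪` are nilpotent modulo `𝔪_O M`** -/
theorem nilMod_act_of_mem (act : 𝕋 →ₐ[O] Module.End O M) (𝔪 : Ideal 𝕋) [𝔪.IsMaximal]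
    (hprim : IsPrimary act 𝔪) {s : 𝕋} (hs : s ∈ 𝔪) : NilMod (act s) := by
  rcases subsingleton_or_nontrivial M with hM | hM
  · exact ⟨0, fun x => by
      rw [Subsingleton.elim ((act s ^ 0) x) 0]
      exact Submodule.zero_mem _⟩
  · haveI := isLocalRing O act 𝔪 hprim
    haveI : Module.Finite O (Hecke act) := Fermat.Agent.GB.B3.TQ.finite O act
    haveI : Algebra.IsIntegral O (Hecke act) := Algebra.IsIntegral.of_finite O _
    have hx : Ideal.Quotient.mk (heckeIdeal act) s ∈ maximalIdeal (Hecke act) :=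
      (mem_maximalIdeal_iff O act 𝔪 hprim s).mpr hs
    obtain ⟨n, hn⟩ := maximalIdeal_le_radical_map O (Hecke act) hx
    refine ⟨n, fun m => ?_⟩
    have := heckeAct_mem_mM O act hn m
    rw [← map_pow, heckeAct_mk, map_pow] at this
    exact this

variable (ev : 𝕋 →ₐ[O] ResidueField O)

instance ker_ev_isMaximal : (RingHom.ker (ev : 𝕋 →+* ResidueField O)).IsMaximal := by
  refine RingHom.ker_isMaximal_of_surjective _ fun y => ?_
  obtain ⟨x, rfl⟩ := residue_surjective y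
  exact ⟨algebraMap O 𝕋 x, ev.commutes x⟩

/-- the hypothesis of `locHyp_of_gens` at an operator `f = d ∘ act s`, `d` unipotent modulo
`𝔪_O M` and commuting with the symbols -/
theorem exists_scalar_of_twist (act : 𝕋 →ₐ[O] Module.End O M)
    (hprim : IsPrimary act (RingHom.ker (ev : 𝕋 →+* ResidueField O)))
    (d : Module.End O M) (hd : NilMod (d - 1)) (hcomm : ∀ s', Commute d (act s')) (s : 𝕋)
    (f : Module.End O M) (hf : f = d * act s) (κ : ResidueField O) (hκ : κ = ev s) :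
    ∃ c : O, residue O c = κ ∧ NilMod (f - algebraMap O (Module.End O M) c) := by
  obtain ⟨c, hc⟩ := residue_surjective κ
  refine ⟨c, hc, ?_⟩
  have hmem : s - algebraMap O 𝕋 c ∈ RingHom.ker (ev : 𝕋 →+* ResidueField O) := by
    rw [RingHom.mem_ker, map_sub]
    show ev s - ev (algebraMap O 𝕋 c) = 0
    rw [ev.commutes, ← hκ, ← hc]
    exact sub_self _
  have hnil : NilMod (act (s - algebraMap O 𝕋 c)) :=
    nilMod_act_of_mem O act _ hprim hmem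
  have hdecomp : f - algebraMap O (Module.End O M) c
      = (d - 1) * act s + act (s - algebraMap O 𝕋 c) := by
    rw [hf, map_sub, AlgHom.commutes, sub_mul, one_mul]
    abel
  rw [hdecomp]
  have hc1 : Commute (d - 1) (act s) := (hcomm s).sub_left (Commute.one_left _)
  refine NilMod.add ?_ (NilMod.mul_right hc1 hd) hnil
  exact Commute.mul_left ((hcomm _).sub_left (Commute.one_left _))
    (by rw [← AlgHom.coe_toRingHom]; exact (Commute.all s (s - algebraMap O 𝕋 c)).map _)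

/-- **(LOC) in the twisted setting**: `tw t = d_t ∘ act s_t` on a generating set, with `d_t`
unipotent modulo `𝔪_O M` commuting with the symbols, `θ t = ev s_t`, and `act` primary at
`ker ev` -/
theorem locHyp_of_twist {A : Type} [CommRing A] (act : 𝕋 →ₐ[O] Module.End O M)
    (hprim : IsPrimary act (RingHom.ker (ev : 𝕋 →+* ResidueField O)))
    (θ : A →+* ResidueField O) (tw : A →+* Module.End O M)
    (G : Set A) (hG : Algebra.adjoin ℤ G = ⊤)
    (h : ∀ t ∈ G, ∃ (s : 𝕋) (d : Module.End O M), tw t = d * act s ∧ NilMod (d - 1) ∧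
      (∀ s', Commute d (act s')) ∧ θ t = ev s) :
    LocHyp O θ tw := by
  refine locHyp_of_gens θ tw G hG fun t ht => ?_
  obtain ⟨s, d, hf, hd, hcomm, hθ⟩ := h t ht
  exact exists_scalar_of_twist O ev act hprim d hd hcomm s (tw t) hf (θ t) hθ

/-- **(LOC) for the product action in the twisted setting** -/
theorem locHyp_prodTw_of_twist {A : Type} [CommRing A]
    {M₂ : Type} [AddCommGroup M₂] [Module O M₂] [Module.Finite O M₂]
    (act₁ : 𝕋 →ₐ[O] Module.End O M) (act₂ : 𝕋 →ₐ[O] Module.End O M₂)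
    (h₁ : IsPrimary act₁ (RingHom.ker (ev : 𝕋 →+* ResidueField O)))
    (h₂ : IsPrimary act₂ (RingHom.ker (ev : 𝕋 →+* ResidueField O)))
    (θ : A →+* ResidueField O) (tw₁ : A →+* Module.End O M) (tw₂ : A →+* Module.End O M₂)
    (G : Set A) (hG : Algebra.adjoin ℤ G = ⊤)
    (h : ∀ t ∈ G, ∃ (s : 𝕋) (d₁ : Module.End O M) (d₂ : Module.End O M₂),
      tw₁ t = d₁ * act₁ s ∧ tw₂ t = d₂ * act₂ s ∧ NilMod (d₁ - 1) ∧ NilMod (d₂ - 1) ∧
      (∀ s', Commute d₁ (act₁ s')) ∧ (∀ s', Commute d₂ (act₂ s')) ∧ θ t = ev s) :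
    LocHyp O θ (Fermat.Agent.GB.B4.Datum.TQFields.prodTw O tw₁ tw₂) := by
  refine Fermat.Agent.GB.B4.Datum.TQFields.locHyp_prodTw O θ ?_ ?_
  · refine locHyp_of_twist O ev act₁ h₁ θ tw₁ G hG fun t ht => ?_
    obtain ⟨s, d₁, d₂, e₁, e₂, n₁, n₂, c₁, c₂, hθ⟩ := h t ht
    exact ⟨s, d₁, e₁, n₁, c₁, hθ⟩
  · refine locHyp_of_twist O ev act₂ h₂ θ tw₂ G hG fun t ht => ?_
    obtain ⟨s, d₁, d₂, e₁, e₂, n₁, n₂, c₁, c₂, hθ⟩ := h t ht
    exact ⟨s, d₂, e₂, n₂, c₂, hθ⟩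

end Producer

end Fermat.Agent.GB.B4.Datum.LocHypTwist
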