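/-
GATE-B / ProviderFlat G2, sub-leaf GB-B4-LOCHYP-TWIST, file 2 (helper73): `LocHypTwist` for the
Prelude Hecke algebra of forms `A = heckeAlgebra N' k' S` (generators `T ℓ`, `U q`), in the shape
of `TQFieldsHecke.hsym_of_TU` / `locHyp_hecke`, with the symbol compatibility WEAKENED to
`tw (T ℓ) = d ∘ act s`, `d` unipotent modulo `𝔪_O M` commuting with the symbols.
-/
import Mathlib
import Fermat.Agent.GB.B4.Datum.LocHypTwist
import Fermat.Agent.GB.B4.Datum.TQFieldsHecke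

set_option autoImplicit false
set_option linter.unusedSectionVars false

noncomputable section

namespace Fermat.Agent.GB.B4.Datum.LocHypTwist

open CuspForm IsLocalRing Fermat.Agent.GB.B4.Datum.ImageRing Fermat.Agent.GB.B4.Datum.TQFields
  Fermat.Agent.GB.B4.Datum.TQFieldsHecke Fermat.Agent.GB.B3.TQ

variable {N' : ℕ} [NeZero N'] {k' : ℤ} {S : Set ℕ}
variable (O : Type) [CommRing O] [IsLocalRing O] [IsNoetherianRing O]
  [IsAdicComplete (IsLocalRing.maximalIdeal O) O]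
variable {𝕋 : Type} [CommRing 𝕋] [Algebra O 𝕋]
variable {M₁ : Type} [AddCommGroup M₁] [Module O M₁] [Module.Finite O M₁]
variable {M₂ : Type} [AddCommGroup M₂] [Module O M₂] [Module.Finite O M₂]

/-- **(LOC) for the product action of `heckeAlgebra N' k' S` in the twisted setting**: the
compatibility is asked on the `T ℓ` and the `U q` only -/
theorem locHyp_prodTw_hecke_of_twist (ev : 𝕋 →ₐ[O] ResidueField O)
    (act₁ : 𝕋 →ₐ[O] Module.End O M₁) (act₂ : 𝕋 →ₐ[O] Module.End O M₂)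
    (h₁ : IsPrimary act₁ (RingHom.ker (ev : 𝕋 →+* ResidueField O)))
    (h₂ : IsPrimary act₂ (RingHom.ker (ev : 𝕋 →+* ResidueField O)))
    (θ : ↥(heckeAlgebra N' k' S) →+* ResidueField O)
    (tw₁ : ↥(heckeAlgebra N' k' S) →+* Module.End O M₁)
    (tw₂ : ↥(heckeAlgebra N' k' S) →+* Module.End O M₂)
    (hT : ∀ {ℓ : ℕ} (hℓ : ℓ.Prime) (hℓN : ¬ ℓ ∣ N') (hℓS : ℓ ∉ S),
      ∃ (s : 𝕋) (d₁ : Module.End O M₁) (d₂ : Module.End O M₂),
        tw₁ (heckeAlgebra.T hℓ hℓN hℓS) = d₁ * act₁ s ∧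
        tw₂ (heckeAlgebra.T hℓ hℓN hℓS) = d₂ * act₂ s ∧ NilMod (d₁ - 1) ∧ NilMod (d₂ - 1) ∧
        (∀ s', Commute d₁ (act₁ s')) ∧ (∀ s', Commute d₂ (act₂ s')) ∧
        θ (heckeAlgebra.T hℓ hℓN hℓS) = ev s)
    (hU : ∀ {q : ℕ} (hq : q.Prime) (hqN : q ∣ N') (hqS : q ∉ S),
      ∃ (s : 𝕋) (d₁ : Module.End O M₁) (d₂ : Module.End O M₂),
        tw₁ (heckeAlgebra.U hq hqN hqS) = d₁ * act₁ s ∧
        tw₂ (heckeAlgebra.U hq hqN hqS) = d₂ * act₂ s ∧ NilMod (d₁ - 1) ∧ NilMod (d₂ - 1) ∧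
        (∀ s', Commute d₁ (act₁ s')) ∧ (∀ s', Commute d₂ (act₂ s')) ∧
        θ (heckeAlgebra.U hq hqN hqS) = ev s) :
    LocHyp O θ (prodTw O tw₁ tw₂) := by
  refine locHyp_prodTw_of_twist O ev act₁ act₂ h₁ h₂ θ tw₁ tw₂ (gens N' k' S)
    (adjoin_gens N' k' S) fun t ht => ?_
  rcases gens_cases ht with ⟨ℓ, hℓ, hℓN, hℓS, rfl⟩ | ⟨q, hq, hqN, hqS, rfl⟩
  · exact hT hℓ hℓN hℓS
  · exact hU hq hqN hqS

/-- the case where `S` contains the primes of the level: only the `T ℓ` occur -/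
theorem locHyp_prodTw_hecke_of_twist_T (ev : 𝕋 →ₐ[O] ResidueField O)
    (act₁ : 𝕋 →ₐ[O] Module.End O M₁) (act₂ : 𝕋 →ₐ[O] Module.End O M₂)
    (h₁ : IsPrimary act₁ (RingHom.ker (ev : 𝕋 →+* ResidueField O)))
    (h₂ : IsPrimary act₂ (RingHom.ker (ev : 𝕋 →+* ResidueField O)))
    (θ : ↥(heckeAlgebra N' k' S) →+* ResidueField O)
    (tw₁ : ↥(heckeAlgebra N' k' S) →+* Module.End O M₁)
    (tw₂ : ↥(heckeAlgebra N' k' S) →+* Module.End O M₂)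
    (hS : ∀ q : ℕ, q.Prime → q ∣ N' → q ∈ S)
    (hT : ∀ {ℓ : ℕ} (hℓ : ℓ.Prime) (hℓN : ¬ ℓ ∣ N') (hℓS : ℓ ∉ S),
      ∃ (s : 𝕋) (d₁ : Module.End O M₁) (d₂ : Module.End O M₂),
        tw₁ (heckeAlgebra.T hℓ hℓN hℓS) = d₁ * act₁ s ∧
        tw₂ (heckeAlgebra.T hℓ hℓN hℓS) = d₂ * act₂ s ∧ NilMod (d₁ - 1) ∧ NilMod (d₂ - 1) ∧
        (∀ s', Commute d₁ (act₁ s')) ∧ (∀ s', Commute d₂ (act₂ s')) ∧
        θ (heckeAlgebra.T hℓ hℓN hℓS) = ev s) :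
    LocHyp O θ (prodTw O tw₁ tw₂) :=
  locHyp_prodTw_hecke_of_twist O ev act₁ act₂ h₁ h₂ θ tw₁ tw₂ hT
    (fun hq hqN hqS => absurd (hS _ hq hqN) hqS)

end Fermat.Agent.GB.B4.Datum.LocHypTwist
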