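/-
GATE-B / GB-B4-DATUM (helper12): **`R ↠ T_Q`** — the surjection from a deformation ring onto the
Hecke ring `T_Q`, carrying the universal deformation to `ρ_Q`.

`exists_psi`: `D : DeformationRingData 𝒪 ρbar 𝒟`, a datum `H` on the carrier `Tloc 𝒪 θ` of type `𝒟`
with residual representation `ρbar` (from `GB/Glue/DatumOfRhobar.exists_datum`), and a residually
`θ` Hecke hom `tw : heckeAlgebra N 2 S →+* T_Q` generating the local `𝒪`-algebra `T_Q`.  Then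
there is a SURJECTIVE local `𝒪`-algebra hom `ψ : D.R → T_Q` with
`D.ρ ⊗_ψ T_Q ≅ ρ_Q := H.ρ ⊗ T_Q` and `charpoly ρ_Q(Frob_ℓ) = X² - tw(T_ℓ) X + ℓ`.

Chain: S54 (`D.R ↠ Tloc`) ∘ `Carrier.lift` (`Tloc ↠ T_Q`) + transitivity of base change.
-/
import Fermat.Agent.GB.B4.Datum.PushTloc
import Fermat.Agent.GB.B4.Datum.Lift
import Fermat.Agent.GP.Top.S56OfGates
import Fermat.Agent.S54

set_option autoImplicit false
set_option linter.style.haveILetI false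
set_option linter.unusedSectionVars false

noncomputable section

namespace Fermat.Agent.GB.B4.Datum.PsiTQ

open CuspForm IsLocalRing Polynomial GaloisRep Fermat.Agent.GB.B4.Datum.Carrier
  Fermat.Agent.GB.B4.Datum.Push

local notation "GQ" => (AlgebraicClosure ℚ ≃ₐ[ℚ] AlgebraicClosure ℚ)
local notation "Qb" => AlgebraicClosure ℚ

variable {N : ℕ} [NeZero N] {S : Finset ℕ}
  {𝒪 : Type} [CommRing 𝒪] [IsDomain 𝒪] [IsDiscreteValuationRing 𝒪]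
  [IsAdicComplete (maximalIdeal 𝒪) 𝒪]
  {θ : heckeAlgebra N 2 (↑S : Set ℕ) →+* ResidueField 𝒪}
  {ρbar : ResidualGaloisRep (ResidueField 𝒪)}
  {𝒟 : ∀ ⦃A : Type⦄ [CommRing A] [IsLocalRing A] [Algebra 𝒪 A], GaloisRepAdic A → Prop}
  {TQ : Type} [CommRing TQ] [IsLocalRing TQ] [Algebra 𝒪 TQ] [IsLocalHom (algebraMap 𝒪 TQ)]

/-- **`ψ : R ↠ T_Q`.** -/
theorem exists_psi (D : DeformationRingData 𝒪 ρbar 𝒟)
    (hNS : ∀ q : ℕ, q.Prime → q ∣ N → q ∈ S)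
    (H : HeckeGaloisRepDatum N (↑S : Set ℕ) 𝒪 θ (Tloc 𝒪 θ)) (hπ : H.π = piT 𝒪 θ)
    (h𝒟 : 𝒟 H.ρ)
    (hres : H.ρ.residual.IsEquiv
      (ρbar.baseChangeAlong (ResidueField.map (algebraMap 𝒪 (Tloc 𝒪 θ)))))
    (tw : heckeAlgebra N 2 (↑S : Set ℕ) →+* TQ)
    (htw : ∀ t, residue TQ (tw t) = ResidueField.map (algebraMap 𝒪 TQ) (θ t))
    (hgen : Algebra.adjoin 𝒪 (Set.range tw) = ⊤) :
    ∃ (ψ : D.R →ₐ[𝒪] TQ) (hψ : IsLocalHom (ψ : D.R →+* TQ)) (ρQ : GaloisRepAdic TQ),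
      Function.Surjective ψ ∧
      (D.ρ.baseChangeAlong (ψ : D.R →+* TQ) hψ).IsEquiv ρQ ∧
      (∀ (ℓ : ℕ) (hℓ : ℓ.Prime) (hℓN : ¬ ℓ ∣ N) (hℓS : ℓ ∉ (↑S : Set ℕ))
        (A : ValuationSubring Qb), A.LiesOverPrime ℓ → ∀ σ : GQ, A.IsFrobeniusAt σ ℓ →
          LinearMap.charpoly (ρQ.ρ σ) =
            X ^ 2 - C (tw (heckeAlgebra.T hℓ hℓN hℓS)) * X + C ((ℓ : TQ))) := by
  obtain ⟨φ, hφsurj, hφ, ⟨e1⟩⟩ := Fermat.Agent.S54.result D H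
    (fun q hq hqN => Finset.mem_coe.mpr (hNS q hq hqN)) h𝒟 hres
  obtain ⟨lam, hlt, hlloc, hlsurj⟩ :=
    Fermat.Agent.GB.B4.Datum.PushTloc.exists_phi 𝒪 θ tw htw hgen
  have hcomp : IsLocalHom ((lam.comp φ : D.R →ₐ[𝒪] TQ) : D.R →+* TQ) :=
    Fermat.Agent.GP.Top.isLocalHom_comp' (φ : D.R →+* Tloc 𝒪 θ) hφ lam.toRingHom hlloc
  refine ⟨lam.comp φ, hcomp, pushRep H lam.toRingHom hlloc, ?_, ?_, ?_⟩
  · exact hlsurj.comp hφsurj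
  · have e2 := GaloisRepAdic.Equiv.baseChangeAlong lam.toRingHom hlloc e1
    obtain ⟨e3⟩ := Fermat.Agent.GP.Top.baseChangeAlong_comp_isEquiv D.ρ (φ : D.R →+* Tloc 𝒪 θ) hφ
      lam.toRingHom hlloc
    exact ⟨e3.symm.trans e2⟩
  · intro ℓ hℓ hℓN hℓS A hA σ hσ
    have h := charpoly_frob_push H lam.toRingHom hlloc ℓ hℓ hℓN hℓS A hA σ hσ
    rw [hπ] at h
    rw [h]
    congr 3
    exact congrArg _ (hlt _)

end Fermat.Agent.GB.B4.Datum.PsiTQ
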