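/-
GATE-B / GB-PNEW consumer side (helper32): **`R ↠ T_Q` when the deformation condition is known for
the PUSHED representation only.**

`PsiTQ.exists_psi` (helper12) factors `ψ : D.R → T_Q` through `S54 : D.R ↠ Tloc 𝒪 θ`, and therefore
asks the type `𝒟` of `H.ρ` over `Tloc 𝒪 θ`.  In the `p`-new branch `𝒟 ∋` strict ordinarity at `p`,
which GB-PNEW delivers for `ρ_Q = pushRep H φ` over `T_Q` ONLY (board 5850/5940/5972).  Here `ψ` is
built directly from the universal property of `D.R` applied to `ρ_Q`: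

* `exists_psi_of_type` : `T_Q` any complete Noetherian local `𝒪`-algebra with residue field that of
  `𝒪`, `ρ_Q` of type `𝒟` with residual representation `ρbar` and Eichler–Shimura relations for a
  generating Hecke hom `tw`; then `ψ : D.R ↠ T_Q` with `D.ρ ⊗_ψ T_Q ≅ ρ_Q`  (S54's proof verbatim);
* `exists_psi_of_push` : the twin of `PsiTQ.exists_psi` with the binder
  `h𝒟Q : ∀ φ hφ, Surjective φ → (∀ t, φ (piT t) = tw t) → 𝒟 (pushRep H φ hφ)`.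
-/
import Fermat.Agent.GB.B4.Datum.PsiTQ

set_option autoImplicit false
set_option linter.style.haveILetI false
set_option linter.unusedSectionVars false

noncomputable section

namespace Fermat.Agent.GB.B4.Datum.PsiTQPush

open CuspForm IsLocalRing Polynomial GaloisRep Fermat.Agent.GB.B4.Datum.Carrier
  Fermat.Agent.GB.B4.Datum.Push Fermat.Agent.GB.B4.Datum.PushTloc

local notation "GQ" => (AlgebraicClosure ℚ ≃ₐ[ℚ] AlgebraicClosure ℚ)
local notation "Qb" => AlgebraicClosure ℚ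

variable {N : ℕ} [NeZero N] {S : Finset ℕ}
  {𝒪 : Type} [CommRing 𝒪] [IsDomain 𝒪] [IsDiscreteValuationRing 𝒪]
  [IsAdicComplete (maximalIdeal 𝒪) 𝒪]
  {θ : heckeAlgebra N 2 (↑S : Set ℕ) →+* ResidueField 𝒪}
  {ρbar : ResidualGaloisRep (ResidueField 𝒪)}
  {𝒟 : ∀ ⦃A : Type⦄ [CommRing A] [IsLocalRing A] [Algebra 𝒪 A], GaloisRepAdic A → Prop}
  {TQ : Type} [CommRing TQ] [IsLocalRing TQ] [IsNoetherianRing TQ]
  [IsAdicComplete (maximalIdeal TQ) TQ] [Algebra 𝒪 TQ] [IsLocalHom (algebraMap 𝒪 TQ)]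

/-- **`ψ : R ↠ T_Q` from a representation of type `𝒟` over `T_Q`** (S54's argument for a ring which
is not the carrier of a Hecke–Galois datum). -/
theorem exists_psi_of_type (D : DeformationRingData 𝒪 ρbar 𝒟)
    (hNS : ∀ q : ℕ, q.Prime → q ∣ N → q ∈ S)
    (hressurj : Function.Surjective (residue TQ ∘ algebraMap 𝒪 TQ))
    (ρQ : GaloisRepAdic TQ) (h𝒟 : 𝒟 ρQ)
    (hres : ρQ.residual.IsEquiv (ρbar.baseChangeAlong (ResidueField.map (algebraMap 𝒪 TQ))))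
    (tw : heckeAlgebra N 2 (↑S : Set ℕ) →+* TQ)
    (hgen : Algebra.adjoin 𝒪 (Set.range tw) = ⊤)
    (hchar : ∀ (ℓ : ℕ) (hℓ : ℓ.Prime) (hℓN : ¬ ℓ ∣ N) (hℓS : ℓ ∉ (↑S : Set ℕ))
      (A : ValuationSubring Qb), A.LiesOverPrime ℓ → ∀ σ : GQ, A.IsFrobeniusAt σ ℓ →
        LinearMap.charpoly (ρQ.ρ σ) =
          X ^ 2 - C (tw (heckeAlgebra.T hℓ hℓN hℓS)) * X + C ((ℓ : TQ))) :
    ∃ (ψ : D.R →ₐ[𝒪] TQ) (hψ : IsLocalHom (ψ : D.R →+* TQ)), Function.Surjective ψ ∧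
      (D.ρ.baseChangeAlong (ψ : D.R →+* TQ) hψ).IsEquiv ρQ := by
  obtain ⟨ψ, hψ, ⟨e⟩⟩ := (D.universal TQ hressurj ρQ h𝒟 hres).exists
  refine ⟨ψ, hψ, ?_, ⟨e⟩⟩
  have hTmem : ∀ (ℓ : ℕ) (hℓ : ℓ.Prime) (hℓN : ¬ ℓ ∣ N) (hℓS : ℓ ∉ (↑S : Set ℕ)),
      tw (heckeAlgebra.T hℓ hℓN hℓS) ∈ ψ.range.toSubring := by
    intro ℓ hℓ hℓN hℓS
    obtain ⟨A, σ, hA, hσ⟩ := Fermat.Agent.Common_helper32.exists_isFrobeniusAt ℓ hℓ
    have h1 := hchar ℓ hℓ hℓN hℓS A hA σ hσ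
    have h2 := Fermat.Agent.S54.charpoly_eq_of_equiv e σ
    have h3 := Fermat.Agent.S54.charpoly_baseChangeAlong (ψ : D.R →+* TQ) hψ D.ρ σ
    rw [h2, h3] at h1
    have h4 := congrArg (fun P : TQ[X] => P.coeff 1) h1
    simp only [coeff_map, coeff_add, coeff_sub, coeff_X_pow, coeff_C_mul, coeff_X_one,
      coeff_C] at h4
    norm_num at h4
    refine ⟨-(LinearMap.charpoly (D.ρ.ρ σ)).coeff 1, ?_⟩
    rw [map_neg]
    simpa using congrArg Neg.neg h4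
  have hrange : Set.range tw ⊆ (ψ.range : Set TQ) := by
    rintro _ ⟨t, rfl⟩
    exact Fermat.Agent.S54.pi_mem_of_T_mem tw
      (fun q hq hqN => Finset.mem_coe.mpr (hNS q hq hqN)) ψ.range.toSubring hTmem t
  have htop : ψ.range = ⊤ := by
    apply top_unique
    rw [← hgen]
    exact Algebra.adjoin_le hrange
  intro y
  have hy : y ∈ ψ.range := htop ▸ Algebra.mem_top
  exact hy

/-- **`ψ : R ↠ T_Q`, the type asked of the pushed representation only** (twin of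
`PsiTQ.exists_psi`; no hypothesis on the type of `H.ρ` over `Tloc 𝒪 θ`). -/
theorem exists_psi_of_push (D : DeformationRingData 𝒪 ρbar 𝒟)
    (hNS : ∀ q : ℕ, q.Prime → q ∣ N → q ∈ S)
    (H : HeckeGaloisRepDatum N (↑S : Set ℕ) 𝒪 θ (Tloc 𝒪 θ)) (hπ : H.π = piT 𝒪 θ)
    (hres : H.ρ.residual.IsEquiv
      (ρbar.baseChangeAlong (ResidueField.map (algebraMap 𝒪 (Tloc 𝒪 θ)))))
    (tw : heckeAlgebra N 2 (↑S : Set ℕ) →+* TQ)
    (htw : ∀ t, residue TQ (tw t) = ResidueField.map (algebraMap 𝒪 TQ) (θ t))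
    (hgen : Algebra.adjoin 𝒪 (Set.range tw) = ⊤)
    (hressurj : Function.Surjective (residue TQ ∘ algebraMap 𝒪 TQ))
    (h𝒟Q : ∀ (φ : Tloc 𝒪 θ →ₐ[𝒪] TQ) (hφ : IsLocalHom φ.toRingHom),
      Function.Surjective φ → (∀ t, φ (piT 𝒪 θ t) = tw t) → 𝒟 (pushRep H φ.toRingHom hφ)) :
    ∃ (ψ : D.R →ₐ[𝒪] TQ) (hψ : IsLocalHom (ψ : D.R →+* TQ)) (ρQ : GaloisRepAdic TQ),
      Function.Surjective ψ ∧
      (D.ρ.baseChangeAlong (ψ : D.R →+* TQ) hψ).IsEquiv ρQ ∧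
      (∀ (ℓ : ℕ) (hℓ : ℓ.Prime) (hℓN : ¬ ℓ ∣ N) (hℓS : ℓ ∉ (↑S : Set ℕ))
        (A : ValuationSubring Qb), A.LiesOverPrime ℓ → ∀ σ : GQ, A.IsFrobeniusAt σ ℓ →
          LinearMap.charpoly (ρQ.ρ σ) =
            X ^ 2 - C (tw (heckeAlgebra.T hℓ hℓN hℓS)) * X + C ((ℓ : TQ))) := by
  obtain ⟨lam, hlt, hlloc, hlsurj⟩ := exists_phi 𝒪 θ tw htw hgen
  have hchar : ∀ (ℓ : ℕ) (hℓ : ℓ.Prime) (hℓN : ¬ ℓ ∣ N) (hℓS : ℓ ∉ (↑S : Set ℕ))
      (A : ValuationSubring Qb), A.LiesOverPrime ℓ → ∀ σ : GQ, A.IsFrobeniusAt σ ℓ →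
        LinearMap.charpoly ((pushRep H lam.toRingHom hlloc).ρ σ) =
          X ^ 2 - C (tw (heckeAlgebra.T hℓ hℓN hℓS)) * X + C ((ℓ : TQ)) := by
    intro ℓ hℓ hℓN hℓS A hA σ hσ
    have h := charpoly_frob_push H lam.toRingHom hlloc ℓ hℓ hℓN hℓS A hA σ hσ
    rw [hπ] at h
    rw [h]
    congr 3
    exact congrArg _ (hlt _)
  have hresQ : (pushRep H lam.toRingHom hlloc).residual.IsEquiv
      (ρbar.baseChangeAlong (ResidueField.map (algebraMap 𝒪 TQ))) := by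
    have h := residual_push H.ρ lam.toRingHom hlloc ρbar
      (ResidueField.map (algebraMap 𝒪 (Tloc 𝒪 θ))) hres
    haveI := hlloc
    have e : (ResidueField.map lam.toRingHom).comp
        (ResidueField.map (algebraMap 𝒪 (Tloc 𝒪 θ))) = ResidueField.map (algebraMap 𝒪 TQ) := by
      ext x
      obtain ⟨a, rfl⟩ := residue_surjective x
      rw [RingHom.comp_apply, ResidueField.map_residue, ResidueField.map_residue,
        ResidueField.map_residue]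
      congr 1
      exact lam.commutes a
    rw [e] at h
    exact h
  obtain ⟨ψ, hψ, hsurj, he⟩ := exists_psi_of_type D hNS hressurj
    (pushRep H lam.toRingHom hlloc) (h𝒟Q lam hlloc hlsurj hlt) hresQ tw hgen hchar
  exact ⟨ψ, hψ, pushRep H lam.toRingHom hlloc, hsurj, he, hchar⟩

end Fermat.Agent.GB.B4.Datum.PsiTQPush
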