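/-
GATE-B / GB-B4-TQ (helper12), plug theorem: **the Galois representation over `T_Q`** in one call.

Inputs: an absolutely irreducible `ρbar` with the Frobenius characteristic polynomials of the
residual eigensystem `θ` of `heckeAlgebra N 2 S` (SETUP), and an `End`-valued (twisted) Hecke
action `tw : heckeAlgebra N 2 S →+* End_𝒪 M` on a nonzero finite free `𝒪`-module satisfying the
localisation hypothesis `LocHyp 𝒪 θ tw` (B3/B4-TWIST).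

Output, flat case `p ∤ N`: over the LOCAL ring `TQ 𝒪 θ tw` (`GB/B4/Datum/ImageRing`) a
`ρ_Q : GaloisRepAdic (TQ 𝒪 θ tw)` with `charpoly ρ_Q(Frob_ℓ) = X² - chi(T_ℓ) X + ℓ`, cyclotomic
determinant, the S56-shaped flat condition, unipotent inertia at the primes of `Smin`, and
residual representation `ρbar`.

Chain: `GB/Glue/DatumOfRhobar.exists_datum` (helper36) on the carrier `Tloc 𝒪 θ`
⟹ `Carrier.exists_lift` ⟹ `PushTloc.exists_galRep_flat` (helper32).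
-/
import Fermat.Agent.GB.B4.Datum.ImageRing
import Fermat.Agent.GB.B4.Datum.PushTloc
import Fermat.Agent.GB.Glue.DatumOfRhobar

set_option autoImplicit false
set_option linter.style.haveILetI false
set_option linter.unusedSectionVars false

noncomputable section

namespace Fermat.Agent.GB.B4.Datum.TQGal

open CuspForm IsLocalRing Polynomial Fermat.Agent.GB.B4.Datum.Carrier
  Fermat.Agent.GB.B4.Datum.ImageRing Fermat.Agent.GB.B4.Datum.Push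

local notation "GQ" => (AlgebraicClosure ℚ ≃ₐ[ℚ] AlgebraicClosure ℚ)
local notation "Qb" => AlgebraicClosure ℚ

variable {p : ℕ} {N : ℕ} [NeZero N] {S : Finset ℕ}
  {𝒪 : Type} [CommRing 𝒪] [IsDomain 𝒪] [IsDiscreteValuationRing 𝒪]
  [IsAdicComplete (maximalIdeal 𝒪) 𝒪] [Finite (ResidueField 𝒪)] [CharZero 𝒪]
  {θ : heckeAlgebra N 2 (↑S : Set ℕ) →+* ResidueField 𝒪}

/-- **GalPkg over ANY local `𝒪`-algebra `T_Q` generated by a residually-`θ` Hecke hom, flat case,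
from `ρbar`** (no datum binder: the datum is `GB/Glue/DatumOfRhobar.exists_datum`). -/
theorem exists_galRep_flat_of_rhobar
    {TQ : Type} [CommRing TQ] [IsLocalRing TQ] [Algebra 𝒪 TQ] [IsLocalHom (algebraMap 𝒪 TQ)]
    (hp : p.Prime) (hp2 : p ≠ 2)
    (hp𝒪 : (p : 𝒪) ∈ maximalIdeal 𝒪) (hpN : ¬ p ∣ N) (hpS : p ∈ S)
    (hNS : ∀ q : ℕ, q.Prime → q ∣ N → q ∈ S)
    (ρbar : ResidualGaloisRep (ResidueField 𝒪)) (habs : ρbar.IsAbsolutelyIrreducible)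
    (hfrob : ∀ (ℓ : ℕ) (hℓ : ℓ.Prime) (hℓN : ¬ ℓ ∣ N) (hℓS : ℓ ∉ (↑S : Set ℕ)),
      ∀ P : ValuationSubring Qb, P.LiesOverPrime ℓ → ∀ σ : GQ, P.IsFrobeniusAt σ ℓ →
        ∃ d₀ : ResidueField 𝒪, LinearMap.charpoly (ρbar.ρ σ) =
          X ^ 2 - C (θ (heckeAlgebra.T hℓ hℓN hℓS)) * X + C d₀)
    (tw : heckeAlgebra N 2 (↑S : Set ℕ) →+* TQ)
    (hres : ∀ t, residue TQ (tw t) = ResidueField.map (algebraMap 𝒪 TQ) (θ t))
    (hgen : Algebra.adjoin 𝒪 (Set.range tw) = ⊤)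
    (Tram Smin : Finset ℕ) (hST : S ⊆ Tram)
    (hSmin : ∀ q ∈ Smin, q.Prime → q ≠ p → q ∣ N ∧ ¬ q ^ 2 ∣ N) :
    ∃ ρQ : GaloisRepAdic TQ,
      (∀ (ℓ : ℕ) (hℓ : ℓ.Prime) (hℓN : ¬ ℓ ∣ N) (hℓS : ℓ ∉ (↑S : Set ℕ))
        (A : ValuationSubring Qb), A.LiesOverPrime ℓ → ∀ σ : GQ, A.IsFrobeniusAt σ ℓ →
          LinearMap.charpoly (ρQ.ρ σ) =
            X ^ 2 - C (tw (heckeAlgebra.T hℓ hℓN hℓS)) * X + C ((ℓ : TQ))) ∧
      ρQ.DetIsCyclotomic p ∧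
      (∀ q : ℕ, q.Prime → q ∉ S → ρQ.IsUnramifiedAt q) ∧
      GaloisRep.flatCondition 𝒪 p Tram ρQ ∧
      (∀ q ∈ Smin, q.Prime → q ≠ p → ρQ.IsUnipotentOnInertiaAt q) ∧
      ρQ.residual.IsEquiv (ρbar.baseChangeAlong (ResidueField.map (algebraMap 𝒪 TQ))) := by
  haveI : Fact p.Prime := ⟨hp⟩
  obtain ⟨H, hπ, -, -, hres'⟩ :=
    Fermat.Agent.GB.Glue.DatumOfRhobar.exists_datum p N S 𝒪 θ hp2 hpS hNS hp𝒪 ρbar habs hfrob
  obtain ⟨φ, hφ, -, -, hchar, hflat, hunip⟩ :=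
    Fermat.Agent.GB.B4.Datum.PushTloc.exists_galRep_flat (TQ := TQ) hp hp2 hp𝒪 hpN hpS hNS
      H hπ tw hres hgen Tram Smin hST hSmin
  refine ⟨pushRep H φ.toRingHom hφ, hchar, detIsCyclotomic_push hp hp𝒪 hpS H φ.toRingHom hφ,
    fun q hq hqS => isUnramifiedAt_push hp hp𝒪 hpS hNS H φ.toRingHom hφ q hq hqS,
    hflat, hunip, ?_⟩
  have h := Fermat.Agent.GB.B4.Datum.PushTloc.residual_push H.ρ φ.toRingHom hφ ρbar
    (ResidueField.map (algebraMap 𝒪 (Tloc 𝒪 θ))) hres'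
  haveI := hφ
  have e : (ResidueField.map φ.toRingHom).comp (ResidueField.map (algebraMap 𝒪 (Tloc 𝒪 θ))) =
      ResidueField.map (algebraMap 𝒪 TQ) := by
    ext x
    obtain ⟨a, rfl⟩ := residue_surjective x
    rw [RingHom.comp_apply, ResidueField.map_residue, ResidueField.map_residue,
      ResidueField.map_residue]
    congr 1
    exact φ.commutes a
  rw [e] at h
  exact h

variable {M : Type} [AddCommGroup M] [Module 𝒪 M] [Module.Finite 𝒪 M] [Module.Free 𝒪 M]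
  [Nontrivial M] {tw : heckeAlgebra N 2 (↑S : Set ℕ) →+* Module.End 𝒪 M}

/-- **GalPkg over the image ring `TQ 𝒪 θ tw` of an `End`-valued Hecke action, flat case.** -/
theorem exists_galRep_TQ_flat [hloc : Fact (LocHyp 𝒪 θ tw)] (hp : p.Prime) (hp2 : p ≠ 2)
    (hp𝒪 : (p : 𝒪) ∈ maximalIdeal 𝒪) (hpN : ¬ p ∣ N) (hpS : p ∈ S)
    (hNS : ∀ q : ℕ, q.Prime → q ∣ N → q ∈ S)
    (ρbar : ResidualGaloisRep (ResidueField 𝒪)) (habs : ρbar.IsAbsolutelyIrreducible)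
    (hfrob : ∀ (ℓ : ℕ) (hℓ : ℓ.Prime) (hℓN : ¬ ℓ ∣ N) (hℓS : ℓ ∉ (↑S : Set ℕ)),
      ∀ P : ValuationSubring Qb, P.LiesOverPrime ℓ → ∀ σ : GQ, P.IsFrobeniusAt σ ℓ →
        ∃ d₀ : ResidueField 𝒪, LinearMap.charpoly (ρbar.ρ σ) =
          X ^ 2 - C (θ (heckeAlgebra.T hℓ hℓN hℓS)) * X + C d₀)
    (Tram Smin : Finset ℕ) (hST : S ⊆ Tram)
    (hSmin : ∀ q ∈ Smin, q.Prime → q ≠ p → q ∣ N ∧ ¬ q ^ 2 ∣ N) :
    ∃ ρQ : GaloisRepAdic (TQ 𝒪 θ tw),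
      (∀ (ℓ : ℕ) (hℓ : ℓ.Prime) (hℓN : ¬ ℓ ∣ N) (hℓS : ℓ ∉ (↑S : Set ℕ))
        (A : ValuationSubring Qb), A.LiesOverPrime ℓ → ∀ σ : GQ, A.IsFrobeniusAt σ ℓ →
          LinearMap.charpoly (ρQ.ρ σ) =
            X ^ 2 - C (chi 𝒪 θ tw (heckeAlgebra.T hℓ hℓN hℓS)) * X
              + C ((ℓ : TQ 𝒪 θ tw))) ∧
      ρQ.DetIsCyclotomic p ∧
      (∀ q : ℕ, q.Prime → q ∉ S → ρQ.IsUnramifiedAt q) ∧
      GaloisRep.flatCondition 𝒪 p Tram ρQ ∧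
      (∀ q ∈ Smin, q.Prime → q ≠ p → ρQ.IsUnipotentOnInertiaAt q) ∧
      ρQ.residual.IsEquiv
        (ρbar.baseChangeAlong (ResidueField.map (algebraMap 𝒪 (TQ 𝒪 θ tw)))) :=
  exists_galRep_flat_of_rhobar hp hp2 hp𝒪 hpN hpS hNS ρbar habs hfrob (chi 𝒪 θ tw)
    (fun t => residue_chi (θ := θ) (tw := tw) t) (adjoin_range_chi 𝒪 θ tw) Tram Smin hST hSmin

end Fermat.Agent.GB.B4.Datum.TQGal
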