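/-
GATE-B / GB-PNEW consumer side (helper32): **the strict-ordinary GalPkg over `T_Q` with the
STRICTQ binder** (ruling R6, board 5972).

In the `p`-new branch the representation `H.ρ` over `Tloc 𝒪 θ` at the twisted level `N_Q` is NOT
known to be strictly ordinary (no unit old-killer, board 5850/5940); what GB-PNEW delivers is strict
ordinarity of the PUSHED representation `ρ_Q = pushRep H φ` only
(`GB/B10/L/PushLevels.isStrictOrdinaryAt_push_of_levels`).  This file restates the strict twins of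
`Push.strictCond_push`, `PushTloc.exists_galRep_strict` and `TQGal.exists_galRep_flat_of_rhobar`
with that binder:

* `strictCond_push_of_push` : `𝒟SO ρ_Q` from `(pushRep H φ hφ).IsStrictOrdinaryAt p`;
* `exists_galRep_strict_of_push` : GalPkg, strict case, binder
  `hstrictQ : ∀ φ hφ, Surjective φ → (∀ t, φ (piT t) = tw t) → (pushRep H φ hφ).IsStrictOrdinaryAt p`;
* `exists_galRep_strict_of_rhobar` : the same from `ρbar` (datum of `DatumOfRhobar.exists_datum`),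
  the binder quantified over the data `H` with `H.π = piT` and residual representation `ρbar`.
-/
import Fermat.Agent.GB.B4.Datum.TQGal

set_option autoImplicit false
set_option linter.style.haveILetI false
set_option linter.unusedSectionVars false

noncomputable section

namespace Fermat.Agent.GB.B4.Datum.PushStrictQ

open CuspForm IsLocalRing Polynomial Fermat.Agent.GB.B4.Datum.Carrier
  Fermat.Agent.GB.B4.Datum.Push Fermat.Agent.GB.B4.Datum.PushTloc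

local notation "GQ" => (AlgebraicClosure ℚ ≃ₐ[ℚ] AlgebraicClosure ℚ)
local notation "Qb" => AlgebraicClosure ℚ

section Push

variable {p : ℕ} {N : ℕ} [NeZero N] {S : Finset ℕ}
  {𝒪 : Type} [CommRing 𝒪] [IsDomain 𝒪] [IsDiscreteValuationRing 𝒪]
  [IsAdicComplete (IsLocalRing.maximalIdeal 𝒪) 𝒪]
  {θ : CuspForm.heckeAlgebra N 2 (↑S : Set ℕ) →+* IsLocalRing.ResidueField 𝒪}
  {T : Type} [CommRing T] [IsLocalRing T] [IsNoetherianRing T]
  [IsAdicComplete (IsLocalRing.maximalIdeal T) T] [Algebra 𝒪 T] [IsLocalHom (algebraMap 𝒪 T)]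
  [Module.Finite 𝒪 T] [Module.Free 𝒪 T]
  {TQ : Type} [CommRing TQ] [IsLocalRing TQ] [Algebra 𝒪 TQ]

/-- **`𝒟SO ρ_Q`** from strict ordinarity of the PUSHED representation (binder). -/
theorem strictCond_push_of_push [Finite (ResidueField 𝒪)] [CharZero 𝒪] (hp : p.Prime)
    (hp𝒪 : (p : 𝒪) ∈ IsLocalRing.maximalIdeal 𝒪) (hpS : p ∈ S)
    (hNS : ∀ q : ℕ, q.Prime → q ∣ N → q ∈ S)
    (H : HeckeGaloisRepDatum N (↑S : Set ℕ) 𝒪 θ T) (φ : T →+* TQ) (hφ : IsLocalHom φ)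
    (hstrict : (pushRep H φ hφ).IsStrictOrdinaryAt p) (Tram Smin : Finset ℕ) (hST : S ⊆ Tram)
    (hSmin : ∀ q ∈ Smin, q.Prime → q ≠ p → q ∣ N ∧ ¬ q ^ 2 ∣ N) :
    GaloisRep.strictOrdinaryCondition 𝒪 p Tram (pushRep H φ hφ) ∧
      ∀ q ∈ Smin, q.Prime → q ≠ p → (pushRep H φ hφ).IsUnipotentOnInertiaAt q :=
  ⟨⟨detIsCyclotomic_push hp hp𝒪 hpS H φ hφ, hstrict,
      fun q hq hqT => isUnramifiedAt_push hp hp𝒪 hpS hNS H φ hφ q hq (fun h => hqT (hST h))⟩,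
    fun q hqm hq hqp => isUnipotentOnInertiaAt_push hp hp𝒪 hpS hNS H φ hφ q hq hqp
      (hSmin q hqm hq hqp).1 (hSmin q hqm hq hqp).2⟩

end Push

section Gal

variable {p : ℕ} {N : ℕ} [NeZero N] {S : Finset ℕ}
  {𝒪 : Type} [CommRing 𝒪] [IsDomain 𝒪] [IsDiscreteValuationRing 𝒪]
  [IsAdicComplete (IsLocalRing.maximalIdeal 𝒪) 𝒪]
  {θ : CuspForm.heckeAlgebra N 2 (↑S : Set ℕ) →+* IsLocalRing.ResidueField 𝒪}
  {TQ : Type} [CommRing TQ] [IsLocalRing TQ] [Algebra 𝒪 TQ] [IsLocalHom (algebraMap 𝒪 TQ)]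

/-- **GalPkg, strict-ordinary case, STRICTQ binder**: strict ordinarity is asked of the pushed
representation only, for every surjective local `φ` with `φ ∘ piT = tw`. -/
theorem exists_galRep_strict_of_push [Finite (ResidueField 𝒪)] [CharZero 𝒪] (hp : p.Prime)
    (hp𝒪 : (p : 𝒪) ∈ IsLocalRing.maximalIdeal 𝒪) (hpS : p ∈ S)
    (hNS : ∀ q : ℕ, q.Prime → q ∣ N → q ∈ S)
    (H : HeckeGaloisRepDatum N (↑S : Set ℕ) 𝒪 θ (Tloc 𝒪 θ)) (hπ : H.π = piT 𝒪 θ)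
    (tw : heckeAlgebra N 2 (↑S : Set ℕ) →+* TQ)
    (hres : ∀ t, residue TQ (tw t) = ResidueField.map (algebraMap 𝒪 TQ) (θ t))
    (hgen : Algebra.adjoin 𝒪 (Set.range tw) = ⊤)
    (hstrictQ : ∀ (φ : Tloc 𝒪 θ →ₐ[𝒪] TQ) (hφ : IsLocalHom φ.toRingHom),
      Function.Surjective φ → (∀ t, φ (piT 𝒪 θ t) = tw t) →
        (pushRep H φ.toRingHom hφ).IsStrictOrdinaryAt p)
    (Tram Smin : Finset ℕ) (hST : S ⊆ Tram)
    (hSmin : ∀ q ∈ Smin, q.Prime → q ≠ p → q ∣ N ∧ ¬ q ^ 2 ∣ N) :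
    ∃ (φ : Tloc 𝒪 θ →ₐ[𝒪] TQ) (hφ : IsLocalHom φ.toRingHom), Function.Surjective φ ∧
      (∀ t, φ (piT 𝒪 θ t) = tw t) ∧
      (∀ (ℓ : ℕ) (hℓ : ℓ.Prime) (hℓN : ¬ ℓ ∣ N) (hℓS : ℓ ∉ (↑S : Set ℕ))
        (A : ValuationSubring (AlgebraicClosure ℚ)), A.LiesOverPrime ℓ → ∀ σ : GQ,
        A.IsFrobeniusAt σ ℓ →
          LinearMap.charpoly ((pushRep H φ.toRingHom hφ).ρ σ) =
            X ^ 2 - C (tw (heckeAlgebra.T hℓ hℓN hℓS)) * X + C ((ℓ : TQ))) ∧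
      (GaloisRep.strictOrdinaryCondition 𝒪 p Tram (pushRep H φ.toRingHom hφ) ∧
        ∀ q ∈ Smin, q.Prime → q ≠ p → (pushRep H φ.toRingHom hφ).IsUnipotentOnInertiaAt q) := by
  obtain ⟨φ, hφt, hloc, hsurj⟩ := exists_phi 𝒪 θ tw hres hgen
  refine ⟨φ, hloc, hsurj, hφt, ?_, ?_⟩
  · intro ℓ hℓ hℓN hℓS A hA σ hσ
    have h := charpoly_frob_push H φ.toRingHom hloc ℓ hℓ hℓN hℓS A hA σ hσ
    rw [hπ] at h
    rw [h]
    congr 3
    exact congrArg _ (hφt _)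
  · exact strictCond_push_of_push hp hp𝒪 hpS hNS H φ.toRingHom hloc
      (hstrictQ φ hloc hsurj hφt) Tram Smin hST hSmin

/-- **GalPkg over `T_Q`, strict-ordinary case, from `ρbar`** (the strict twin of
`TQGal.exists_galRep_flat_of_rhobar`): the STRICTQ binder is quantified over the data `H` on the
carrier `Tloc 𝒪 θ` with `H.π = piT` and residual representation `ρbar`. -/
theorem exists_galRep_strict_of_rhobar [Finite (ResidueField 𝒪)] [CharZero 𝒪]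
    (hp : p.Prime) (hp2 : p ≠ 2)
    (hp𝒪 : (p : 𝒪) ∈ maximalIdeal 𝒪) (hpS : p ∈ S)
    (hNS : ∀ q : ℕ, q.Prime → q ∣ N → q ∈ S)
    (ρbar : ResidualGaloisRep (ResidueField 𝒪)) (habs : ρbar.IsAbsolutelyIrreducible)
    (hfrob : ∀ (ℓ : ℕ) (hℓ : ℓ.Prime) (hℓN : ¬ ℓ ∣ N) (hℓS : ℓ ∉ (↑S : Set ℕ)),
      ∀ P : ValuationSubring Qb, P.LiesOverPrime ℓ → ∀ σ : GQ, P.IsFrobeniusAt σ ℓ →
        ∃ d₀ : ResidueField 𝒪, LinearMap.charpoly (ρbar.ρ σ) =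
          X ^ 2 - C (θ (heckeAlgebra.T hℓ hℓN hℓS)) * X + C d₀)
    (tw : heckeAlgebra N 2 (↑S : Set ℕ) →+* TQ)
    (hres : ∀ t, residue TQ (tw t) = ResidueField.map (algebraMap 𝒪 TQ) (θ t))
    (hgen : Algebra.adjoin 𝒪 (Set.range tw) = ⊤)
    (hstrictQ : ∀ (H : HeckeGaloisRepDatum N (↑S : Set ℕ) 𝒪 θ (Tloc 𝒪 θ)), H.π = piT 𝒪 θ →
      H.ρ.residual.IsEquiv
        (ρbar.baseChangeAlong (ResidueField.map (algebraMap 𝒪 (Tloc 𝒪 θ)))) →
      ∀ (φ : Tloc 𝒪 θ →ₐ[𝒪] TQ) (hφ : IsLocalHom φ.toRingHom),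
        Function.Surjective φ → (∀ t, φ (piT 𝒪 θ t) = tw t) →
          (pushRep H φ.toRingHom hφ).IsStrictOrdinaryAt p)
    (Tram Smin : Finset ℕ) (hST : S ⊆ Tram)
    (hSmin : ∀ q ∈ Smin, q.Prime → q ≠ p → q ∣ N ∧ ¬ q ^ 2 ∣ N) :
    ∃ ρQ : GaloisRepAdic TQ,
      (∀ (ℓ : ℕ) (hℓ : ℓ.Prime) (hℓN : ¬ ℓ ∣ N) (hℓS : ℓ ∉ (↑S : Set ℕ))
        (A : ValuationSubring Qb), A.LiesOverPrime ℓ → ∀ σ : GQ, A.IsFrobeniusAt σ ℓ →
          LinearMap.charpoly (ρQ.ρ σ) =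
            X ^ 2 - C (tw (heckeAlgebra.T hℓ hℓN hℓS)) * X + C ((ℓ : TQ))) ∧
      ρQ.DetIsCyclotomic p ∧
      (∀ q : ℕ, q.Prime → q ∉ S → ρQ.IsUnramifiedAt q) ∧
      GaloisRep.strictOrdinaryCondition 𝒪 p Tram ρQ ∧
      (∀ q ∈ Smin, q.Prime → q ≠ p → ρQ.IsUnipotentOnInertiaAt q) ∧
      ρQ.residual.IsEquiv (ρbar.baseChangeAlong (ResidueField.map (algebraMap 𝒪 TQ))) := by
  haveI : Fact p.Prime := ⟨hp⟩
  obtain ⟨H, hπ, -, -, hres'⟩ :=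
    Fermat.Agent.GB.Glue.DatumOfRhobar.exists_datum p N S 𝒪 θ hp2 hpS hNS hp𝒪 ρbar habs hfrob
  obtain ⟨φ, hφ, -, -, hchar, hstr, hunip⟩ :=
    exists_galRep_strict_of_push (TQ := TQ) hp hp𝒪 hpS hNS H hπ tw hres hgen
      (hstrictQ H hπ hres') Tram Smin hST hSmin
  refine ⟨pushRep H φ.toRingHom hφ, hchar, detIsCyclotomic_push hp hp𝒪 hpS H φ.toRingHom hφ,
    fun q hq hqS => isUnramifiedAt_push hp hp𝒪 hpS hNS H φ.toRingHom hφ q hq hqS,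
    hstr, hunip, ?_⟩
  have h := residual_push H.ρ φ.toRingHom hφ ρbar
    (ResidueField.map (algebraMap 𝒪 (Tloc 𝒪 θ))) hres'
  haveI := hφ
  have e : (ResidueField.map φ.toRingHom).comp (ResidueField.map (algebraMap 𝒪 (Tloc 𝒪 θ))) =
      ResidueField.map (algebraMap 𝒪 TQ) := by
    ext x
    obtain ⟨a, rfl⟩ := residue_surjective x
    rw [RingHom.comp_apply, ResidueField.map_residue, ResidueField.map_residue,
      ResidueField.map_residue]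
    congr 1
    exact φ.commutes a
  rw [e] at h
  exact h

end Gal

end Fermat.Agent.GB.B4.Datum.PushStrictQ
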