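/-
GATE-B / GB-B4-DATUM (helper12), D1c: **existence of a Hecke–Galois datum**.

`exists_datum`: for `p` odd, `S ∋ p` containing the primes of the level `N`, a complete DVR `𝒪`
(char 0, finite residue field, `p ∈ 𝔪`) and a residual eigencharacter `θ` of the anemic Hecke
algebra, there is a FULL `CuspForm.HeckeGaloisRepDatum N S 𝒪 θ (Tloc 𝒪 θ)` with `π = piT 𝒪 θ`
— as soon as the residual representations of the points are absolutely irreducible (binder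
`ResAbsIrrAt`, a Brauer–Nesbitt statement about `ρ̄`).

Wiring: `Tloc` is reduced (Petersson, `GS/Pet`) ⟹ helper83's DVR points `ψ q : Tloc → Rq q`
(`GB/Glue/Points`) ⟹ S30 at every point ⟹ helper36's `exists_glue_adic_odd` (`GB/Glue/Odd`) ⟹
`mkDatum`.
-/
import Fermat.Agent.GB.B4.Datum.HeckeCarrier
import Fermat.Agent.GB.Glue.Points
import Fermat.Agent.GB.Glue.Odd
import Fermat.Agent.GS.Pet.Reduced
import Fermat.Agent.GS.Pet.DatumAlg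
import Fermat.Agent.GJ.Tate.S31Dens
import Fermat.Agent.S30

set_option autoImplicit false
set_option linter.style.haveILetI false
set_option linter.unusedSectionVars false

noncomputable section

namespace Fermat.Agent.GB.B4.Datum.Rho

open CuspForm IsLocalRing Polynomial Fermat.Agent.GB.B4.Datum.Carrier
  Fermat.Agent.GB.B4.Datum.HeckeCarrier Fermat.Agent.GB.Glue.Points

local notation "GQ" => (AlgebraicClosure ℚ ≃ₐ[ℚ] AlgebraicClosure ℚ)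
local notation "Qb" => AlgebraicClosure ℚ

variable {N : ℕ} [NeZero N] {S : Finset ℕ}
  (𝒪 : Type) [CommRing 𝒪] [IsDomain 𝒪] [IsDiscreteValuationRing 𝒪]
  [IsAdicComplete (maximalIdeal 𝒪) 𝒪]
  (θ : heckeAlgebra N 2 (↑S : Set ℕ) →+* ResidueField 𝒪)

/-- **the residual binder**: every adic representation over a local ring `R` under the carrier
whose Frobenius characteristic polynomials are those of the Hecke eigensystem is residually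
absolutely irreducible.  (Brauer–Nesbitt + Chebotarev for an absolutely irreducible `ρ̄` with
eigensystem `θ`.) -/
def ResAbsIrrAt : Prop :=
  ∀ (R : Type) [CommRing R] [IsLocalRing R] (f : Tloc 𝒪 θ →+* R), IsLocalHom f →
    ∀ ρ : GaloisRepAdic R,
      (∀ (ℓ : ℕ) (hℓ : ℓ.Prime) (hℓN : ¬ ℓ ∣ N) (hℓS : ℓ ∉ (↑S : Set ℕ)),
        ∀ A : ValuationSubring Qb, A.LiesOverPrime ℓ → ∀ σ : GQ, A.IsFrobeniusAt σ ℓ →
          LinearMap.charpoly (ρ.ρ σ) =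
            X ^ 2 - C (f (piT 𝒪 θ (heckeAlgebra.T hℓ hℓN hℓS))) * X + C ((ℓ : R))) →
      ρ.residual.IsAbsolutelyIrreducible

variable [CharZero 𝒪]

/-- the carrier is reduced (Petersson). -/
theorem isReduced_Tloc (hNS : ∀ q : ℕ, q.Prime → q ∣ N → q ∈ S) : IsReduced (Tloc 𝒪 θ) := by
  haveI : IsReduced (heckeAlgebra N 2 (↑S : Set ℕ)) :=
    Fermat.Agent.GS.Pet.isReduced_heckeAlgebra N 2 (↑S : Set ℕ) (fun q hq hqN => hNS q hq hqN)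
  exact Fermat.Agent.GS.Pet.DatumAlg.isReduced_of_adjoin_range (O := 𝒪) (piT 𝒪 θ)
    (adjoin_range_piT 𝒪 θ)

theorem natCast_mem_maximalIdeal_Tloc {p : ℕ} (hp𝒪 : (p : 𝒪) ∈ maximalIdeal 𝒪) :
    (p : Tloc 𝒪 θ) ∈ maximalIdeal (Tloc 𝒪 θ) := by
  rw [mem_maximalIdeal, mem_nonunits_iff] at hp𝒪 ⊢
  intro h
  apply hp𝒪
  have h' : IsUnit (algebraMap 𝒪 (Tloc 𝒪 θ) (p : 𝒪)) := by rwa [map_natCast]
  exact isUnit_of_map_unit (algebraMap 𝒪 (Tloc 𝒪 θ)) _ h'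

/-- **D1: existence of the datum.** -/
theorem exists_datum [Finite (ResidueField 𝒪)] (p : ℕ) (hp : p.Prime) (hp2 : p ≠ 2)
    (hp𝒪 : (p : 𝒪) ∈ maximalIdeal 𝒪) (hpS : p ∈ S)
    (hNS : ∀ q : ℕ, q.Prime → q ∣ N → q ∈ S) (hirr : ResAbsIrrAt 𝒪 θ) :
    ∃ H : HeckeGaloisRepDatum N (↑S : Set ℕ) 𝒪 θ (Tloc 𝒪 θ),
      H.π = piT 𝒪 θ ∧ H.ρ.DetIsCyclotomic p := by
  classical
  haveI : Fact p.Prime := ⟨hp⟩
  haveI hred : IsReduced (Tloc 𝒪 θ) := isReduced_Tloc 𝒪 θ hNS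
  -- the points
  haveI : Fintype (Idx 𝒪 (Tloc 𝒪 θ)) := Fintype.ofFinite _
  -- S30 at every point
  have h30 := fun q : Idx 𝒪 (Tloc 𝒪 θ) =>
    Fermat.Agent.S30.result p N S hpS hNS (Rq q) (natCast_mem_maximalIdeal_Rq q hp𝒪)
      ((ψ q : Tloc 𝒪 θ →+* Rq q).comp (piT 𝒪 θ))
  choose O'' iCR iDom iDVR iAC iFin iCZ iAlg iMF iLH hinj'' ρ'' hchar'' hunr'' using h30
  letI : ∀ q, CommRing (O'' q) := iCR
  haveI : ∀ q, IsDomain (O'' q) := iDom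
  haveI : ∀ q, IsDiscreteValuationRing (O'' q) := iDVR
  letI : ∀ q, Algebra (Rq q) (O'' q) := iAlg
  haveI : ∀ q, IsLocalHom (algebraMap (Rq q) (O'' q)) := iLH
  let f : ∀ q, Tloc 𝒪 θ →+* O'' q := fun q =>
    (algebraMap (Rq q) (O'' q)).comp (ψ q : Tloc 𝒪 θ →+* Rq q)
  have hloc : ∀ q, IsLocalHom (f q) := fun q => by
    haveI := isLocalHom_ψ (𝒪 := 𝒪) (T := Tloc 𝒪 θ) q
    exact RingHom.isLocalHom_comp _ _
  have hinj : ∀ t : Tloc 𝒪 θ, (∀ q, f q t = 0) → t = 0 := by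
    intro t ht
    apply eq_zero_of_forall_ψ (𝒪 := 𝒪) (T := Tloc 𝒪 θ)
    intro q
    apply hinj'' q
    rw [map_zero]
    exact ht q
  have hℓN : ∀ ℓ : ℕ, ℓ.Prime → ℓ ∉ S → ¬ ℓ ∣ N := fun ℓ hℓ hℓS h => hℓS (hNS ℓ hℓ h)
  have hfrob : ∀ ℓ : ℕ, ℓ.Prime → ℓ ∉ S → ∀ A : ValuationSubring Qb, A.LiesOverPrime ℓ →
      ∀ σ : GQ, A.IsFrobeniusAt σ ℓ → ∀ q,
        LinearMap.charpoly ((ρ'' q).ρ σ) =
          X ^ 2 - C (f q (piT 𝒪 θ (Fermat.Agent.GJ.Tate.heckeTl N S ℓ))) * X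
            + C ((ℓ : O'' q)) := by
    intro ℓ hℓ hℓS A hA σ hσ q
    have hℓS' : ℓ ∉ (↑S : Set ℕ) := by simpa using hℓS
    rw [Fermat.Agent.GJ.Tate.heckeTl_eq hℓ (hℓN ℓ hℓ hℓS) hℓS']
    exact hchar'' q ℓ hℓ (hℓN ℓ hℓ hℓS) hℓS' A hA σ hσ
  -- a point exists
  obtain ⟨q0⟩ : Nonempty (Idx 𝒪 (Tloc 𝒪 θ)) := by
    by_contra hne
    rw [not_nonempty_iff] at hne
    have : (1 : Tloc 𝒪 θ) = 0 := hinj 1 (fun q => (hne.false q).elim)
    exact one_ne_zero this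
  have hirr0 : (ρ'' q0).residual.IsAbsolutelyIrreducible := by
    refine hirr (O'' q0) (f q0) (hloc q0) (ρ'' q0) ?_
    intro ℓ hℓ hℓN' hℓS A hA σ hσ
    exact hchar'' q0 ℓ hℓ hℓN' hℓS A hA σ hσ
  obtain ⟨ρT, -, -, habs, hchar, hcyc⟩ :=
    Fermat.Agent.GB.Glue.Odd.exists_glue_adic_odd (T := Tloc 𝒪 θ) (O := O'') p hp hp2
      (natCast_mem_maximalIdeal_Tloc 𝒪 θ hp𝒪) f hloc hinj ρ'' S hpS
      (fun ℓ => piT 𝒪 θ (Fermat.Agent.GJ.Tate.heckeTl N S ℓ)) hfrob q0 hirr0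
  refine ⟨mkDatum 𝒪 θ ρT ?_ habs, rfl, hcyc⟩
  intro ℓ hℓ hℓN' hℓS A hA σ hσ
  have hℓS' : ℓ ∉ S := by simpa using hℓS
  have := hchar ℓ hℓ hℓS' A hA σ hσ
  rw [Fermat.Agent.GJ.Tate.heckeTl_eq hℓ hℓN' hℓS] at this
  exact this

end Fermat.Agent.GB.B4.Datum.Rho
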