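/-
GATE-B / PROVIDER group G3, referee fix (N2) of PROVIDER GAPS v1 (helper28): **the Galois
representation over `T_Q` and `ψ : R_Q ↠ T_Q` for the FRAMED flat deformation problem, with the set
`S` of the Hecke algebra DECOUPLED from the ramification set of the deformation problem.**

`TQGal.exists_galRep_flat_of_rhobar` / `PushTloc.exists_galRep_flat` export
`flatCondition 𝒪 p Tram ρ_Q` only for `Tram ⊇ S` (`S` = the primes removed from the Hecke algebra),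
while the B3 symbols force `S ⊇ bad(W)` and the framed problem
`framedCond p (flatCondition 𝒪 p) Smin Su Q` asks `Tram = Smin ∪ Su ∪ Q` (= primes of the level and
`p`).  But `DatumOfRhobar.exists_datum` proves MORE than `TQGal` re-exports: `H.ρ` is unramified at
EVERY prime `q ∤ N p`.  Here:

* `flatCond_push_of_unr` : `flatCondition 𝒪 p Tram (pushRep H φ)` for ANY `Tram ⊇ primes(N) ∪ {p}`;
* `framedCond_flat_push` : the type `framedCond p (flatCondition 𝒪 p) Smin Su Q` of the pushed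
  representation as soon as `primes(N) ∪ {p} ⊆ Smin ∪ Su ∪ Q` and the primes of `Smin ∖ {p}` exactly
  divide `N`;
* **`exists_rhoQ_psi_flat`** : ONE call for group G3 — `ρ_Q` over `T_Q` together with the surjection
  `ψ : DQ.R ↠ T_Q`, `DQ.ρ ⊗_ψ T_Q ≅ ρ_Q`, the Eichler–Shimura relations, cyclotomic determinant,
  unramifiedness outside `N p`, unipotent inertia at EVERY prime `q ∥ N`, `q ≠ p` (the `htr hSu`
  source of `ThetaT.unip_matT` at the framed primes `≠ q`), and the residual representation.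
-/
import Fermat.Agent.GB.B4.Datum.TQGal
import Fermat.Agent.GB.B4.Datum.PsiTQPush
import Fermat.Agent.GB.Def.FramedNodes

set_option autoImplicit false
set_option linter.style.haveILetI false
set_option linter.unusedSectionVars false

noncomputable section

namespace Fermat.Agent.GB.B4.Datum.TQGalUnr

open CuspForm IsLocalRing Polynomial GaloisRep Fermat.Agent.GB.B4.Datum.Carrier
  Fermat.Agent.GB.B4.Datum.Push Fermat.Agent.GB.B4.Datum.PushTloc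
  Fermat.Agent.GB.Def.FramedNodes

local notation "GQ" => (AlgebraicClosure ℚ ≃ₐ[ℚ] AlgebraicClosure ℚ)
local notation "Qb" => AlgebraicClosure ℚ

variable {p : ℕ} [Fact p.Prime] {N : ℕ} [NeZero N] {S : Finset ℕ}
  {𝒪 : Type} [CommRing 𝒪] [IsDomain 𝒪] [IsDiscreteValuationRing 𝒪]
  [IsAdicComplete (maximalIdeal 𝒪) 𝒪] [Finite (ResidueField 𝒪)] [CharZero 𝒪]
  {θ : heckeAlgebra N 2 (↑S : Set ℕ) →+* ResidueField 𝒪}

section Push

variable {T : Type} [CommRing T] [IsLocalRing T] [IsNoetherianRing T]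
  [IsAdicComplete (maximalIdeal T) T] [Algebra 𝒪 T] [IsLocalHom (algebraMap 𝒪 T)]
  [Module.Finite 𝒪 T] [Module.Free 𝒪 T]
  {TQ : Type} [CommRing TQ] [IsLocalRing TQ] [Algebra 𝒪 TQ]

/-- **the flat condition of the pushed representation at ANY `Tram ⊇ primes(N) ∪ {p}`**, from the
unramifiedness of `H.ρ` outside `N p`. -/
theorem flatCond_push_of_unr (hp2 : p ≠ 2) (hp𝒪 : (p : 𝒪) ∈ maximalIdeal 𝒪) (hpN : ¬ p ∣ N)
    (hpS : p ∈ S) (hNS : ∀ q : ℕ, q.Prime → q ∣ N → q ∈ S)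
    (H : HeckeGaloisRepDatum N (↑S : Set ℕ) 𝒪 θ T)
    (hunr : ∀ q : ℕ, q.Prime → ¬ q ∣ N → q ≠ p → H.ρ.IsUnramifiedAt q)
    (φ : T →+* TQ) (hφ : IsLocalHom φ) (hsurj : Function.Surjective φ)
    (Tram Smin : Finset ℕ) (hNT : ∀ q : ℕ, q.Prime → q ∣ N → q ∈ Tram) (hpT : p ∈ Tram)
    (hSmin : ∀ q ∈ Smin, q.Prime → q ≠ p → q ∣ N ∧ ¬ q ^ 2 ∣ N) :
    GaloisRep.flatCondition 𝒪 p Tram (pushRep H φ hφ) ∧
      ∀ q ∈ Smin, q.Prime → q ≠ p → (pushRep H φ hφ).IsUnipotentOnInertiaAt q := by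
  have hp : p.Prime := Fact.out
  refine ⟨⟨detIsCyclotomic_push hp hp𝒪 hpS H φ hφ,
      isFlatAt_push hp hp2 hp𝒪 hpN hpS hNS H φ hφ hsurj, fun q hq hqT => ?_⟩,
    fun q hqm hq hqp => isUnipotentOnInertiaAt_push hp hp𝒪 hpS hNS H φ hφ q hq hqp
      (hSmin q hqm hq hqp).1 (hSmin q hqm hq hqp).2⟩
  exact Fermat.Agent.GP.Tan.isUnramifiedAt_baseChangeAlong φ hφ
    (hunr q hq (fun h => hqT (hNT q hq h)) (fun h => hqT (h ▸ hpT)))

/-- **the framed flat type of the pushed representation.** -/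
theorem framedCond_flat_push (hp2 : p ≠ 2) (hp𝒪 : (p : 𝒪) ∈ maximalIdeal 𝒪) (hpN : ¬ p ∣ N)
    (hpS : p ∈ S) (hNS : ∀ q : ℕ, q.Prime → q ∣ N → q ∈ S)
    (H : HeckeGaloisRepDatum N (↑S : Set ℕ) 𝒪 θ T)
    (hunr : ∀ q : ℕ, q.Prime → ¬ q ∣ N → q ≠ p → H.ρ.IsUnramifiedAt q)
    (φ : T →+* TQ) (hφ : IsLocalHom φ) (hsurj : Function.Surjective φ)
    (Smin Su Q : Finset ℕ) (hNT : ∀ q : ℕ, q.Prime → q ∣ N → q ∈ Smin ∪ Su ∪ Q)
    (hpT : p ∈ Smin ∪ Su ∪ Q)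
    (hSmin : ∀ q ∈ Smin, q.Prime → q ≠ p → q ∣ N ∧ ¬ q ^ 2 ∣ N) :
    framedCond p (GaloisRep.flatCondition 𝒪 p) Smin Su Q (pushRep H φ hφ) :=
  flatCond_push_of_unr hp2 hp𝒪 hpN hpS hNS H hunr φ hφ hsurj (Smin ∪ Su ∪ Q) Smin hNT hpT hSmin

end Push

variable {TQ : Type} [CommRing TQ] [IsLocalRing TQ] [IsNoetherianRing TQ]
  [IsAdicComplete (maximalIdeal TQ) TQ] [Algebra 𝒪 TQ] [IsLocalHom (algebraMap 𝒪 TQ)]

/-- **PROVIDER group G3, flat case, in ONE call**: `ρ_Q` over `T_Q` of the framed flat type and the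
surjection `ψ : DQ.R ↠ T_Q` from ANY deformation ring of the framed problem
`framedCond p (flatCondition 𝒪 p) Smin Su Q`; the set `S` of the Hecke algebra is only asked to
contain `p` and the primes of `N` (it MAY contain the bad primes of the curve). -/
theorem exists_rhoQ_psi_flat (hp2 : p ≠ 2) (hp𝒪 : (p : 𝒪) ∈ maximalIdeal 𝒪) (hpN : ¬ p ∣ N)
    (hpS : p ∈ S) (hNS : ∀ q : ℕ, q.Prime → q ∣ N → q ∈ S)
    (ρbar : ResidualGaloisRep (ResidueField 𝒪)) (habs : ρbar.IsAbsolutelyIrreducible)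
    (hfrob : ∀ (ℓ : ℕ) (hℓ : ℓ.Prime) (hℓN : ¬ ℓ ∣ N) (hℓS : ℓ ∉ (↑S : Set ℕ)),
      ∀ P : ValuationSubring Qb, P.LiesOverPrime ℓ → ∀ σ : GQ, P.IsFrobeniusAt σ ℓ →
        ∃ d₀ : ResidueField 𝒪, LinearMap.charpoly (ρbar.ρ σ) =
          X ^ 2 - C (θ (heckeAlgebra.T hℓ hℓN hℓS)) * X + C d₀)
    (tw : heckeAlgebra N 2 (↑S : Set ℕ) →+* TQ)
    (hres : ∀ t, residue TQ (tw t) = ResidueField.map (algebraMap 𝒪 TQ) (θ t))
    (hgen : Algebra.adjoin 𝒪 (Set.range tw) = ⊤)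
    (hressurj : Function.Surjective (residue TQ ∘ algebraMap 𝒪 TQ))
    (Smin Su Q : Finset ℕ) (hNT : ∀ q : ℕ, q.Prime → q ∣ N → q ∈ Smin ∪ Su ∪ Q)
    (hpT : p ∈ Smin ∪ Su ∪ Q)
    (hSmin : ∀ q ∈ Smin, q.Prime → q ≠ p → q ∣ N ∧ ¬ q ^ 2 ∣ N)
    (DQ : DeformationRingData 𝒪 ρbar (framedCond p (GaloisRep.flatCondition 𝒪 p) Smin Su Q)) :
    ∃ (ρQ : GaloisRepAdic TQ) (ψ : DQ.R →ₐ[𝒪] TQ) (hψ : IsLocalHom (ψ : DQ.R →+* TQ)),
      Function.Surjective ψ ∧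
      (DQ.ρ.baseChangeAlong (ψ : DQ.R →+* TQ) hψ).IsEquiv ρQ ∧
      (∀ (ℓ : ℕ) (hℓ : ℓ.Prime) (hℓN : ¬ ℓ ∣ N) (hℓS : ℓ ∉ (↑S : Set ℕ))
        (A : ValuationSubring Qb), A.LiesOverPrime ℓ → ∀ σ : GQ, A.IsFrobeniusAt σ ℓ →
          LinearMap.charpoly (ρQ.ρ σ) =
            X ^ 2 - C (tw (heckeAlgebra.T hℓ hℓN hℓS)) * X + C ((ℓ : TQ))) ∧
      ρQ.DetIsCyclotomic p ∧
      (∀ q : ℕ, q.Prime → ¬ q ∣ N → q ≠ p → ρQ.IsUnramifiedAt q) ∧
      (∀ q : ℕ, q.Prime → q ≠ p → q ∣ N → ¬ q ^ 2 ∣ N → ρQ.IsUnipotentOnInertiaAt q) ∧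
      ρQ.residual.IsEquiv (ρbar.baseChangeAlong (ResidueField.map (algebraMap 𝒪 TQ))) := by
  have hp : p.Prime := Fact.out
  obtain ⟨H, hπ, -, hunr, hres'⟩ :=
    Fermat.Agent.GB.Glue.DatumOfRhobar.exists_datum p N S 𝒪 θ hp2 hpS hNS hp𝒪 ρbar habs hfrob
  obtain ⟨φ, hφt, hloc, hsurj⟩ := exists_phi 𝒪 θ tw hres hgen
  have hchar : ∀ (ℓ : ℕ) (hℓ : ℓ.Prime) (hℓN : ¬ ℓ ∣ N) (hℓS : ℓ ∉ (↑S : Set ℕ))
      (A : ValuationSubring Qb), A.LiesOverPrime ℓ → ∀ σ : GQ, A.IsFrobeniusAt σ ℓ →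
        LinearMap.charpoly ((pushRep H φ.toRingHom hloc).ρ σ) =
          X ^ 2 - C (tw (heckeAlgebra.T hℓ hℓN hℓS)) * X + C ((ℓ : TQ)) := by
    intro ℓ hℓ hℓN hℓS A hA σ hσ
    have h := charpoly_frob_push H φ.toRingHom hloc ℓ hℓ hℓN hℓS A hA σ hσ
    rw [hπ] at h
    rw [h]
    congr 3
    exact congrArg _ (hφt _)
  have hresQ : (pushRep H φ.toRingHom hloc).residual.IsEquiv
      (ρbar.baseChangeAlong (ResidueField.map (algebraMap 𝒪 TQ))) := by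
    have h := residual_push H.ρ φ.toRingHom hloc ρbar
      (ResidueField.map (algebraMap 𝒪 (Tloc 𝒪 θ))) hres'
    haveI := hloc
    have e : (ResidueField.map φ.toRingHom).comp
        (ResidueField.map (algebraMap 𝒪 (Tloc 𝒪 θ))) = ResidueField.map (algebraMap 𝒪 TQ) := by
      ext x
      obtain ⟨a, rfl⟩ := residue_surjective x
      rw [RingHom.comp_apply, ResidueField.map_residue, ResidueField.map_residue,
        ResidueField.map_residue]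
      congr 1
      exact φ.commutes a
    rw [e] at h
    exact h
  have h𝒟 : framedCond p (GaloisRep.flatCondition 𝒪 p) Smin Su Q
      (pushRep H φ.toRingHom hloc) :=
    framedCond_flat_push hp2 hp𝒪 hpN hpS hNS H hunr φ.toRingHom hloc hsurj Smin Su Q hNT hpT hSmin
  obtain ⟨ψ, hψ, hψsurj, he⟩ :=
    Fermat.Agent.GB.B4.Datum.PsiTQPush.exists_psi_of_type DQ hNS hressurj
      (pushRep H φ.toRingHom hloc) h𝒟 hresQ tw hgen hchar
  refine ⟨pushRep H φ.toRingHom hloc, ψ, hψ, hψsurj, he, hchar,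
    detIsCyclotomic_push hp hp𝒪 hpS H φ.toRingHom hloc, fun q hq hqN hqp => ?_,
    fun q hq hqp hqN hq2 =>
      isUnipotentOnInertiaAt_push hp hp𝒪 hpS hNS H φ.toRingHom hloc q hq hqp hqN hq2, hresQ⟩
  exact Fermat.Agent.GP.Tan.isUnramifiedAt_baseChangeAlong φ.toRingHom hloc (hunr q hq hqN hqp)

end Fermat.Agent.GB.B4.Datum.TQGalUnr
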