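/-
GATE-B / PROVIDER group G2, gap (N1) of PROVIDER GAPS v1 (helper28): **the residual character
`θ_Q` of a (twisted) Hecke action EXISTS** — Mathlib only.

Every B4 consumer (`ImageRing.TQ`, `LocHyp`, `TQFields`, `TQGal`, `PsiTQ`) takes a ring homomorphism
`θ : A →+* ResidueField O` on the Hecke algebra `A` of the (twisted) Taylor–Wiles level as GIVEN.
Here it is constructed from the action itself:

`exists_theta_of_nil` : `M ≠ 0` a finite `O`-module (`O` local), `tw : A →+* End_O M` (`A`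
commutative), `G` a generating set of `A`, and for `t ∈ G` a scalar `c t : O` such that
`tw t - c t` is nilpotent modulo `𝔪_O M` (for `t = T_ℓ`: `c = ` a lift of `a_ℓ(W)`, because
`tw (T_ℓ) = ⟨d_ℓ⟩ ∘ act (X_ℓ)` with `⟨d_ℓ⟩` unipotent mod `𝔪_O` and `X_ℓ - a_ℓ ∈ 𝔪_Q` acting
nilpotently mod `𝔪_O` on the `𝔪_Q`-primary module).  Then there is a UNIQUE ring homomorphism
`θ : A →+* ResidueField O` with `θ t = c t mod 𝔪_O` for `t ∈ G`; moreover `θ t = c' mod 𝔪_O` for
EVERY `t : A`, `c' : O` with `tw t - c'` nilpotent modulo `𝔪_O M`.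

Proof: `I := {r ∈ O ⊗ A | r acts nilpotently mod 𝔪_O M}` is an ideal, `O → (O ⊗ A)/I` is onto with
kernel `𝔪_O` (Nakayama), and `θ` is `A → (O ⊗ A)/I ≅ O/𝔪_O`.
-/
import Mathlib

set_option autoImplicit false
set_option linter.unusedSectionVars false

noncomputable section

namespace Fermat.Agent.GB.B4.Datum.ThetaOfNil

open TensorProduct IsLocalRing

variable {O : Type*} [CommRing O] [IsLocalRing O]
  {M : Type*} [AddCommGroup M] [Module O M]

/-- `f` is nilpotent modulo `𝔪_O M`. -/
def NilModMax (f : Module.End O M) : Prop :=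
  ∃ n : ℕ, ∀ x : M, (f ^ n) x ∈ (maximalIdeal O • ⊤ : Submodule O M)

theorem map_mem_smul_top (h : Module.End O M) {y : M}
    (hy : y ∈ (maximalIdeal O • ⊤ : Submodule O M)) :
    h y ∈ (maximalIdeal O • ⊤ : Submodule O M) := by
  have h1 : (maximalIdeal O • ⊤ : Submodule O M).map h ≤ maximalIdeal O • ⊤ := by
    rw [Submodule.map_smul'']
    exact Submodule.smul_mono le_rfl le_top
  exact h1 (Submodule.mem_map_of_mem hy)

theorem nilModMax_zero : NilModMax (0 : Module.End O M) :=
  ⟨1, fun x => by rw [pow_one, LinearMap.zero_apply]; exact Submodule.zero_mem _⟩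

theorem nilModMax_algebraMap {c : O} (hc : c ∈ maximalIdeal O) :
    NilModMax (algebraMap O (Module.End O M) c) :=
  ⟨1, fun x => by
    rw [pow_one, Module.algebraMap_end_apply]
    exact Submodule.smul_mem_smul hc Submodule.mem_top⟩

theorem NilModMax.mul_left {f : Module.End O M} (hf : NilModMax f) (g : Module.End O M)
    (hfg : Commute g f) : NilModMax (g * f) := by
  obtain ⟨n, hn⟩ := hf
  refine ⟨n, fun x => ?_⟩
  rw [hfg.mul_pow, Module.End.mul_apply]
  exact map_mem_smul_top _ (hn x)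

theorem NilModMax.add {f g : Module.End O M} (hf : NilModMax f) (hg : NilModMax g)
    (hfg : Commute f g) : NilModMax (f + g) := by
  obtain ⟨n, hn⟩ := hf
  obtain ⟨m, hm⟩ := hg
  refine ⟨n + m, fun x => ?_⟩
  rw [hfg.add_pow', LinearMap.sum_apply]
  refine Submodule.sum_mem _ fun ij hij => ?_
  rw [LinearMap.smul_apply]
  refine Submodule.smul_of_tower_mem _ _ ?_
  have hsum : ij.1 + ij.2 = n + m := Finset.HasAntidiagonal.mem_antidiagonal.mp hij
  rcases le_or_gt n ij.1 with h1 | h1
  · -- `f ^ i = f ^ (i - n) * f ^ n`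
    have e : f ^ ij.1 * g ^ ij.2 = (f ^ (ij.1 - n) * g ^ ij.2) * f ^ n := by
      rw [mul_assoc, ((hfg.pow_pow n ij.2).symm).eq, ← mul_assoc, ← pow_add,
        Nat.sub_add_cancel h1]
    rw [e, Module.End.mul_apply]
    exact map_mem_smul_top _ (hn x)
  · have h2 : m ≤ ij.2 := by omega
    have e : f ^ ij.1 * g ^ ij.2 = (f ^ ij.1 * g ^ (ij.2 - m)) * g ^ m := by
      rw [mul_assoc, ← pow_add, Nat.sub_add_cancel h2]
    rw [e, Module.End.mul_apply]
    exact map_mem_smul_top _ (hm x)

/-- **Nakayama**: the identity of a non-zero finite module is not nilpotent modulo `𝔪_O M`. -/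
theorem not_nilModMax_one [Module.Finite O M] [Nontrivial M] :
    ¬ NilModMax (1 : Module.End O M) := by
  rintro ⟨n, hn⟩
  have hle : (⊤ : Submodule O M) ≤ maximalIdeal O • ⊤ := fun x _ => by
    have := hn x
    rwa [one_pow, Module.End.one_apply] at this
  have hbot : (⊤ : Submodule O M) = ⊥ :=
    Submodule.eq_bot_of_le_smul_of_le_jacobson_bot (maximalIdeal O) ⊤ Module.Finite.fg_top hle
      (maximalIdeal_le_jacobson ⊥)
  exact top_ne_bot hbot

variable {A : Type*} [CommRing A]

/-- the `O`-linear extension of `tw` to `O ⊗[ℤ] A`. -/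
def ext (tw : A →+* Module.End O M) : O ⊗[ℤ] A →ₐ[O] Module.End O M :=
  Algebra.TensorProduct.lift (Algebra.ofId O (Module.End O M)) tw.toIntAlgHom
    (fun x y => (Algebra.commute_algebraMap_left x (tw.toIntAlgHom y) :
      Commute (Algebra.ofId O (Module.End O M) x) (tw.toIntAlgHom y)))

theorem ext_tmul (tw : A →+* Module.End O M) (x : O) (t : A) :
    ext tw (x ⊗ₜ t) = algebraMap O (Module.End O M) x * tw t :=
  Algebra.TensorProduct.lift_tmul (Algebra.ofId O (Module.End O M)) tw.toIntAlgHom _ x t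

theorem ext_commute (tw : A →+* Module.End O M) (r s : O ⊗[ℤ] A) :
    Commute (ext tw r) (ext tw s) :=
  (Commute.all r s).map (ext tw)

/-- the ideal of the elements acting nilpotently modulo `𝔪_O M`. -/
def nilIdeal (tw : A →+* Module.End O M) : Ideal (O ⊗[ℤ] A) where
  carrier := {r | NilModMax (ext tw r)}
  zero_mem' := by
    show NilModMax (ext tw 0)
    rw [map_zero]
    exact nilModMax_zero
  add_mem' := by
    intro r s hr hs
    show NilModMax (ext tw (r + s))
    rw [map_add]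
    exact NilModMax.add hr hs (ext_commute tw r s)
  smul_mem' := by
    intro r s hs
    show NilModMax (ext tw (r • s))
    rw [smul_eq_mul, map_mul]
    exact NilModMax.mul_left hs _ (ext_commute tw r s)

theorem mem_nilIdeal {tw : A →+* Module.End O M} {r : O ⊗[ℤ] A} :
    r ∈ nilIdeal tw ↔ NilModMax (ext tw r) := Iff.rfl

/-- `A → O ⊗ A`. -/
def incl : A →+* O ⊗[ℤ] A := (Algebra.TensorProduct.includeRight : A →ₐ[ℤ] O ⊗[ℤ] A).toRingHom

theorem incl_apply (t : A) : (incl t : O ⊗[ℤ] A) = 1 ⊗ₜ t := rfl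

theorem ext_incl (tw : A →+* Module.End O M) (t : A) : ext tw (incl t) = tw t := by
  rw [incl_apply, ext_tmul, map_one, one_mul]

theorem ext_incl_sub (tw : A →+* Module.End O M) (t : A) (c : O) :
    ext tw (incl t - algebraMap O (O ⊗[ℤ] A) c) = tw t - algebraMap O (Module.End O M) c := by
  rw [map_sub, ext_incl, AlgHom.commutes]

section Gen

variable (tw : A →+* Module.End O M) (G : Set A) (hG : Algebra.adjoin ℤ G = ⊤) (c : A → O)
  (h : ∀ t ∈ G, NilModMax (tw t - algebraMap O (Module.End O M) (c t)))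

include hG h

/-- every element of `A` is a scalar modulo the nil ideal -/
theorem exists_scalar_incl (t : A) :
    ∃ c' : O, incl t - algebraMap O (O ⊗[ℤ] A) c' ∈ nilIdeal tw := by
  have ht : t ∈ Algebra.adjoin ℤ G := hG ▸ Algebra.mem_top
  induction ht using Algebra.adjoin_induction with
  | mem t ht =>
    refine ⟨c t, ?_⟩
    rw [mem_nilIdeal, ext_incl_sub]
    exact h t ht
  | algebraMap n =>
    refine ⟨(n : O), ?_⟩
    have : (incl (algebraMap ℤ A n) : O ⊗[ℤ] A) = algebraMap O (O ⊗[ℤ] A) (n : O) := by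
      rw [eq_intCast, map_intCast, map_intCast]
    rw [this, sub_self]
    exact Ideal.zero_mem _
  | add t t' _ _ ih ih' =>
    obtain ⟨a, ha⟩ := ih
    obtain ⟨b, hb⟩ := ih'
    refine ⟨a + b, ?_⟩
    have : (incl (t + t') : O ⊗[ℤ] A) - algebraMap O (O ⊗[ℤ] A) (a + b) =
        (incl t - algebraMap O (O ⊗[ℤ] A) a) + (incl t' - algebraMap O (O ⊗[ℤ] A) b) := by
      rw [map_add, map_add]; ring
    rw [this]
    exact Ideal.add_mem _ ha hb
  | mul t t' _ _ ih ih' =>
    obtain ⟨a, ha⟩ := ih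
    obtain ⟨b, hb⟩ := ih'
    refine ⟨a * b, ?_⟩
    have : (incl (t * t') : O ⊗[ℤ] A) - algebraMap O (O ⊗[ℤ] A) (a * b) =
        incl t' * (incl t - algebraMap O (O ⊗[ℤ] A) a) +
          algebraMap O (O ⊗[ℤ] A) a * (incl t' - algebraMap O (O ⊗[ℤ] A) b) := by
      rw [map_mul, map_mul]; ring
    rw [this]
    exact Ideal.add_mem _ (Ideal.mul_mem_left _ _ ha) (Ideal.mul_mem_left _ _ hb)

/-- every element of `O ⊗ A` is a scalar modulo the nil ideal -/
theorem exists_scalar (r : O ⊗[ℤ] A) :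
    ∃ c' : O, r - algebraMap O (O ⊗[ℤ] A) c' ∈ nilIdeal tw := by
  induction r using TensorProduct.induction_on with
  | zero => exact ⟨0, by rw [map_zero, sub_zero]; exact Ideal.zero_mem _⟩
  | tmul x t =>
    obtain ⟨a, ha⟩ := exists_scalar_incl tw G hG c h t
    refine ⟨x * a, ?_⟩
    have : (x ⊗ₜ[ℤ] t : O ⊗[ℤ] A) - algebraMap O (O ⊗[ℤ] A) (x * a) =
        algebraMap O (O ⊗[ℤ] A) x * (incl t - algebraMap O (O ⊗[ℤ] A) a) := by
      rw [map_mul, mul_sub, incl_apply, Algebra.TensorProduct.algebraMap_apply,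
        Algebra.TensorProduct.tmul_mul_tmul, mul_one, one_mul]
      rfl
    rw [this]
    exact Ideal.mul_mem_left _ _ ha
  | add r s ih ih' =>
    obtain ⟨a, ha⟩ := ih
    obtain ⟨b, hb⟩ := ih'
    refine ⟨a + b, ?_⟩
    have : r + s - algebraMap O (O ⊗[ℤ] A) (a + b) =
        (r - algebraMap O (O ⊗[ℤ] A) a) + (s - algebraMap O (O ⊗[ℤ] A) b) := by
      rw [map_add]; ring
    rw [this]
    exact Ideal.add_mem _ ha hb

end Gen

/-- `O → (O ⊗ A)/I`. -/
def toQuot (tw : A →+* Module.End O M) : O →+* (O ⊗[ℤ] A) ⧸ nilIdeal tw :=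
  (Ideal.Quotient.mk (nilIdeal tw)).comp (algebraMap O (O ⊗[ℤ] A))

theorem ker_toQuot [Module.Finite O M] [Nontrivial M] (tw : A →+* Module.End O M) :
    RingHom.ker (toQuot tw) = maximalIdeal O := by
  ext a
  rw [RingHom.mem_ker, toQuot, RingHom.comp_apply, Ideal.Quotient.eq_zero_iff_mem, mem_nilIdeal,
    AlgHom.commutes]
  constructor
  · intro ha
    by_contra hmem
    have hu : IsUnit a := by
      by_contra hnu
      exact hmem ((mem_maximalIdeal a).mpr hnu)
    obtain ⟨u, rfl⟩ := hu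
    have h1 := NilModMax.mul_left ha (algebraMap O (Module.End O M) (↑u⁻¹ : O))
      (Algebra.commute_algebraMap_left _ _)
    rw [← map_mul, Units.inv_mul, map_one] at h1
    exact not_nilModMax_one h1
  · exact nilModMax_algebraMap

/-- **(N1): the residual character of a Hecke action exists.** -/
theorem exists_theta_of_nil [Module.Finite O M] [Nontrivial M] (tw : A →+* Module.End O M)
    (G : Set A) (hG : Algebra.adjoin ℤ G = ⊤) (c : A → O)
    (h : ∀ t ∈ G, NilModMax (tw t - algebraMap O (Module.End O M) (c t))) :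
    ∃ θ : A →+* ResidueField O, (∀ t ∈ G, θ t = residue O (c t)) ∧
      ∀ (t : A) (c' : O), NilModMax (tw t - algebraMap O (Module.End O M) c') →
        θ t = residue O c' := by
  have hsurj : Function.Surjective (toQuot tw) := by
    intro y
    obtain ⟨r, rfl⟩ := Ideal.Quotient.mk_surjective y
    obtain ⟨c', hc'⟩ := exists_scalar tw G hG c h r
    refine ⟨c', ?_⟩
    rw [toQuot, RingHom.comp_apply]
    exact (Ideal.Quotient.eq.mpr hc').symm
  -- `O/𝔪 ≃ (O ⊗ A)/I`
  let e : ResidueField O ≃+* (O ⊗[ℤ] A) ⧸ nilIdeal tw :=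
    (Ideal.quotEquivOfEq (ker_toQuot tw).symm).trans
      (RingHom.quotientKerEquivOfSurjective hsurj)
  have he : ∀ a : O, e (residue O a) = toQuot tw a := fun a => rfl
  let θ : A →+* ResidueField O :=
    (e.symm : _ →+* _).comp ((Ideal.Quotient.mk (nilIdeal tw)).comp incl)
  have key : ∀ (t : A) (c' : O), NilModMax (tw t - algebraMap O (Module.End O M) c') →
      θ t = residue O c' := by
    intro t c' hc'
    have hmem : incl t - algebraMap O (O ⊗[ℤ] A) c' ∈ nilIdeal tw := by
      rw [mem_nilIdeal, ext_incl_sub]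
      exact hc'
    have h1 : Ideal.Quotient.mk (nilIdeal tw) (incl t) = toQuot tw c' := by
      rw [toQuot, RingHom.comp_apply]
      exact Ideal.Quotient.eq.mpr hmem
    show e.symm (Ideal.Quotient.mk (nilIdeal tw) (incl t)) = residue O c'
    rw [h1, ← he, RingEquiv.symm_apply_apply]
  exact ⟨θ, fun t ht => key t (c t) (h t ht), key⟩

end Fermat.Agent.GB.B4.Datum.ThetaOfNil
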