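/-
GATE-B / (N1) of helper28's PROVIDER GAPS v1 (board 6415), route (β), ABSTRACT core (helper33):
**the residual character `θ_Q : A →+* k` EXISTS as soon as the (twisted) Hecke action on a NONZERO
finite `𝒪`-module is "scalar + nilpotent mod `𝔪_𝒪`" on generators.**

`𝒪` local with residue field `k`, `A` a commutative ring (the anemic Hecke algebra at the twisted
Taylor–Wiles level), `M` a finite nonzero `𝒪`-module (`P_Q`, the localised Betti module),
`tw : A →+* End_𝒪 M`, `G ⊆ A` generating `A` as a ring, `c : A → 𝒪` (`c (T_ℓ) = a_ℓ(W)`), and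
for `t ∈ G` the operator `tw t - c t` is nilpotent modulo `𝔪_𝒪 M`
(this is helper73's `NilMod (tw t - algebraMap 𝒪 _ (c t))`, `GB/B4/Datum/LocHypTwist`, unfolded).
Then there is a ring hom `θ : A →+* k` with `θ t = residue (c t)` on `G`; moreover for EVERY `a : A`
`θ a` is the residue of the unique-mod-`𝔪` scalar `s` with `tw a - s` nilpotent modulo `𝔪_𝒪 M`.

* `exists_ringHom_of_nilpotent` : the ring-theoretic core (`E` any `𝒪`-algebra in which unit scalars
  are not nilpotent);
* `red`                          : reduction `End_𝒪 M →+* End_𝒪 (M / 𝔪 M)`;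
* `isNilpotent_red_iff`          : `IsNilpotent (red f) ↔ ∃ n, ∀ x, (f ^ n) x ∈ 𝔪 M`;
* `exists_theta_of_gens`         : **(N1)**, abstract form.
-/
import Mathlib

set_option autoImplicit false

noncomputable section

namespace Fermat.Agent.GB.B4.Datum.ThetaQ

open IsLocalRing

section Core

variable {O : Type*} [CommRing O] [IsLocalRing O] {A : Type*} [CommRing A]
  {E : Type*} [Ring E] [Algebra O E]

/-- "`ρ a` is a scalar plus a nilpotent" -/
def IsSN (ρ : A →+* E) (a : A) (s : O) : Prop := IsNilpotent (ρ a - algebraMap O E s)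

omit [IsLocalRing O] in
theorem isSN_add (ρ : A →+* E) {a b : A} {s s' : O} (ha : IsSN ρ a s) (hb : IsSN ρ b s') :
    IsSN ρ (a + b) (s + s') := by
  unfold IsSN at *
  have hcomm : Commute (ρ a - algebraMap O E s) (ρ b - algebraMap O E s') := by
    have h1 : Commute (ρ a) (ρ b) := by
      show ρ a * ρ b = ρ b * ρ a
      rw [← map_mul, ← map_mul, mul_comm]
    exact (h1.sub_right (Algebra.commute_algebraMap_right s' (ρ a))).sub_left
      ((Algebra.commute_algebraMap_left s (ρ b)).sub_right (Algebra.commute_algebraMap_left s _))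
  have := hcomm.isNilpotent_add ha hb
  rwa [map_add, map_add, add_sub_add_comm]

omit [IsLocalRing O] in
theorem isSN_mul (ρ : A →+* E) {a b : A} {s s' : O} (ha : IsSN ρ a s) (hb : IsSN ρ b s') :
    IsSN ρ (a * b) (s * s') := by
  unfold IsSN at *
  have hab : Commute (ρ a) (ρ b) := by
    show ρ a * ρ b = ρ b * ρ a
    rw [← map_mul, ← map_mul, mul_comm]
  -- `ρ a ρ b - s s' = (ρ a - s) ρ b + s (ρ b - s')`
  have hdecomp : ρ (a * b) - algebraMap O E (s * s') =
      (ρ a - algebraMap O E s) * ρ b + algebraMap O E s * (ρ b - algebraMap O E s') := by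
    rw [map_mul, map_mul]; noncomm_ring
  rw [hdecomp]
  have hc1 : Commute (ρ a - algebraMap O E s) (ρ b) :=
    hab.sub_left (Algebra.commute_algebraMap_left s _)
  have hc2 : Commute (algebraMap O E s) (ρ b - algebraMap O E s') :=
    Algebra.commute_algebraMap_left s _
  have hn1 : IsNilpotent ((ρ a - algebraMap O E s) * ρ b) := hc1.isNilpotent_mul_right ha
  have hn2 : IsNilpotent (algebraMap O E s * (ρ b - algebraMap O E s')) :=
    hc2.isNilpotent_mul_left hb
  refine Commute.isNilpotent_add ?_ hn1 hn2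
  have hc3 : Commute (ρ a - algebraMap O E s) (ρ b - algebraMap O E s') :=
    hc1.sub_right (Algebra.commute_algebraMap_right s' _)
  have hc4 : Commute (ρ b) (ρ b - algebraMap O E s') :=
    (Commute.refl _).sub_right (Algebra.commute_algebraMap_right s' _)
  have hc5 : Commute (ρ a - algebraMap O E s) (algebraMap O E s) :=
    Algebra.commute_algebraMap_right s _
  have hc6 : Commute (ρ b) (algebraMap O E s) := Algebra.commute_algebraMap_right s _
  exact (hc5.mul_right hc3).mul_left (hc6.mul_right hc4)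

omit [IsLocalRing O] in
theorem isSN_intCast (ρ : A →+* E) (n : ℤ) : IsSN ρ (n : A) (n : O) := by
  unfold IsSN
  rw [map_intCast, map_intCast, sub_self]
  exact IsNilpotent.zero

omit [IsLocalRing O] in
/-- every element of `A` is "scalar + nilpotent" if the generators are. -/
theorem exists_isSN (ρ : A →+* E) (G : Set A) (hG : Algebra.adjoin ℤ G = ⊤) (c : A → O)
    (h : ∀ t ∈ G, IsSN ρ t (c t)) (a : A) : ∃ s : O, IsSN ρ a s := by
  have ha : a ∈ Algebra.adjoin ℤ G := by rw [hG]; exact Algebra.mem_top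
  induction ha using Algebra.adjoin_induction with
  | mem x hx => exact ⟨c x, h x hx⟩
  | algebraMap r =>
    refine ⟨(r : O), ?_⟩
    have : algebraMap ℤ A r = (r : A) := by simp
    rw [this]
    exact isSN_intCast ρ r
  | add x y _ _ hx hy =>
    obtain ⟨s, hs⟩ := hx
    obtain ⟨s', hs'⟩ := hy
    exact ⟨s + s', isSN_add ρ hs hs'⟩
  | mul x y _ _ hx hy =>
    obtain ⟨s, hs⟩ := hx
    obtain ⟨s', hs'⟩ := hy
    exact ⟨s * s', isSN_mul ρ hs hs'⟩

/-- the scalar is unique modulo `𝔪_𝒪`. -/
theorem residue_eq_of_isSN (hE : ∀ s : O, IsNilpotent (algebraMap O E s) → s ∈ maximalIdeal O)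
    (ρ : A →+* E) {a : A} {s s' : O} (h : IsSN ρ a s) (h' : IsSN ρ a s') :
    residue O s = residue O s' := by
  unfold IsSN at *
  have hcomm : Commute (ρ a - algebraMap O E s') (ρ a - algebraMap O E s) :=
    ((Commute.refl (ρ a)).sub_right (Algebra.commute_algebraMap_right s _)).sub_left
      (Algebra.commute_algebraMap_left s' _)
  have hn : IsNilpotent (algebraMap O E (s - s')) := by
    have := hcomm.isNilpotent_sub h' h
    rwa [sub_sub_sub_cancel_left, ← map_sub] at this
  have hm := hE _ hn
  rw [← sub_eq_zero, ← map_sub]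
  exact (residue_eq_zero_iff _).2 hm

/-- **Ring-theoretic core of (N1).** -/
theorem exists_ringHom_of_nilpotent
    (hE : ∀ s : O, IsNilpotent (algebraMap O E s) → s ∈ maximalIdeal O)
    (ρ : A →+* E) (G : Set A) (hG : Algebra.adjoin ℤ G = ⊤) (c : A → O)
    (h : ∀ t ∈ G, IsNilpotent (ρ t - algebraMap O E (c t))) :
    ∃ θ : A →+* ResidueField O, (∀ t ∈ G, θ t = residue O (c t)) ∧
      ∀ a : A, ∃ s : O, θ a = residue O s ∧ IsNilpotent (ρ a - algebraMap O E s) := by
  have hex := exists_isSN ρ G hG c h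
  choose sc hsc using hex
  have huniq : ∀ (a : A) (s : O), IsSN ρ a s → residue O (sc a) = residue O s :=
    fun a s hs => residue_eq_of_isSN hE ρ (hsc a) hs
  refine ⟨{ toFun := fun a => residue O (sc a)
            map_one' := ?_
            map_mul' := ?_
            map_zero' := ?_
            map_add' := ?_ }, fun t ht => huniq t (c t) (h t ht), fun a => ⟨sc a, rfl, hsc a⟩⟩
  · have h1 : IsSN ρ (1 : A) (1 : O) := by
      have := isSN_intCast (O := O) ρ (1 : ℤ)
      simpa using this
    rw [huniq 1 1 h1, map_one]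
  · intro a b
    rw [huniq (a * b) (sc a * sc b) (isSN_mul ρ (hsc a) (hsc b)), map_mul]
  · have h0 : IsSN ρ (0 : A) (0 : O) := by
      have := isSN_intCast (O := O) ρ (0 : ℤ)
      simpa using this
    rw [huniq 0 0 h0, map_zero]
  · intro a b
    rw [huniq (a + b) (sc a + sc b) (isSN_add ρ (hsc a) (hsc b)), map_add]

end Core

section Module

variable {O : Type*} [CommRing O] [IsLocalRing O] {M : Type*} [AddCommGroup M] [Module O M]

variable (O M) in
/-- `𝔪_𝒪 M` -/
abbrev mM : Submodule O M := maximalIdeal O • (⊤ : Submodule O M)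

theorem map_mem_mM (f : Module.End O M) {x : M} (hx : x ∈ mM O M) : f x ∈ mM O M := by
  refine Submodule.smul_induction_on hx (fun r hr m _ => ?_) (fun a b ha hb => ?_)
  · rw [map_smul]; exact Submodule.smul_mem_smul hr Submodule.mem_top
  · rw [map_add]; exact add_mem ha hb

/-- reduction of endomorphisms modulo `𝔪_𝒪`. -/
def red : Module.End O M →+* Module.End O (M ⧸ mM O M) where
  toFun f := (mM O M).mapQ (mM O M) f (fun _ hx => map_mem_mM f hx)
  map_one' := by
    refine LinearMap.ext fun y => ?_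
    obtain ⟨x, rfl⟩ := Submodule.Quotient.mk_surjective _ y
    rfl
  map_mul' f g := by
    refine LinearMap.ext fun y => ?_
    obtain ⟨x, rfl⟩ := Submodule.Quotient.mk_surjective _ y
    rfl
  map_zero' := by
    refine LinearMap.ext fun y => ?_
    obtain ⟨x, rfl⟩ := Submodule.Quotient.mk_surjective _ y
    rfl
  map_add' f g := by
    refine LinearMap.ext fun y => ?_
    obtain ⟨x, rfl⟩ := Submodule.Quotient.mk_surjective _ y
    rfl

theorem red_apply_mk (f : Module.End O M) (x : M) :
    red f (Submodule.Quotient.mk x) = Submodule.Quotient.mk (f x) := rfl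

theorem red_algebraMap (s : O) :
    red (algebraMap O (Module.End O M) s) = algebraMap O (Module.End O (M ⧸ mM O M)) s := by
  refine LinearMap.ext fun y => ?_
  obtain ⟨x, rfl⟩ := Submodule.Quotient.mk_surjective _ y
  rfl

theorem red_eq_zero_iff (f : Module.End O M) : red f = 0 ↔ ∀ x, f x ∈ mM O M := by
  constructor
  · intro h x
    have := LinearMap.congr_fun h (Submodule.Quotient.mk x)
    rw [red_apply_mk, LinearMap.zero_apply] at this
    exact (Submodule.Quotient.mk_eq_zero _).1 this
  · intro h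
    refine LinearMap.ext fun y => ?_
    obtain ⟨x, rfl⟩ := Submodule.Quotient.mk_surjective _ y
    rw [red_apply_mk, LinearMap.zero_apply]
    exact (Submodule.Quotient.mk_eq_zero _).2 (h x)

/-- nilpotent modulo `𝔪_𝒪 M`, unfolded (= helper73's `NilMod`). -/
theorem isNilpotent_red_iff (f : Module.End O M) :
    IsNilpotent (red f) ↔ ∃ n : ℕ, ∀ x : M, (f ^ n) x ∈ mM O M := by
  constructor
  · rintro ⟨n, hn⟩
    rw [← map_pow] at hn
    exact ⟨n, (red_eq_zero_iff _).1 hn⟩
  · rintro ⟨n, hn⟩
    refine ⟨n, ?_⟩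
    rw [← map_pow]
    exact (red_eq_zero_iff _).2 hn

/-- on a nonzero finite module, nilpotent scalars (mod `𝔪`) are in `𝔪` (Nakayama). -/
theorem mem_maximalIdeal_of_isNilpotent [Module.Finite O M] [Nontrivial M] (s : O)
    (hs : IsNilpotent (algebraMap O (Module.End O (M ⧸ mM O M)) s)) : s ∈ maximalIdeal O := by
  by_contra hsm
  have hu : IsUnit s := by
    by_contra hnu
    exact hsm ((mem_maximalIdeal s).2 hnu)
  obtain ⟨n, hn⟩ := hs
  rw [← map_pow] at hn
  have hun : IsUnit (s ^ n) := hu.pow n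
  obtain ⟨u, hu'⟩ := hun
  -- every class is zero
  have hall : ∀ x : M, x ∈ mM O M := by
    intro x
    have h1 := LinearMap.congr_fun hn (Submodule.Quotient.mk x)
    rw [Module.algebraMap_end_apply, LinearMap.zero_apply, ← Submodule.Quotient.mk_smul,
      Submodule.Quotient.mk_eq_zero] at h1
    have h2 : x = (↑u⁻¹ : O) • ((s ^ n) • x) := by
      rw [smul_smul, ← hu', Units.inv_mul, one_smul]
    rw [h2]
    exact Submodule.smul_mem _ _ h1
  have htop : (⊤ : Submodule O M) ≤ maximalIdeal O • (⊤ : Submodule O M) := fun x _ => hall x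
  have hbot : (⊤ : Submodule O M) = ⊥ :=
    Submodule.eq_bot_of_le_smul_of_le_jacobson_bot (maximalIdeal O) ⊤ Module.Finite.fg_top htop
      (maximalIdeal_le_jacobson ⊥)
  obtain ⟨x, y, hxy⟩ := exists_pair_ne M
  have hx : x ∈ (⊥ : Submodule O M) := hbot ▸ Submodule.mem_top
  have hy : y ∈ (⊥ : Submodule O M) := hbot ▸ Submodule.mem_top
  rw [Submodule.mem_bot] at hx hy
  exact hxy (hx.trans hy.symm)

variable {A : Type*} [CommRing A]

/-- **(N1), abstract form**: the residual character of the (twisted) Hecke action on a nonzero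
finite `𝒪`-module. -/
theorem exists_theta_of_gens [Module.Finite O M] [Nontrivial M] (tw : A →+* Module.End O M)
    (G : Set A) (hG : Algebra.adjoin ℤ G = ⊤) (c : A → O)
    (h : ∀ t ∈ G, ∃ n : ℕ, ∀ x : M,
      ((tw t - algebraMap O (Module.End O M) (c t)) ^ n) x ∈
        (maximalIdeal O • (⊤ : Submodule O M) : Submodule O M)) :
    ∃ θ : A →+* ResidueField O, (∀ t ∈ G, θ t = residue O (c t)) ∧
      ∀ a : A, ∃ s : O, θ a = residue O s ∧ ∃ n : ℕ, ∀ x : M,
        ((tw a - algebraMap O (Module.End O M) s) ^ n) x ∈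
          (maximalIdeal O • (⊤ : Submodule O M) : Submodule O M) := by
  obtain ⟨θ, hθ, hθ'⟩ := exists_ringHom_of_nilpotent
    (E := Module.End O (M ⧸ mM O M)) (mem_maximalIdeal_of_isNilpotent (M := M))
    ((red (O := O) (M := M)).comp tw) G hG c (fun t ht => by
      have := (isNilpotent_red_iff _).2 (h t ht)
      rwa [map_sub, red_algebraMap] at this)
  refine ⟨θ, hθ, fun a => ?_⟩
  obtain ⟨s, hs, hn⟩ := hθ' a
  refine ⟨s, hs, (isNilpotent_red_iff _).1 ?_⟩
  rw [map_sub, red_algebraMap]
  exact hn

end Module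

end Fermat.Agent.GB.B4.Datum.ThetaQ
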