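/-
GATE-B / (N1) of helper28's PROVIDER GAPS v1 (board 6415), route (β) (helper33): the residual
character `θ_Q`, INDEXED form with UNIQUENESS, on top of `GB/B4/Datum/ThetaQ.lean`.

`g : ι → A` a generating family (`Subring.closure (range g) = ⊤`, the spelling of
`GB/B4/Twist/TwHom`: `g = formsGenS N'' S_Q`), `c : ι → 𝒪` (`c l = a_ℓ(W)`), `tw (g i) - c i`
nilpotent modulo `𝔪_𝒪 M` on the nonzero finite module `M` (`= P_Q`).  Then

  `∃ θ : A →+* k, (∀ i, θ (g i) = residue (c i)) ∧
      ∀ a s, (tw a - s nilpotent mod 𝔪_𝒪 M) → θ a = residue s`.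

The second clause makes `θ` usable for ANY further operator (`U_q`, diamonds, …): its value is read
off from any "scalar + nilpotent" presentation; it also gives helper73's hypothesis
`∃ c, residue c = θ t ∧ NilMod (tw t - c)` of `LocHypTwist.locHyp_of_gens` for free.
-/
import Mathlib
import Fermat.Agent.GB.B4.Datum.ThetaQ

set_option autoImplicit false

noncomputable section

namespace Fermat.Agent.GB.B4.Datum.ThetaQ

open IsLocalRing

theorem adjoin_int_eq_top_of_closure {A : Type*} [CommRing A] (G : Set A)
    (h : Subring.closure G = ⊤) : Algebra.adjoin ℤ G = ⊤ := by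
  rw [eq_top_iff]
  rintro a -
  have ha : a ∈ Subring.closure G := by rw [h]; exact Subring.mem_top a
  induction ha using Subring.closure_induction with
  | mem x hx => exact Algebra.subset_adjoin hx
  | zero => exact zero_mem _
  | one => exact one_mem _
  | add x y _ _ hx hy => exact add_mem hx hy
  | neg x _ hx => exact neg_mem hx
  | mul x y _ _ hx hy => exact mul_mem hx hy

variable {O : Type*} [CommRing O] [IsLocalRing O] {M : Type*} [AddCommGroup M] [Module O M]
  {A : Type*} [CommRing A]

/-- uniqueness of the scalar, in the unfolded spelling. -/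
theorem residue_eq_of_nilMod [Module.Finite O M] [Nontrivial M] (tw : A →+* Module.End O M)
    {a : A} {s s' : O}
    (h : ∃ n : ℕ, ∀ x : M, ((tw a - algebraMap O (Module.End O M) s) ^ n) x ∈
      (maximalIdeal O • (⊤ : Submodule O M) : Submodule O M))
    (h' : ∃ n : ℕ, ∀ x : M, ((tw a - algebraMap O (Module.End O M) s') ^ n) x ∈
      (maximalIdeal O • (⊤ : Submodule O M) : Submodule O M)) :
    residue O s = residue O s' := by
  refine residue_eq_of_isSN (E := Module.End O (M ⧸ mM O M))
    (mem_maximalIdeal_of_isNilpotent (M := M)) ((red (O := O) (M := M)).comp tw) (a := a) ?_ ?_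
  · have := (isNilpotent_red_iff _).2 h
    rwa [map_sub, red_algebraMap] at this
  · have := (isNilpotent_red_iff _).2 h'
    rwa [map_sub, red_algebraMap] at this

/-- **(N1), indexed form with uniqueness.** -/
theorem exists_theta_of_family [Module.Finite O M] [Nontrivial M] (tw : A →+* Module.End O M)
    {ι : Type*} (g : ι → A) (hg : Subring.closure (Set.range g) = ⊤) (c : ι → O)
    (h : ∀ i, ∃ n : ℕ, ∀ x : M,
      ((tw (g i) - algebraMap O (Module.End O M) (c i)) ^ n) x ∈
        (maximalIdeal O • (⊤ : Submodule O M) : Submodule O M)) :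
    ∃ θ : A →+* ResidueField O, (∀ i, θ (g i) = residue O (c i)) ∧
      ∀ (a : A) (s : O), (∃ n : ℕ, ∀ x : M,
        ((tw a - algebraMap O (Module.End O M) s) ^ n) x ∈
          (maximalIdeal O • (⊤ : Submodule O M) : Submodule O M)) → θ a = residue O s := by
  classical
  let c' : A → O := fun t => if ht : ∃ i, g i = t then c (Classical.choose ht) else 0
  have hc' : ∀ t ∈ Set.range g, ∃ n : ℕ, ∀ x : M,
      ((tw t - algebraMap O (Module.End O M) (c' t)) ^ n) x ∈
        (maximalIdeal O • (⊤ : Submodule O M) : Submodule O M) := by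
    intro t ht
    have ht' : ∃ i, g i = t := ht
    have hc't : c' t = c (Classical.choose ht') := dif_pos ht'
    have hspec := Classical.choose_spec ht'
    have := h (Classical.choose ht')
    rw [hspec, ← hc't] at this
    exact this
  obtain ⟨θ, -, hθ'⟩ := exists_theta_of_gens tw (Set.range g)
    (adjoin_int_eq_top_of_closure _ hg) c' hc'
  have huniq : ∀ (a : A) (s : O), (∃ n : ℕ, ∀ x : M,
        ((tw a - algebraMap O (Module.End O M) s) ^ n) x ∈
          (maximalIdeal O • (⊤ : Submodule O M) : Submodule O M)) → θ a = residue O s := by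
    intro a s hs
    obtain ⟨s₀, hs₀, hn₀⟩ := hθ' a
    rw [hs₀]
    exact residue_eq_of_nilMod tw hn₀ hs
  exact ⟨θ, fun i => huniq (g i) (c i) (h i), huniq⟩

end Fermat.Agent.GB.B4.Datum.ThetaQ
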